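import Mathlib
import Fermat.Prelude.Def_GaloisRep_Residual
import Fermat.Prelude.Def_Deformations_MatrixRepresentation

/-!
# S48 (Deligne–Serre): statements of the pieces (definitions only, no proofs)

Route (NOTES/S48-plan.md, v2).  `f` = the weight one form of the statement, `a_p = qCoeff f p`.

* `StmtInt`      (INT)   `a_p` is an algebraic integer (`p ∤ N`).
* `StmtDensity`  (DENS)  for every `η > 0` there is a finite `Y ⊂ ℂ` with
                         `∑_{p ∈ P} p^{-s} ≤ η log (1/(s-1)) + C` for finite sets `P` of primes with `a_p ∉ Y`.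
* `StmtRes`      (RES)   for every large prime `ℓ` and every maximal ideal `𝔪 ∋ ℓ` of `ℤ̄`: a residual
                         representation `G_ℚ → GL₂(ℤ̄/𝔪)`, of finite level, unramified outside `N ℓ`,
                         with `tr Frob_p = a_p mod 𝔪`, `det Frob_p = ε(p) mod 𝔪`.
                         (= weight one Eisenstein series + lifting lemma + the Eichler–Shimura package
                         for `Γ₁(N ℓ)`: the mountain.)
* `StmtChebDensity` (CD) Chebotarev, lower Dirichlet density, for conjugation stable sets.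
* `StmtLift`     (LIFT)  a representation of a finite group of order prime to `ℓ` over `ℤ̄/𝔪` lifts to
                         `ℂ`, compatibly with traces and determinants.
* `StmtTraceSpan`, `StmtTraceDiag`, `StmtSemi` (GT') the Burnside trace bound: if most elements of
                         the image have their trace in a set of `M` elements, the image has at most
                         `2 M⁴` elements.  (Replaces Dickson's classification.)

Secondary (consumed by INT / DENS / RES):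
* `StmtNeben`    (N)     `f` has nebentypus `ε`.
* `StmtSigma`    (SIG)   the conjugates `∑ σ(a_n) qⁿ` of `f` are weight one cusp forms on `Γ₁(N)`.
-/

set_option autoImplicit false

open CongruenceSubgroup UpperHalfPlane
open scoped MatrixGroups

namespace Fermat.Agent.S48

/-- the absolute Galois group of `ℚ` -/
abbrev GalQ : Type := AlgebraicClosure ℚ ≃ₐ[ℚ] AlgebraicClosure ℚ

/-- the ring of algebraic integers inside `ℂ` -/
abbrev Zb : Type := integralClosure ℤ ℂ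

/-- the hypotheses of S48 on the form `f` -/
def IsHeckeEigen (N : ℕ) (ε : DirichletCharacter ℂ N) (f : CuspForm (Gamma1 N) 1) : Prop :=
  ModularFormClass.qCoeff f 1 = 1 ∧
    ∀ p : ℕ, p.Prime → ¬ p ∣ N → ∀ n : ℕ,
      ModularFormClass.qCoeff f (p * n) +
          ε (p : ZMod N) * (if p ∣ n then ModularFormClass.qCoeff f (n / p) else 0) =
        ModularFormClass.qCoeff f p * ModularFormClass.qCoeff f n

/-- `ρ` is trivial on `Gal(ℚ̄/F)` for a finite Galois extension `F/ℚ` -/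
def FiniteLevel {M : Type} [MulOneClass M] (ρ : GalQ →* M) : Prop :=
  ∃ F : IntermediateField ℚ (AlgebraicClosure ℚ), FiniteDimensional ℚ F ∧ IsGalois ℚ F ∧
    ∀ σ : GalQ, (∀ x ∈ F, σ x = x) → ρ σ = 1

/-! ### Top level pieces -/

/-- (INT) the coefficients `a_p`, `p ∤ N`, are algebraic integers. -/
def StmtInt : Prop :=
  ∀ (N : ℕ) [NeZero N] (ε : DirichletCharacter ℂ N) (f : CuspForm (Gamma1 N) 1),
    IsHeckeEigen N ε f → ∀ p : ℕ, p.Prime → ¬ p ∣ N →
      ∃ a : Zb, (a : ℂ) = ModularFormClass.qCoeff f p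

/-- (DENS) Rankin + conjugates: outside a set of primes of upper Dirichlet density `≤ η`, the
`a_p` take finitely many values. -/
def StmtDensity : Prop :=
  ∀ (N : ℕ) [NeZero N] (ε : DirichletCharacter ℂ N) (f : CuspForm (Gamma1 N) 1),
    IsHeckeEigen N ε f → ∀ η : ℝ, 0 < η →
      ∃ (Y : Finset ℂ) (C : ℝ), ∀ s : ℝ, 1 < s → s ≤ 2 → ∀ P : Finset ℕ,
        (∀ p ∈ P, p.Prime ∧ ¬ p ∣ N ∧ ModularFormClass.qCoeff f p ∉ Y) →
          ∑ p ∈ P, (p : ℝ) ^ (-s) ≤ η * Real.log (1 / (s - 1)) + C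

/-- (RES) the residual representations. -/
def StmtRes : Prop :=
  ∀ (N : ℕ) [NeZero N] (ε : DirichletCharacter ℂ N) (f : CuspForm (Gamma1 N) 1),
    IsHeckeEigen N ε f → ∃ ℓ₀ : ℕ, ∀ ℓ : ℕ, ℓ.Prime → ℓ₀ ≤ ℓ →
      ∀ 𝔪 : Ideal Zb, 𝔪.IsMaximal → ((ℓ : ℕ) : Zb) ∈ 𝔪 →
        ∃ ρ : GalQ →* GL (Fin 2) (Zb ⧸ 𝔪), FiniteLevel ρ ∧
          ∀ p : ℕ, p.Prime → ¬ p ∣ N * ℓ →
            ∀ A : ValuationSubring (AlgebraicClosure ℚ), A.LiesOverPrime p →
              (∀ σ ∈ A.inertiaSubgroupIn ℚ, ρ σ = 1) ∧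
              ∀ τ : GalQ, A.IsFrobeniusAt τ p →
                ∃ a e : Zb, (a : ℂ) = ModularFormClass.qCoeff f p ∧ (e : ℂ) = ε (p : ZMod N) ∧
                  Matrix.trace (ρ τ : Matrix (Fin 2) (Fin 2) (Zb ⧸ 𝔪)) = Ideal.Quotient.mk 𝔪 a ∧
                  Matrix.det (ρ τ : Matrix (Fin 2) (Fin 2) (Zb ⧸ 𝔪)) = Ideal.Quotient.mk 𝔪 e

/-- (CD) Chebotarev's density theorem, as a lower bound for the Dirichlet density of the primes
whose Frobenius elements lie in a conjugation stable set `C ⊆ Gal(F/ℚ)`. -/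
def StmtChebDensity : Prop :=
  ∀ (F : IntermediateField ℚ (AlgebraicClosure ℚ)) [FiniteDimensional ℚ F] [IsGalois ℚ F]
    (S : Finset ℕ) (C : Set (F ≃ₐ[ℚ] F)), (∀ g σ : F ≃ₐ[ℚ] F, σ ∈ C → g * σ * g⁻¹ ∈ C) →
    ∀ δ : ℝ, 0 < δ → ∃ s₀ : ℝ, 1 < s₀ ∧ ∀ s : ℝ, 1 < s → s < s₀ →
      ∃ P : Finset ℕ,
        (∀ p ∈ P, p.Prime ∧ p ∉ S ∧
          ∀ A : ValuationSubring (AlgebraicClosure ℚ), A.LiesOverPrime p →
            ∀ τ : GalQ, A.IsFrobeniusAt τ p → AlgEquiv.restrictNormal τ F ∈ C) ∧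
        ((C.ncard : ℝ) / (Nat.card (F ≃ₐ[ℚ] F) : ℝ) - δ) * Real.log (1 / (s - 1)) ≤
          ∑ p ∈ P, (p : ℝ) ^ (-s)

/-- (LIFT) lifting to characteristic zero. -/
def StmtLift : Prop :=
  ∀ (𝔪 : Ideal Zb), 𝔪.IsMaximal → ∀ (G : Type) [Group G] [Finite G],
    ((Nat.card G : ℕ) : Zb) ∉ 𝔪 → ∀ ρbar : G →* GL (Fin 2) (Zb ⧸ 𝔪),
      ∃ ρ : G →* GL (Fin 2) ℂ, ∀ g : G, ∃ t d : Zb,
        (t : ℂ) = Matrix.trace (ρ g : Matrix (Fin 2) (Fin 2) ℂ) ∧
        Ideal.Quotient.mk 𝔪 t = Matrix.trace (ρbar g : Matrix (Fin 2) (Fin 2) (Zb ⧸ 𝔪)) ∧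
        (d : ℂ) = Matrix.det (ρ g : Matrix (Fin 2) (Fin 2) ℂ) ∧
        Ideal.Quotient.mk 𝔪 d = Matrix.det (ρbar g : Matrix (Fin 2) (Fin 2) (Zb ⧸ 𝔪))

/-- (GT', irreducible case) Burnside trace bound. -/
def StmtTraceSpan : Prop :=
  ∀ (k : Type) [Field k] (G : Type) [Group G] [Finite G] (ρ : G →* GL (Fin 2) k)
    (Y : Finset k),
    Submodule.span k (Set.range fun g : G => (ρ g : Matrix (Fin 2) (Fin 2) k)) = ⊤ →
    8 * Nat.card {g : G // Matrix.trace (ρ g : Matrix (Fin 2) (Fin 2) k) ∉ Y} ≤ Nat.card G →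
      Nat.card ρ.range ≤ 2 * Y.card ^ 4

/-- (GT', diagonal case). -/
def StmtTraceDiag : Prop :=
  ∀ (k : Type) [Field k] (G : Type) [Group G] [Finite G] (ρ : G →* GL (Fin 2) k)
    (Y E : Finset k),
    (∀ g : G, (ρ g : Matrix (Fin 2) (Fin 2) k) 0 1 = 0 ∧ (ρ g : Matrix (Fin 2) (Fin 2) k) 1 0 = 0) →
    (∀ g : G, Matrix.det (ρ g : Matrix (Fin 2) (Fin 2) k) ∈ E) →
    8 * Nat.card {g : G // Matrix.trace (ρ g : Matrix (Fin 2) (Fin 2) k) ∉ Y} ≤ Nat.card G →
      Nat.card ρ.range ≤ 4 * Y.card * E.card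

/-- (GT', semisimplification) over an algebraically closed field a two dimensional
representation can be replaced by one with the same traces and determinants which is either
absolutely irreducible (spans the matrix algebra) or diagonal. -/
def StmtSemi : Prop :=
  ∀ (K : Type) [Field K] [IsAlgClosed K] (G : Type) [Group G] (ρ : G →* GL (Fin 2) K),
    ∃ ρ' : G →* GL (Fin 2) K,
      (∀ g : G, ρ g = 1 → ρ' g = 1) ∧
      (∀ g : G, Matrix.trace (ρ' g : Matrix (Fin 2) (Fin 2) K) =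
          Matrix.trace (ρ g : Matrix (Fin 2) (Fin 2) K) ∧
        Matrix.det (ρ' g : Matrix (Fin 2) (Fin 2) K) =
          Matrix.det (ρ g : Matrix (Fin 2) (Fin 2) K)) ∧
      (Submodule.span K (Set.range fun g : G => (ρ' g : Matrix (Fin 2) (Fin 2) K)) = ⊤ ∨
        ∀ g : G, (ρ' g : Matrix (Fin 2) (Fin 2) K) 0 1 = 0 ∧
          (ρ' g : Matrix (Fin 2) (Fin 2) K) 1 0 = 0)

/-! ### Secondary pieces -/

/-- (N) `f` has nebentypus `ε`: `f(γ z) = ε(d) (c z + d) f(z)` for `γ ∈ Γ₀(N)`. -/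
def StmtNeben : Prop :=
  ∀ (N : ℕ) [NeZero N] (ε : DirichletCharacter ℂ N) (f : CuspForm (Gamma1 N) 1),
    IsHeckeEigen N ε f → ∀ γ : SL(2, ℤ), γ ∈ Gamma0 N → ∀ z : ℍ,
      f (γ • z) = ε ((γ 1 1 : ℤ) : ZMod N) * ((γ 1 0 : ℂ) * (z : ℂ) + (γ 1 1 : ℂ)) * f z

/-- (SIG) the conjugates of `f` are cusp forms of weight one on `Γ₁(N)`. -/
def StmtSigma : Prop :=
  ∀ (N : ℕ) [NeZero N] (ε : DirichletCharacter ℂ N) (f : CuspForm (Gamma1 N) 1),
    IsHeckeEigen N ε f → ∀ σ : ℂ →+* ℂ,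
      ∃ g : CuspForm (Gamma1 N) 1, ∀ n : ℕ,
        ModularFormClass.qCoeff g n = σ (ModularFormClass.qCoeff f n)

end Fermat.Agent.S48
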