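import Mathlib
import Fermat.Agent.S48.Plan

/-!
# S48 (Deligne–Serre): the pieces of `StmtRes` (interface only, no proofs)

`StmtRes` (the residual representations of the weight one form `f`) is cut into

* `StmtIntPlus` (INT+)  WLOG `f` has algebraic coefficients with bounded denominators: there is a
                        normalised eigenform `h` of weight one, nebentypus `ε`, with the same `a_p`
                        (`p ∤ N`) and `D · a_n(h) ∈ ℤ̄` for all `n`; and `a_p ∈ ℤ̄` (so `StmtInt` follows).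
* `StmtE1`      (E1)    for a prime `ℓ ≥ 5` and `𝔪 ∣ ℓ`: a modular form `E` of weight one on `Γ₁(ℓ)` with
                        nebentypus `ω⁻¹` (`ω` = Teichmüller character of `𝔪`), integral `q`-expansion,
                        constant term a unit mod `𝔪`, all other coefficients in `𝔪`.
* `StmtDSL1`    (DSL)   lifting lemma: a weight two cusp form on `Γ₁(M)` with nebentypus `θ` and integral
                        `q`-expansion which is an eigenform mod `𝔪` (and `≢ 0`) is congruent to a genuine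
                        eigenvector of the `T_p`, `p ∤ M ℓ`.  (Integrality of the eigenvalues `b_p` is NOT
                        part of it: it is a clause of `StmtES1`.  Proof: `S49.exists_eigenvector_of_injective`
                        for `R = ℤ̄[T_p] ⊂ End V` and the maximal ideal `{t : t g ≡ 0 mod 𝔪}`.)
* `StmtES1`     (ES₁)   the Eichler–Shimura package for `Γ₁(M)`: an eigenvector of the `T_p`, `p ∤ M ℓ`,
                        in `S₂(Γ₁(M))` with nebentypus `θ` has a residual representation mod `𝔪`.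
                        (The analogue of S42 = `EigenformResidualAttachmentAt` with nebentypus.)

`f · E` has weight two, level `N ℓ`, nebentypus `ε ω⁻¹`, and `p · (ε ω⁻¹)(p) ≡ ε(p)` mod `𝔪`.
-/

set_option autoImplicit false

open CongruenceSubgroup UpperHalfPlane
open scoped MatrixGroups

namespace Fermat.Agent.S48

/-- `g` transforms under `Γ₀(M)` with weight `k` and character `θ` -/
def HasNebenK (M : ℕ) (θ : DirichletCharacter ℂ M) (k : ℕ) (g : ℍ → ℂ) : Prop :=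
  ∀ γ : SL(2, ℤ), γ ∈ Gamma0 M → ∀ z : ℍ,
    g (γ • z) = θ ((γ 1 1 : ℤ) : ZMod M) * ((γ 1 0 : ℂ) * (z : ℂ) + (γ 1 1 : ℂ)) ^ k * g z

/-- the `q`-expansion form of `T_p g = b_p g` in weight `k`, nebentypus `θ`, for `p ∤ L` -/
def IsEigenAway (M : ℕ) (θ : DirichletCharacter ℂ M) (k : ℕ) (L : ℕ) (g : ℍ → ℂ) (b : ℕ → ℂ) :
    Prop :=
  ∀ p : ℕ, p.Prime → ¬ p ∣ L → ∀ n : ℕ,
    ModularFormClass.qCoeff g (p * n) +
        (p : ℂ) ^ (k - 1) * θ (p : ZMod M) *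
          (if p ∣ n then ModularFormClass.qCoeff g (n / p) else 0) =
      b p * ModularFormClass.qCoeff g n

/-- (INT+) WLOG the coefficients of `f` are algebraic with bounded denominators. -/
def StmtIntPlus : Prop :=
  ∀ (N : ℕ) [NeZero N] (ε : DirichletCharacter ℂ N) (f : CuspForm (Gamma1 N) 1),
    IsHeckeEigen N ε f →
      ∃ (h : CuspForm (Gamma1 N) 1) (D : ℕ), D ≠ 0 ∧ IsHeckeEigen N ε h ∧ HasNebenK N ε 1 h ∧
        (∀ n : ℕ, ∃ c : Zb, (c : ℂ) = (D : ℂ) * ModularFormClass.qCoeff h n) ∧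
        ∀ p : ℕ, p.Prime → ¬ p ∣ N →
          ModularFormClass.qCoeff h p = ModularFormClass.qCoeff f p ∧
          ∃ a : Zb, (a : ℂ) = ModularFormClass.qCoeff f p

/-- (E1) the weight one Eisenstein series which is congruent to a unit mod `𝔪`. -/
def StmtE1 : Prop :=
  ∀ (ℓ : ℕ) [NeZero ℓ], ℓ.Prime → 5 ≤ ℓ → ∀ 𝔪 : Ideal Zb, 𝔪.IsMaximal → ((ℓ : ℕ) : Zb) ∈ 𝔪 →
    ∃ (ψ : DirichletCharacter ℂ ℓ) (E : ModularForm (Gamma1 ℓ) 1) (c : ℕ → Zb),
      (∀ a : ℕ, ¬ ℓ ∣ a → ∃ w : Zb, (w : ℂ) = ψ (a : ZMod ℓ) ∧ (a : Zb) * w - 1 ∈ 𝔪) ∧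
      HasNebenK ℓ ψ 1 E ∧ (∀ n : ℕ, (c n : ℂ) = ModularFormClass.qCoeff E n) ∧
      c 0 ∉ 𝔪 ∧ ∀ n : ℕ, n ≠ 0 → c n ∈ 𝔪

/-- (DSL) the lifting lemma of Deligne–Serre, for weight two, level `Γ₁(M)`, nebentypus `θ`. -/
def StmtDSL1 : Prop :=
  ∀ (M : ℕ) [NeZero M] (θ : DirichletCharacter ℂ M) (g : CuspForm (Gamma1 M) 2),
    HasNebenK M θ 2 g →
    ∀ (ℓ : ℕ), ℓ.Prime → ∀ 𝔪 : Ideal Zb, 𝔪.IsMaximal → ((ℓ : ℕ) : Zb) ∈ 𝔪 →
    ∀ c : ℕ → Zb, (∀ n : ℕ, (c n : ℂ) = ModularFormClass.qCoeff g n) → (∃ n : ℕ, c n ∉ 𝔪) →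
    ∀ a e : ℕ → Zb, (∀ p : ℕ, p.Prime → ¬ p ∣ M → (e p : ℂ) = θ (p : ZMod M)) →
      (∀ p : ℕ, p.Prime → ¬ p ∣ M * ℓ → ∀ n : ℕ,
        c (p * n) + (p : Zb) * e p * (if p ∣ n then c (n / p) else 0) - a p * c n ∈ 𝔪) →
      ∃ (g' : CuspForm (Gamma1 M) 2) (b : ℕ → ℂ), (g' : ℍ → ℂ) ≠ 0 ∧ HasNebenK M θ 2 g' ∧
        IsEigenAway M θ 2 (M * ℓ) g' b ∧
        ∀ p : ℕ, p.Prime → ¬ p ∣ M * ℓ → ∀ t : Zb, (t : ℂ) = b p → t - a p ∈ 𝔪

/-- (ES₁) residual representations of eigenvectors of weight two on `Γ₁(M)` with nebentypus. -/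
def StmtES1 : Prop :=
  ∀ (M : ℕ) [NeZero M] (θ : DirichletCharacter ℂ M) (g : CuspForm (Gamma1 M) 2),
    (g : ℍ → ℂ) ≠ 0 → HasNebenK M θ 2 g →
    ∀ (ℓ : ℕ), ℓ.Prime → ∀ 𝔪 : Ideal Zb, 𝔪.IsMaximal → ((ℓ : ℕ) : Zb) ∈ 𝔪 →
    ∀ b : ℕ → ℂ, IsEigenAway M θ 2 (M * ℓ) g b →
      ∃ ρ : GalQ →* GL (Fin 2) (Zb ⧸ 𝔪), FiniteLevel ρ ∧
        ∀ p : ℕ, p.Prime → ¬ p ∣ M * ℓ →
          ∀ A : ValuationSubring (AlgebraicClosure ℚ), A.LiesOverPrime p →
            (∀ σ ∈ A.inertiaSubgroupIn ℚ, ρ σ = 1) ∧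
            ∀ τ : GalQ, A.IsFrobeniusAt τ p →
              ∃ t d : Zb, (t : ℂ) = b p ∧ (d : ℂ) = (p : ℂ) * θ (p : ZMod M) ∧
                Matrix.trace (ρ τ : Matrix (Fin 2) (Fin 2) (Zb ⧸ 𝔪)) = Ideal.Quotient.mk 𝔪 t ∧
                Matrix.det (ρ τ : Matrix (Fin 2) (Fin 2) (Zb ⧸ 𝔪)) = Ideal.Quotient.mk 𝔪 d

/-- (RES-glue) `StmtRes` from its pieces: `g := (D h) · E` on `Γ₁(N ℓ)`. -/
def StmtResOfPieces : Prop :=
  StmtIntPlus → StmtE1 → StmtDSL1 → StmtES1 → StmtRes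

end Fermat.Agent.S48
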