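import Fermat.Agent.S48.Sigma
import Fermat.Agent.S49.QExp

/-!
# S48 / INT: the eigenvalues `a_p` (`p ∤ N`) are algebraic integers

`stmtInt_of_neben : StmtNeben → StmtInt`.

Route (no descent): `H = H_{ε⁻¹}` the Eisenstein series of weight three, `f H ∈ S₄(Γ₀(N))` is a
`ℂ`-linear combination `∑ xᵢ Fᵢ` of forms with integral `q`-expansion (S23), so the `q`-coefficients
of `f H` lie in the finitely generated `ℤ`-module `M = ∑ ℤ[ε] xᵢ`.  As `H = q + …` has coefficients
in `ℤ[ε]`, all `a_n(f)` lie in `M`.  The `ℤ[ε]`-span of the `a_{p^r}` is contained in `M`, hence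
finitely generated, and stable under multiplication by `a_p` (Hecke recursion).
-/

set_option autoImplicit false

open CongruenceSubgroup UpperHalfPlane ModularForm Filter Topology
open Fermat.Agent.S23
open scoped MatrixGroups Manifold

noncomputable section

namespace Fermat.Agent.S48

/-! ## The ring `ℤ[ε]` -/

/-- the values of a Dirichlet character are integral -/
theorem int_isIntegral_char {N : ℕ} [NeZero N] (ε : DirichletCharacter ℂ N) (a : ZMod N) :
    IsIntegral ℤ (ε a) := by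
  by_cases ha : IsUnit a
  · obtain ⟨u, rfl⟩ := ha
    have h : (ε u) ^ (Nat.totient N) = 1 := by
      rw [← map_pow, ← Units.val_pow_eq_pow_val, ZMod.pow_totient, Units.val_one, map_one]
    refine IsIntegral.of_pow (Nat.totient_pos.mpr (Nat.pos_of_ne_zero (NeZero.ne N))) ?_
    rw [h]
    exact isIntegral_one
  · rw [MulChar.map_nonunit ε ha]
    exact isIntegral_zero

/-- the ring `ℤ[ε]` generated by the values of `ε` -/
def intRing {N : ℕ} (ε : DirichletCharacter ℂ N) : Subalgebra ℤ ℂ :=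
  Algebra.adjoin ℤ (Set.range ε)

theorem intRing_fg {N : ℕ} [NeZero N] (ε : DirichletCharacter ℂ N) :
    (intRing ε).toSubmodule.FG :=
  fg_adjoin_of_finite (Set.finite_range ε) (by
    rintro _ ⟨a, rfl⟩
    exact int_isIntegral_char ε a)

theorem int_char_mem {N : ℕ} (ε : DirichletCharacter ℂ N) (a : ZMod N) : ε a ∈ intRing ε :=
  Algebra.subset_adjoin ⟨a, rfl⟩

theorem int_char_inv_mem {N : ℕ} (ε : DirichletCharacter ℂ N) (a : ZMod N) :
    ε⁻¹ a ∈ intRing ε := by
  rw [MulChar.inv_apply]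
  exact int_char_mem ε _

/-! ## Sequences with values in a finitely generated module -/

/-- the sequence `a` takes its values in a finitely generated `ℤ`-module stable under `R` -/
def IntBdd (R : Subalgebra ℤ ℂ) (a : ℕ → ℂ) : Prop :=
  ∃ M : Submodule ℤ ℂ, M.FG ∧ (∀ ρ ∈ R, ∀ y ∈ M, ρ * y ∈ M) ∧ ∀ n, a n ∈ M

theorem intBdd_zero (R : Subalgebra ℤ ℂ) : IntBdd R (fun _ => 0) :=
  ⟨⊥, Submodule.fg_bot, fun ρ _ y hy => by
    rw [Submodule.mem_bot] at hy ⊢
    rw [hy, mul_zero], fun _ => Submodule.zero_mem _⟩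

theorem intBdd_of_int (R : Subalgebra ℤ ℂ) (hR : R.toSubmodule.FG) {a : ℕ → ℂ}
    (ha : ∀ n, ∃ m : ℤ, a n = (m : ℂ)) : IntBdd R a := by
  refine ⟨R.toSubmodule, hR, fun ρ hρ y hy => ?_, fun n => ?_⟩
  · exact R.mul_mem hρ hy
  · obtain ⟨m, hm⟩ := ha n
    rw [hm]
    exact R.intCast_mem m

theorem IntBdd.add {R : Subalgebra ℤ ℂ} {a b : ℕ → ℂ} (ha : IntBdd R a) (hb : IntBdd R b) :
    IntBdd R (fun n => a n + b n) := by
  obtain ⟨M₁, h1, s1, m1⟩ := ha
  obtain ⟨M₂, h2, s2, m2⟩ := hb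
  refine ⟨M₁ ⊔ M₂, h1.sup h2, fun ρ hρ y hy => ?_, fun n => ?_⟩
  · obtain ⟨y₁, hy₁, y₂, hy₂, rfl⟩ := Submodule.mem_sup.mp hy
    rw [mul_add]
    exact Submodule.add_mem_sup (s1 ρ hρ y₁ hy₁) (s2 ρ hρ y₂ hy₂)
  · exact Submodule.add_mem_sup (m1 n) (m2 n)

theorem IntBdd.const_mul {R : Subalgebra ℤ ℂ} {a : ℕ → ℂ} (ha : IntBdd R a) (c : ℂ) :
    IntBdd R (fun n => c * a n) := by
  obtain ⟨M, h1, s1, m1⟩ := ha
  refine ⟨M.map (LinearMap.mulLeft ℤ c), h1.map _, fun ρ hρ y hy => ?_, fun n => ?_⟩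
  · obtain ⟨x, hx, rfl⟩ := Submodule.mem_map.mp hy
    refine Submodule.mem_map.mpr ⟨ρ * x, s1 ρ hρ x hx, ?_⟩
    simp only [LinearMap.mulLeft_apply]
    ring
  · exact Submodule.mem_map.mpr ⟨a n, m1 n, rfl⟩

/-- the `q`-coefficients of a cusp form on `Γ₀(N)` lie in a finitely generated `ℤ`-module -/
theorem intBdd_cuspForm (N : ℕ) [NeZero N] (k : ℤ) (R : Subalgebra ℤ ℂ) (hR : R.toSubmodule.FG)
    (G : CuspForm (Gamma0 N) k) : IntBdd R (fun n => ModularFormClass.qCoeff (⇑G) n) := by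
  have hG : G ∈ Submodule.span ℂ
      ((CuspForm.intLattice N k : Submodule ℤ (CuspForm (Gamma0 N) k)) :
        Set (CuspForm (Gamma0 N) k)) := by
    have h := hasIntegralStructure N k
    unfold CuspForm.HasIntegralStructure at h
    rw [h]
    exact Submodule.mem_top
  refine Submodule.span_induction
    (p := fun (G : CuspForm (Gamma0 N) k) _ => IntBdd R (fun n => ModularFormClass.qCoeff (⇑G) n))
    ?_ ?_ ?_ ?_ hG
  · intro x hx
    exact intBdd_of_int R hR ((Fermat.Agent.S49.mem_intLattice_iff x).mp hx)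
  · have h0 : (fun n => ModularFormClass.qCoeff (⇑(0 : CuspForm (Gamma0 N) k)) n) =
        fun _ => 0 := by
      funext n
      exact (Fermat.Agent.S49.qCoeffLin N k n).map_zero
    rw [h0]
    exact intBdd_zero R
  · intro x y _ _ hx hy
    have h0 : (fun n => ModularFormClass.qCoeff (⇑(x + y)) n) =
        fun n => ModularFormClass.qCoeff (⇑x) n + ModularFormClass.qCoeff (⇑y) n := by
      funext n
      exact Fermat.Agent.S49.qCoeff_add x y n
    rw [h0]
    exact hx.add hy
  · intro c x _ hx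
    have h0 : (fun n => ModularFormClass.qCoeff (⇑(c • x)) n) =
        fun n => c * ModularFormClass.qCoeff (⇑x) n := by
      funext n
      exact Fermat.Agent.S49.qCoeff_smul c x n
    rw [h0]
    exact hx.const_mul c

/-- division by `q + …`: if `g = a * h` (Cauchy product), `h₀ = 0`, `h₁ = 1`, the values of `g`
lie in `M` and `M` is stable under multiplication by the `h_n`, then the values of `a` lie in
`M`. -/
theorem int_mem_of_mul (M : Submodule ℤ ℂ) (a h g : ℕ → ℂ) (h0 : h 0 = 0) (h1 : h 1 = 1)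
    (hstab : ∀ n, ∀ y ∈ M, h n * y ∈ M)
    (hmul : ∀ n, g n = ∑ ij ∈ Finset.HasAntidiagonal.antidiagonal n, a ij.1 * h ij.2)
    (hg : ∀ n, g n ∈ M) : ∀ n, a n ∈ M := by
  intro n
  induction n using Nat.strong_induction_on with
  | _ n ih =>
    have e := hmul (n + 1)
    rw [Finset.Nat.sum_antidiagonal_eq_sum_range_succ (fun i j => a i * h j) (n + 1),
      Finset.sum_range_succ, Finset.sum_range_succ] at e
    have e1 : n + 1 - n = 1 := by omega
    have e2 : n + 1 - (n + 1) = 0 := by omega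
    rw [e1, e2, h0, h1, mul_zero, add_zero, mul_one] at e
    have e3 : a n = g (n + 1) - ∑ x ∈ Finset.range n, a x * h (n + 1 - x) := by
      rw [e]
      ring
    rw [e3]
    refine Submodule.sub_mem _ (hg _) (Submodule.sum_mem _ fun i hi => ?_)
    rw [mul_comm]
    exact hstab _ _ (ih i (Finset.mem_range.mp hi))

/-! ## The coefficients of a form with nebentypus -/

/-- a cusp form with a nonzero `q`-coefficient is nonzero -/
theorem int_ne_zero_of_qCoeff {g : ℍ → ℂ} {n : ℕ} (h : ModularFormClass.qCoeff g n ≠ 0) :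
    g ≠ 0 := by
  rintro rfl
  apply h
  change (qExpansion 1 (0 : ℍ → ℂ)).coeff n = 0
  rw [UpperHalfPlane.qExpansion_zero]
  simp

/-- the `q`-coefficients of a weight one form with nebentypus `ε` lie in a finitely generated
`ℤ`-module which is stable under `ℤ[ε]` -/
theorem int_coeff_bdd {N : ℕ} [NeZero N] (ε : DirichletCharacter ℂ N)
    (f : CuspForm (Gamma1 N) 1) (hneb : HasNeben N ε f) (h0 : (⇑f : ℍ → ℂ) ≠ 0) :
    IntBdd (intRing ε) (fun n => ModularFormClass.qCoeff (⇑f) n) := by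
  have hε1 : ε (-1) = -1 := sigma_neg_one hneb h0
  have hne : ∀ a : ZMod N, IsUnit a → ε a ≠ 0 := fun a ha => (ha.map ε).ne_zero
  have hinv : ∀ a : ZMod N, IsUnit a → ε a * ε⁻¹ a = 1 := by
    intro a ha
    rw [MulChar.inv_apply_eq_inv', mul_inv_cancel₀ (hne a ha)]
  have hε'1 : ε⁻¹ (-1) = -1 := by
    rw [MulChar.inv_apply_eq_inv', hε1]
    norm_num
  obtain ⟨H, hHneb, hH0, hHn⟩ :=
    exists_eisOdd_of_odd N (k := 3) le_rfl (by decide) ε⁻¹ hε'1
  obtain ⟨G, hG⟩ := sigma_exists_mul ε ε⁻¹ hinv f hneb H (by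
    intro γ hγ z
    have := hHneb γ hγ z
    simpa using this)
  obtain ⟨M, hM, hstab, hmem⟩ := intBdd_cuspForm N 4 (intRing ε) (intRing_fg ε) G
  refine ⟨M, hM, hstab, ?_⟩
  have hHmem : ∀ n, ModularFormClass.qCoeff (⇑H) n ∈ intRing ε := by
    intro n
    rcases Nat.eq_zero_or_pos n with rfl | hn
    · rw [hH0]
      exact (intRing ε).zero_mem
    · rw [hHn n hn.ne']
      refine (intRing ε).sum_mem fun d _ => ?_
      exact (intRing ε).mul_mem (int_char_inv_mem ε _)
        ((intRing ε).pow_mem ((intRing ε).natCast_mem _) _)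
  refine int_mem_of_mul M (fun n => ModularFormClass.qCoeff (⇑f) n)
    (fun n => ModularFormClass.qCoeff (⇑H) n) (fun n => ModularFormClass.qCoeff (⇑G) n)
    hH0 ?_ (fun n y hy => hstab _ (hHmem n) y hy) ?_ hmem
  · rw [hHn 1 one_ne_zero]
    simp
  · intro n
    change (qExpansion 1 (⇑G : ℍ → ℂ)).coeff n = _
    rw [hG, sigma_qExpansion_mul (sigma_isHPB f) (sigma_isHPB H), PowerSeries.coeff_mul]
    rfl

/-! ## The theorem -/

/-- **INT.**  The eigenvalues `a_p`, `p ∤ N`, of a Hecke eigenform of weight one are algebraic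
integers. -/
theorem stmtInt_of_neben (hN : StmtNeben) : StmtInt := by
  intro N _ ε f hf p hp hpN
  have hneb : HasNeben N ε f := hN N ε f hf
  have h0 : (⇑f : ℍ → ℂ) ≠ 0 := by
    apply int_ne_zero_of_qCoeff (n := 1)
    rw [hf.1]
    exact one_ne_zero
  obtain ⟨M, hM, hstab, hmem⟩ := int_coeff_bdd ε f hneb h0
  set a : ℂ := ModularFormClass.qCoeff (⇑f) p with ha
  set c : ℕ → ℂ := fun r => ModularFormClass.qCoeff (⇑f) (p ^ r) with hc
  have hc0 : c 0 = 1 := by
    simp only [hc, pow_zero]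
    exact hf.1
  have hrec0 : a * c 0 = c 1 := by
    rw [hc0, mul_one]
    simp only [hc, pow_one]
    rfl
  have hrec : ∀ r, a * c (r + 1) = c (r + 2) + ε (p : ZMod N) * c r := by
    intro r
    have h := hf.2 p hp hpN (p ^ (r + 1))
    have hd : p ∣ p ^ (r + 1) := dvd_pow_self p (Nat.succ_ne_zero r)
    rw [if_pos hd] at h
    have e1 : p * p ^ (r + 1) = p ^ (r + 2) := by ring
    have e2 : p ^ (r + 1) / p = p ^ r := by
      rw [pow_succ, Nat.mul_div_cancel _ hp.pos]
    rw [e1, e2] at h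
    simp only [hc, ha]
    exact h.symm
  let C : Submodule ℤ ℂ := Submodule.span ℤ {y | ∃ ρ ∈ intRing ε, ∃ r, y = ρ * c r}
  have hCM : C ≤ M := by
    apply Submodule.span_le.mpr
    rintro _ ⟨ρ, hρ, r, rfl⟩
    exact hstab ρ hρ _ (hmem _)
  have hfg : C.FG := Submodule.FG.of_le hM hCM
  have hone : (1 : ℂ) ∈ C := by
    apply Submodule.subset_span
    exact ⟨1, (intRing ε).one_mem, 0, by rw [hc0, mul_one]⟩
  have hne : C ≠ ⊥ := by
    intro h
    rw [h, Submodule.mem_bot] at hone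
    exact one_ne_zero hone
  have hgen : ∀ ρ ∈ intRing ε, ∀ r, ρ * c r ∈ C := fun ρ hρ r =>
    Submodule.subset_span ⟨ρ, hρ, r, rfl⟩
  have hst : ∀ y ∈ C, a • y ∈ C := by
    intro y hy
    refine Submodule.span_induction (p := fun y _ => a • y ∈ C) ?_ ?_ ?_ ?_ hy
    · rintro _ ⟨ρ, hρ, r, rfl⟩
      rw [smul_eq_mul]
      rcases r with _ | r
      · have : a * (ρ * c 0) = ρ * c 1 := by rw [← hrec0]; ring
        rw [this]
        exact hgen ρ hρ 1
      · have : a * (ρ * c (r + 1)) = ρ * c (r + 2) + (ρ * ε (p : ZMod N)) * c r := by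
          rw [mul_left_comm, hrec r]
          ring
        rw [this]
        exact C.add_mem (hgen ρ hρ _)
          (hgen _ ((intRing ε).mul_mem hρ (int_char_mem ε _)) _)
    · rw [smul_zero]
      exact C.zero_mem
    · intro x y _ _ hx hy
      rw [smul_add]
      exact C.add_mem hx hy
    · intro m x _ hx
      rw [smul_comm]
      exact C.smul_mem m hx
  have hint : IsIntegral ℤ a := isIntegral_of_smul_mem_submodule C hne hfg a hst
  exact ⟨⟨a, hint⟩, rfl⟩

end Fermat.Agent.S48
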