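import Mathlib
import Fermat.Prelude.Def_ModularForm_HeckeOperator
import Fermat.Prelude.Thm_ModularForm_heckeT_slash_eq_self_of_mem_Gamma0

/-!
# S48, piece N, part 1: the Hecke operator `T_p` on `Γ₁(N)` (coset computation)

For a function `f` on the upper half plane which is invariant under `Γ₁(N)` (weight `k`), a prime
`p ∤ N` and `γ_p ∈ Γ₀(N)` with lower right entry `≡ p mod N`, the function
`U_p f + (f ∣ γ_p) ∣ diag(p, 1)` is again invariant under `Γ₁(N)`.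
-/

set_option autoImplicit false

open CongruenceSubgroup UpperHalfPlane Matrix.SpecialLinearGroup
open scoped MatrixGroups ModularForm OnePoint

namespace Fermat.Agent.S48

open ModularForm
open P2MW.S_ModularForm_heckeT_slash_eq_self_of_mem_Gamma0.ModularForm.HeckeSlashInvariance

/-- invariance under `Γ₁(N)` in weight `k` -/
def NebInv (N : ℕ) (k : ℤ) (f : ℍ → ℂ) : Prop :=
  ∀ γ : SL(2, ℤ), γ ∈ Gamma1 N → f ∣[k] (mapGL ℝ γ) = f

theorem neben_exists_SL (a b c d : ℤ) (h : a * d - b * c = 1) :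
    ∃ g : SL(2, ℤ), g 0 0 = a ∧ g 0 1 = b ∧ g 1 0 = c ∧ g 1 1 = d :=
  ⟨⟨!![a, b; c, d], by rw [Matrix.det_fin_two_of]; exact h⟩, rfl, rfl, rfl, rfl⟩

theorem neben_det_eq (g : SL(2, ℤ)) : g 0 0 * g 1 1 - g 0 1 * g 1 0 = 1 := by
  have h := g.det_coe
  rwa [Matrix.det_fin_two] at h

theorem neben_det_zmod {N : ℕ} (g : SL(2, ℤ)) (hg : g ∈ Gamma0 N) :
    ((g 0 0 : ℤ) : ZMod N) * ((g 1 1 : ℤ) : ZMod N) = 1 := by
  have h := congrArg (Int.cast : ℤ → ZMod N) (neben_det_eq g)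
  have hc : ((g 1 0 : ℤ) : ZMod N) = 0 := Gamma0_mem.mp hg
  push_cast at h
  rw [hc, mul_zero, sub_zero] at h
  exact h

theorem neben_mem_Gamma1 {N : ℕ} (g : SL(2, ℤ)) (hg : g ∈ Gamma0 N)
    (h1 : ((g 1 1 : ℤ) : ZMod N) = 1) : g ∈ Gamma1 N := by
  rw [Gamma1_mem]
  refine ⟨?_, h1, Gamma0_mem.mp hg⟩
  have := neben_det_zmod g hg
  rwa [h1, mul_one] at this

theorem neben_mul_apply_11 {N : ℕ} (g g' : SL(2, ℤ)) (hg : g ∈ Gamma0 N) :
    (((g * g') 1 1 : ℤ) : ZMod N) = ((g 1 1 : ℤ) : ZMod N) * ((g' 1 1 : ℤ) : ZMod N) := by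
  have hc : ((g 1 0 : ℤ) : ZMod N) = 0 := Gamma0_mem.mp hg
  have : (g * g') 1 1 = g 1 0 * g' 0 1 + g 1 1 * g' 1 1 := by
    simp [Matrix.SpecialLinearGroup.coe_mul, Matrix.mul_apply, Fin.sum_univ_two]
  rw [this]
  push_cast
  rw [hc, zero_mul, zero_add]

theorem neben_inv_apply_11 (g : SL(2, ℤ)) : (g⁻¹) 1 1 = g 0 0 := by
  simp [Matrix.SpecialLinearGroup.coe_inv, Matrix.adjugate_fin_two]

/-- `f ∣ g` only depends on the lower right entry of `g ∈ Γ₀(N)` modulo `N` -/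
theorem neben_slash_congr {N : ℕ} {k : ℤ} {f : ℍ → ℂ} (hf : NebInv N k f) (g g' : SL(2, ℤ))
    (hg : g ∈ Gamma0 N) (hg' : g' ∈ Gamma0 N)
    (h : ((g 1 1 : ℤ) : ZMod N) = ((g' 1 1 : ℤ) : ZMod N)) :
    f ∣[k] mapGL ℝ g = f ∣[k] mapGL ℝ g' := by
  have h1 : g * g'⁻¹ ∈ Gamma1 N := by
    refine neben_mem_Gamma1 _ ((Gamma0 N).mul_mem hg ((Gamma0 N).inv_mem hg')) ?_
    rw [neben_mul_apply_11 g g'⁻¹ hg, neben_inv_apply_11, h, mul_comm]
    exact neben_det_zmod g' hg'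
  have h2 : g = (g * g'⁻¹) * g' := by group
  conv_lhs => rw [h2, map_mul, SlashAction.slash_mul, hf _ h1]

theorem neben_slash_of_mem {N : ℕ} {k : ℤ} {f : ℍ → ℂ} (hf : NebInv N k f) (g : SL(2, ℤ))
    (hg : g ∈ Gamma0 N) (h : ((g 1 1 : ℤ) : ZMod N) = 1) :
    f ∣[k] mapGL ℝ g = f :=
  hf g (neben_mem_Gamma1 g hg h)

theorem nebInv_slash {N : ℕ} {k : ℤ} {f : ℍ → ℂ} (hf : NebInv N k f) (g : SL(2, ℤ))
    (hg : g ∈ Gamma0 N) : NebInv N k (f ∣[k] mapGL ℝ g) := by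
  intro γ hγ
  rw [← SlashAction.slash_mul, ← map_mul]
  refine neben_slash_congr hf _ _ ((Gamma0 N).mul_mem hg (Gamma1_in_Gamma0 N hγ)) hg ?_
  rw [neben_mul_apply_11 g γ hg, ((Gamma1_mem N γ).mp hγ).2.1, mul_one]

theorem nebInv_add {N : ℕ} {k : ℤ} {f g : ℍ → ℂ} (hf : NebInv N k f) (hg : NebInv N k g) :
    NebInv N k (f + g) := by
  intro γ hγ
  rw [SlashAction.add_slash, hf γ hγ, hg γ hγ]

theorem nebInv_neg {N : ℕ} {k : ℤ} {f : ℍ → ℂ} (hf : NebInv N k f) :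
    NebInv N k (-f) := by
  intro γ hγ
  rw [SlashAction.neg_slash, hf γ hγ]

theorem nebInv_sub {N : ℕ} {k : ℤ} {f g : ℍ → ℂ} (hf : NebInv N k f) (hg : NebInv N k g) :
    NebInv N k (f - g) := by
  rw [sub_eq_add_neg]
  exact nebInv_add hf (nebInv_neg hg)

theorem neben_σ_mapGL (γ : SL(2, ℤ)) : UpperHalfPlane.σ (mapGL ℝ γ) = .refl ℝ ℂ := by
  rw [UpperHalfPlane.σ, if_pos]
  simp

theorem nebInv_smul {N : ℕ} {k : ℤ} {f : ℍ → ℂ} (hf : NebInv N k f) (c : ℂ) :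
    NebInv N k (c • f) := by
  intro γ hγ
  rw [ModularForm.smul_slash, neben_σ_mapGL, hf γ hγ]
  rfl

/-! ### The commutation relations, with the matrix `g'` explicit -/

section commutation

variable {p : ℕ} (hp : p ≠ 0)
include hp

theorem neben_heckeMatrix_mul_of_eq (g : SL(2, ℤ)) (j j' : ℕ) (e : ℤ)
    (he : g 0 1 + j * g 1 1 = j' * (g 0 0 + j * g 1 0) + p * e) :
    ∃ g' : SL(2, ℤ), g' 1 0 = p * g 1 0 ∧ g' 1 1 = g 1 1 - g 1 0 * j' ∧
      heckeMatrix p j * mapGL ℝ g = mapGL ℝ g' * heckeMatrix p j' := by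
  have hdet := neben_det_eq g
  obtain ⟨g', h00, h01, h10, h11⟩ := neben_exists_SL (g 0 0 + j * g 1 0) e (p * g 1 0) (g 1 1 - g 1 0 * j')
    (by linear_combination hdet + (g 1 0) * he)
  refine ⟨g', h10, h11, ?_⟩
  ext i j
  fin_cases i <;> fin_cases j <;>
    simp [hp, Matrix.mul_apply, Fin.sum_univ_two, h00, h01, h10, h11]
  all_goals first
    | (have := congrArg (Int.cast : ℤ → ℝ) he; push_cast at this ⊢; linear_combination this)
    | (have := congrArg (Int.cast : ℤ → ℝ) he; push_cast at this ⊢; linear_combination -this)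
    | ring1

theorem neben_heckeMatrix_mul_of_eq' (g : SL(2, ℤ)) (j : ℕ) (e : ℤ)
    (he : g 0 0 + j * g 1 0 = p * e) :
    ∃ g' : SL(2, ℤ), g' 1 0 = g 1 0 ∧ g' 1 1 = p * g 1 1 ∧
      heckeMatrix p j * mapGL ℝ g = mapGL ℝ g' * heckeDiagMatrix p := by
  have hdet := neben_det_eq g
  obtain ⟨g', h00, h01, h10, h11⟩ := neben_exists_SL e (g 0 1 + j * g 1 1) (g 1 0) (p * g 1 1)
    (by linear_combination hdet - (g 1 1) * he)
  refine ⟨g', h10, h11, ?_⟩
  ext i j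
  fin_cases i <;> fin_cases j <;>
    simp [hp, Matrix.mul_apply, Fin.sum_univ_two, h00, h01, h10, h11]
  all_goals first
    | (have := congrArg (Int.cast : ℤ → ℝ) he; push_cast at this ⊢; linear_combination this)
    | (have := congrArg (Int.cast : ℤ → ℝ) he; push_cast at this ⊢; linear_combination -this)
    | ring1

theorem neben_heckeDiagMatrix_mul_of_eq (g : SL(2, ℤ)) (j' : ℕ) (e : ℤ)
    (he : g 1 1 = g 1 0 * j' + p * e) :
    ∃ g' : SL(2, ℤ), g' 1 0 = g 1 0 ∧ g' 1 1 = e ∧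
      heckeDiagMatrix p * mapGL ℝ g = mapGL ℝ g' * heckeMatrix p j' := by
  have hdet := neben_det_eq g
  obtain ⟨g', h00, h01, h10, h11⟩ := neben_exists_SL (p * g 0 0) (g 0 1 - g 0 0 * j') (g 1 0) e
    (by linear_combination hdet - (g 0 0) * he)
  refine ⟨g', h10, h11, ?_⟩
  ext i j
  fin_cases i <;> fin_cases j <;>
    simp [hp, Matrix.mul_apply, Fin.sum_univ_two, h00, h01, h10, h11]
  all_goals first
    | (have := congrArg (Int.cast : ℤ → ℝ) he; push_cast at this ⊢; linear_combination this)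
    | (have := congrArg (Int.cast : ℤ → ℝ) he; push_cast at this ⊢; linear_combination -this)
    | ring1

theorem neben_heckeDiagMatrix_mul_of_eq' (g : SL(2, ℤ)) (e : ℤ) (he : g 1 0 = p * e) :
    ∃ g' : SL(2, ℤ), g' 1 0 = e ∧ g' 1 1 = g 1 1 ∧
      heckeDiagMatrix p * mapGL ℝ g = mapGL ℝ g' * heckeDiagMatrix p := by
  have hdet := neben_det_eq g
  obtain ⟨g', h00, h01, h10, h11⟩ := neben_exists_SL (g 0 0) (p * g 0 1) e (g 1 1)
    (by linear_combination hdet + (g 0 1) * he)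
  refine ⟨g', h10, h11, ?_⟩
  ext i j
  fin_cases i <;> fin_cases j <;>
    simp [hp, Matrix.mul_apply, Fin.sum_univ_two, h00, h01, h10, h11]
  all_goals first
    | (have := congrArg (Int.cast : ℤ → ℝ) he; push_cast at this ⊢; linear_combination this)
    | (have := congrArg (Int.cast : ℤ → ℝ) he; push_cast at this ⊢; linear_combination -this)
    | ring1

end commutation

/-! ### The terms of `T_p` and their permutation -/

/-- the terms of the Hecke operator `T_p` on `Γ₁(N)`: `f ∣ β_j` for `j ∈ ℤ/p` and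
`f' ∣ diag(p,1)` at `∞` (with `f' = ⟨p⟩ f`) -/
noncomputable def nebTerm (k : ℤ) (p : ℕ) (f f' : ℍ → ℂ) (x : OnePoint (ZMod p)) : ℍ → ℂ :=
  x.elim (f' ∣[k] heckeDiagMatrix p) (fun j ↦ f ∣[k] heckeMatrix p j.val)

@[simp] theorem nebTerm_infty (k : ℤ) (p : ℕ) (f f' : ℍ → ℂ) :
    nebTerm k p f f' ∞ = f' ∣[k] heckeDiagMatrix p := rfl

@[simp] theorem nebTerm_coe (k : ℤ) (p : ℕ) (f f' : ℍ → ℂ) (j : ZMod p) :
    nebTerm k p f f' (j : OnePoint (ZMod p)) = f ∣[k] heckeMatrix p j.val := rfl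

theorem neben_sum_nebTerm (k : ℤ) (p : ℕ) [NeZero p] (f f' : ℍ → ℂ) :
    heckeU k p f + f' ∣[k] heckeDiagMatrix p = ∑ x : OnePoint (ZMod p), nebTerm k p f f' x := by
  rw [heckeU_eq_sum_zmod, add_comm]
  exact (Fintype.sum_option (fun x : OnePoint (ZMod p) ↦ nebTerm k p f f' x)).symm

theorem neben_natCast_unit {N p : ℕ} (γp : SL(2, ℤ)) (hγp : γp ∈ Gamma0 N)
    (hγp1 : ((γp 1 1 : ℤ) : ZMod N) = (p : ZMod N)) :
    ((γp 0 0 : ℤ) : ZMod N) * (p : ZMod N) = 1 := by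
  rw [← hγp1]
  exact neben_det_zmod γp hγp

theorem neben_term_slash {N : ℕ} {k : ℤ} {p : ℕ} [Fact p.Prime] (hpN : ¬ p ∣ N) {f : ℍ → ℂ}
    (hf : NebInv N k f) (γp : SL(2, ℤ)) (hγp : γp ∈ Gamma0 N)
    (hγp1 : ((γp 1 1 : ℤ) : ZMod N) = (p : ZMod N))
    (g : SL(2, ℤ)) (hg : g ∈ Gamma1 N) (x : OnePoint (ZMod p)) :
    nebTerm k p f (f ∣[k] mapGL ℝ γp) x ∣[k] mapGL ℝ g =
      nebTerm k p f (f ∣[k] mapGL ℝ γp) (redMatrix p g • x) := by
  have hp : p ≠ 0 := (Fact.out : p.Prime).ne_zero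
  obtain ⟨hg00, hg11, hg10⟩ := (Gamma1_mem N g).mp hg
  have hg0 : g ∈ Gamma0 N := Gamma1_in_Gamma0 N hg
  have hcop : IsCoprime (N : ℤ) (p : ℤ) :=
    Nat.isCoprime_iff_coprime.mpr ((Nat.Prime.coprime_iff_not_dvd Fact.out).mpr hpN).symm
  have hunit := neben_natCast_unit γp hγp hγp1
  induction x using OnePoint.rec with
  | infty =>
    rw [OnePoint.smul_infty_eq_ite]
    by_cases hc : ((g 1 0 : ℤ) : ZMod p) = 0
    · rw [if_pos (by simpa using hc), nebTerm_infty]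
      obtain ⟨e, he⟩ := (ZMod.intCast_zmod_eq_zero_iff_dvd _ _).mp hc
      obtain ⟨g', hg'10, hg'11, hmul⟩ := neben_heckeDiagMatrix_mul_of_eq' hp g e he
      have hg'0 : g' ∈ Gamma0 N := by
        rw [Gamma0_mem, hg'10, ZMod.intCast_zmod_eq_zero_iff_dvd]
        have : (N : ℤ) ∣ g 1 0 := (ZMod.intCast_zmod_eq_zero_iff_dvd _ _).mp hg10
        exact hcop.dvd_of_dvd_mul_left (he ▸ this)
      have e1 : (f ∣[k] mapGL ℝ γp) ∣[k] mapGL ℝ g' = f ∣[k] mapGL ℝ γp := by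
        rw [← SlashAction.slash_mul, ← map_mul]
        refine neben_slash_congr hf _ _ ((Gamma0 N).mul_mem hγp hg'0) hγp ?_
        rw [neben_mul_apply_11 γp g' hγp, hg'11, hg11, mul_one]
      rw [← SlashAction.slash_mul, hmul, SlashAction.slash_mul, e1]
    · rw [if_neg (by simpa using hc), nebTerm_infty, nebTerm_coe]
      set y : ZMod p := redMatrix p g 0 0 / redMatrix p g 1 0 with hy
      obtain ⟨e, he⟩ : (p : ℤ) ∣ g 1 1 - g 1 0 * y.val := by
        rw [← ZMod.intCast_zmod_eq_zero_iff_dvd]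
        push_cast
        rw [ZMod.natCast_zmod_val, hy, redMatrix_apply_zero_zero, redMatrix_apply_one_zero,
          mul_div_cancel₀ _ hc, sub_self]
      obtain ⟨g', hg'10, hg'11, hmul⟩ :=
        neben_heckeDiagMatrix_mul_of_eq hp g y.val e (by linear_combination he)
      have hg'0 : g' ∈ Gamma0 N := by
        rw [Gamma0_mem, hg'10]; exact hg10
      have e1 : (f ∣[k] mapGL ℝ γp) ∣[k] mapGL ℝ g' = f := by
        rw [← SlashAction.slash_mul, ← map_mul]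
        refine neben_slash_of_mem hf _ ((Gamma0 N).mul_mem hγp hg'0) ?_
        rw [neben_mul_apply_11 γp g' hγp, hg'11, hγp1]
        have h1 : (p : ZMod N) * ((e : ℤ) : ZMod N) = 1 := by
          have := congrArg (Int.cast : ℤ → ZMod N) he
          push_cast at this
          rw [hg11, hg10, zero_mul, sub_zero] at this
          exact this.symm
        exact h1
      rw [← SlashAction.slash_mul, hmul, SlashAction.slash_mul, e1]
  | coe j =>
    rw [OnePoint.smul_some_eq_ite]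
    by_cases h : redMatrix p g 1 0 * j + redMatrix p g 1 1 = 0
    · rw [if_pos h, nebTerm_infty, nebTerm_coe]
      rw [redMatrix_apply_one_zero, redMatrix_apply_one_one] at h
      obtain ⟨e, he⟩ : (p : ℤ) ∣ g 0 0 + j.val * g 1 0 := by
        rw [← ZMod.intCast_zmod_eq_zero_iff_dvd]
        push_cast
        rw [ZMod.natCast_zmod_val]
        linear_combination h
      obtain ⟨g', hg'10, hg'11, hmul⟩ := neben_heckeMatrix_mul_of_eq' hp g j.val e he
      have hg'0 : g' ∈ Gamma0 N := by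
        rw [Gamma0_mem, hg'10]; exact hg10
      have e1 : f ∣[k] mapGL ℝ g' = f ∣[k] mapGL ℝ γp := by
        refine neben_slash_congr hf _ _ hg'0 hγp ?_
        rw [hg'11, hγp1]
        push_cast
        rw [hg11, mul_one]
      rw [← SlashAction.slash_mul, hmul, SlashAction.slash_mul, e1]
    · rw [if_neg h, nebTerm_coe, nebTerm_coe]
      set y : ZMod p := (redMatrix p g 0 0 * j + redMatrix p g 0 1) /
        (redMatrix p g 1 0 * j + redMatrix p g 1 1) with hy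
      obtain ⟨e, he⟩ : (p : ℤ) ∣ g 0 1 + j.val * g 1 1 - y.val * (g 0 0 + j.val * g 1 0) := by
        rw [← ZMod.intCast_zmod_eq_zero_iff_dvd]
        push_cast
        rw [ZMod.natCast_zmod_val, ZMod.natCast_zmod_val,
          show ((g 0 0 : ℤ) : ZMod p) + j * ((g 1 0 : ℤ) : ZMod p)
            = redMatrix p g 1 0 * j + redMatrix p g 1 1 by
              rw [redMatrix_apply_one_zero, redMatrix_apply_one_one]; ring,
          hy, div_mul_cancel₀ _ h, redMatrix_apply_zero_zero, redMatrix_apply_zero_one]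
        ring
      obtain ⟨g', hg'10, hg'11, hmul⟩ :=
        neben_heckeMatrix_mul_of_eq hp g j.val y.val e (by linear_combination he)
      have hg'0 : g' ∈ Gamma0 N := by
        rw [Gamma0_mem, hg'10]
        push_cast
        rw [hg10, mul_zero]
      have e1 : f ∣[k] mapGL ℝ g' = f := by
        refine neben_slash_of_mem hf _ hg'0 ?_
        rw [hg'11]
        push_cast
        rw [hg11, hg10, zero_mul, sub_zero]
      rw [← SlashAction.slash_mul, hmul, SlashAction.slash_mul, e1]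

/-- **The Hecke operator `T_p` preserves the level `Γ₁(N)`**: for `f` invariant under `Γ₁(N)`,
`p ∤ N` prime and `γ_p ∈ Γ₀(N)` with lower right entry `≡ p`, the function
`U_p f + (f ∣ γ_p) ∣ diag(p,1)` is invariant under `Γ₁(N)`. -/
theorem nebInv_heckeT {N : ℕ} {k : ℤ} {p : ℕ} (hp : p.Prime) (hpN : ¬ p ∣ N) {f : ℍ → ℂ}
    (hf : NebInv N k f) (γp : SL(2, ℤ)) (hγp : γp ∈ Gamma0 N)
    (hγp1 : ((γp 1 1 : ℤ) : ZMod N) = (p : ZMod N)) :
    NebInv N k (heckeU k p f + (f ∣[k] mapGL ℝ γp) ∣[k] heckeDiagMatrix p) := by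
  have : Fact p.Prime := ⟨hp⟩
  intro g hg
  rw [neben_sum_nebTerm, SlashAction.sum_slash]
  calc ∑ x : OnePoint (ZMod p), (nebTerm k p f (f ∣[k] mapGL ℝ γp) x) ∣[k] mapGL ℝ g
      = ∑ x : OnePoint (ZMod p), nebTerm k p f (f ∣[k] mapGL ℝ γp) (redMatrix p g • x) :=
        Finset.sum_congr rfl fun x _ ↦ neben_term_slash hpN hf γp hγp hγp1 g hg x
    _ = ∑ x : OnePoint (ZMod p), nebTerm k p f (f ∣[k] mapGL ℝ γp) x :=
        Equiv.sum_comp (MulAction.toPerm (redMatrix p g))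
          (fun x ↦ nebTerm k p f (f ∣[k] mapGL ℝ γp) x)

end Fermat.Agent.S48
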