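import Mathlib
import Fermat.Agent.S48.NebenCoset

/-!
# S48, piece N, part 2: the operator `V_p` (algebraic part)

If `h` and `V_p h = h ∣ diag(p,1)` are both invariant under `Γ₁(N)` (`p ∤ N` prime), then so is
`V_p V_p h`.
-/

set_option autoImplicit false

open CongruenceSubgroup UpperHalfPlane Matrix.SpecialLinearGroup
open scoped MatrixGroups ModularForm OnePoint

namespace Fermat.Agent.S48

open ModularForm

theorem neben_T_mem_Gamma1 (N : ℕ) : ModularGroup.T ∈ Gamma1 N := by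
  rw [Gamma1_mem]
  simp [ModularGroup.T]

theorem neben_one_mem_strictPeriods (N : ℕ) :
    (1 : ℝ) ∈ ((Gamma1 N : Subgroup SL(2, ℤ)) : Subgroup (GL (Fin 2) ℝ)).strictPeriods := by
  rw [Subgroup.strictPeriods_eq_zmultiples_one_of_T_mem (neben_T_mem_Gamma1 N)]
  exact AddSubgroup.mem_zmultiples 1

/-- a `Γ₁(N)`-invariant function as a slash invariant form -/
def nebSIF {N : ℕ} {k : ℤ} {f : ℍ → ℂ} (hf : NebInv N k f) : SlashInvariantForm (Gamma1 N) k where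
  toFun := f
  slash_action_eq' := by
    rintro _ ⟨γ, hγ, rfl⟩
    exact hf γ hγ

@[simp] theorem nebSIF_apply {N : ℕ} {k : ℤ} {f : ℍ → ℂ} (hf : NebInv N k f) (z : ℍ) :
    nebSIF hf z = f z := rfl

theorem nebInv_periodic {N : ℕ} {k : ℤ} {f : ℍ → ℂ} (hf : NebInv N k f) :
    Function.Periodic (f ∘ UpperHalfPlane.ofComplex) 1 := by
  have := SlashInvariantFormClass.periodic_comp_ofComplex (nebSIF hf)
    (neben_one_mem_strictPeriods N)
  intro x
  have h1 := this x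
  simpa using h1

theorem nebInv_apply_add_nat {N : ℕ} {k : ℤ} {f : ℍ → ℂ} (hf : NebInv N k f) (τ τ' : ℍ) (j : ℕ)
    (h : (τ' : ℂ) = (τ : ℂ) + j) : f τ' = f τ := by
  have h1 := (nebInv_periodic hf).nat_mul j (τ : ℂ)
  rw [mul_one, ← h] at h1
  simpa [Function.comp, UpperHalfPlane.ofComplex_apply] using h1

/-- `U_p V_p h = p^{k-1} h` -/
theorem neben_heckeU_diag {N : ℕ} {k : ℤ} {p : ℕ} (hp : p ≠ 0) {h : ℍ → ℂ} (hh : NebInv N k h) :
    heckeU k p (h ∣[k] heckeDiagMatrix p) = ((p : ℂ) ^ (k - 1)) • h := by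
  have hp' : (p : ℂ) ≠ 0 := by exact_mod_cast hp
  funext τ
  rw [heckeU_apply k hp]
  have : ∀ j ∈ Finset.range p, (h ∣[k] heckeDiagMatrix p) (heckeMatrix p j • τ) =
      (p : ℂ) ^ (k - 1) * h τ := by
    intro j _
    rw [slash_heckeDiagMatrix_apply k hp]
    congr 1
    refine nebInv_apply_add_nat hh τ _ j ?_
    rw [coe_heckeDiagMatrix_smul hp, coe_heckeMatrix_smul hp]
    field_simp
  rw [Finset.sum_congr rfl this, Finset.sum_const, Finset.card_range, nsmul_eq_mul, Pi.smul_apply,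
    smul_eq_mul]
  field_simp

/-- there is `γ_p ∈ Γ₀(N)` with lower right entry `≡ p mod N` and lower left entry divisible by
`p`. -/
theorem neben_exists_gammaP {N p : ℕ} (hp : p.Prime) (hpN : ¬ p ∣ N) :
    ∃ γp : SL(2, ℤ), γp ∈ Gamma0 N ∧ ((γp 1 1 : ℤ) : ZMod N) = (p : ZMod N) ∧
      (p : ℤ) ∣ γp 1 0 := by
  have hcop : IsCoprime (p : ℤ) (N : ℤ) :=
    Nat.isCoprime_iff_coprime.mpr ((Nat.Prime.coprime_iff_not_dvd hp).mpr hpN)
  have h1 : IsCoprime ((p : ℤ) + N) (N : ℤ) := by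
    simpa using hcop.add_mul_left_left 1
  have h2 : IsCoprime ((p : ℤ) + N) (p : ℤ) := by
    have := hcop.symm.add_mul_left_left 1
    simpa [add_comm] using this
  have h3 : IsCoprime ((p : ℤ) + N) ((N : ℤ) * p) := h1.mul_right h2
  obtain ⟨a, b, hab⟩ := h3
  obtain ⟨γp, -, -, h10, h11⟩ := neben_exists_SL a (-b) ((N : ℤ) * p) ((p : ℤ) + N)
    (by linear_combination hab)
  refine ⟨γp, ?_, ?_, ?_⟩
  · rw [Gamma0_mem, h10]
    push_cast
    simp
  · rw [h11]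
    push_cast
    simp
  · rw [h10]
    exact Dvd.intro_left _ rfl

/-- **`V_p`-stability**: if `h` and `V_p h` are invariant under `Γ₁(N)`, so is `V_p V_p h`. -/
theorem nebInv_diag_diag {N : ℕ} {k : ℤ} {p : ℕ} (hp : p.Prime) (hpN : ¬ p ∣ N) {h : ℍ → ℂ}
    (hh : NebInv N k h) (hV : NebInv N k (h ∣[k] heckeDiagMatrix p)) :
    NebInv N k ((h ∣[k] heckeDiagMatrix p) ∣[k] heckeDiagMatrix p) := by
  obtain ⟨γp, hγp, hγp1, e, he⟩ := neben_exists_gammaP hp hpN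
  obtain ⟨γ', hγ'10, hγ'11, hmul⟩ := neben_heckeDiagMatrix_mul_of_eq' hp.ne_zero γp e he
  have hcop : IsCoprime (N : ℤ) (p : ℤ) :=
    Nat.isCoprime_iff_coprime.mpr ((Nat.Prime.coprime_iff_not_dvd hp).mpr hpN).symm
  have hγ'0 : γ' ∈ Gamma0 N := by
    rw [Gamma0_mem, hγ'10, ZMod.intCast_zmod_eq_zero_iff_dvd]
    have : (N : ℤ) ∣ γp 1 0 := (ZMod.intCast_zmod_eq_zero_iff_dvd _ _).mp (Gamma0_mem.mp hγp)
    exact hcop.dvd_of_dvd_mul_left (he ▸ this)
  -- `F := (V_p h) ∣ γ_p⁻¹ = (h ∣ γ'⁻¹) ∣ diag`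
  set h₁ : ℍ → ℂ := h ∣[k] mapGL ℝ γ'⁻¹ with hh₁
  have hh₁inv : NebInv N k h₁ := nebInv_slash hh _ ((Gamma0 N).inv_mem hγ'0)
  set F : ℍ → ℂ := (h ∣[k] heckeDiagMatrix p) ∣[k] mapGL ℝ γp⁻¹ with hF
  have hFinv : NebInv N k F := nebInv_slash hV _ ((Gamma0 N).inv_mem hγp)
  have hF1 : F = h₁ ∣[k] heckeDiagMatrix p := by
    rw [hF, hh₁, ← SlashAction.slash_mul, ← SlashAction.slash_mul]
    congr 1
    rw [map_inv, map_inv, eq_inv_mul_iff_mul_eq, ← mul_assoc, ← hmul, mul_assoc,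
      mul_inv_cancel, mul_one]
  have hF2 : F ∣[k] mapGL ℝ γp = h ∣[k] heckeDiagMatrix p := by
    rw [hF, ← SlashAction.slash_mul, ← map_mul, inv_mul_cancel, map_one, SlashAction.slash_one]
  have key := nebInv_heckeT hp hpN hFinv γp hγp hγp1
  rw [hF2] at key
  have hU : heckeU k p F = ((p : ℂ) ^ (k - 1)) • h₁ := by
    rw [hF1]
    exact neben_heckeU_diag hp.ne_zero hh₁inv
  have := nebInv_sub key (nebInv_smul hh₁inv ((p : ℂ) ^ (k - 1)))
  rw [hU, add_sub_cancel_left] at this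
  exact this

end Fermat.Agent.S48
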