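import Mathlib
import Fermat.Agent.S48.NebenV
import Fermat.Prelude.Def_FLTPrelim_Modularity
import Fermat.Prelude.Thm_UpperHalfPlane_qCoeff_heckeT
import Fermat.Prelude.Thm_UpperHalfPlane_qCoeff_heckeU
import Fermat.Prelude.Thm_UpperHalfPlane_eq_of_forall_qCoeff_eq
import Fermat.Prelude.Thm_ModularForm_mdifferentiable_heckeT
import Fermat.Prelude.Thm_ModularForm_mdifferentiable_heckeU
import Fermat.Prelude.Thm_CuspFormClass_isZeroAt_heckeT
import Fermat.Prelude.Thm_CuspFormClass_isZeroAt_heckeU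
import Fermat.Prelude.Thm_ModularForm_isBoundedAtImInfty_heckeT
import Fermat.Prelude.Thm_ModularForm_isBoundedAtImInfty_heckeU
import Fermat.Prelude.Thm_ModularForm_periodic_heckeT_comp_ofComplex
import Fermat.Prelude.Thm_ModularForm_periodic_heckeU_comp_ofComplex

/-!
# S48, piece N, part 3: `q`-expansions of `V_p F` and of linear combinations
-/

set_option autoImplicit false

open CongruenceSubgroup UpperHalfPlane Matrix.SpecialLinearGroup
open scoped MatrixGroups ModularForm OnePoint Manifold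

namespace Fermat.Agent.S48

open ModularForm

/-- `1`-periodic, holomorphic and bounded at `i∞` -/
structure NebNice (F : ℍ → ℂ) : Prop where
  per : Function.Periodic (F ∘ UpperHalfPlane.ofComplex) 1
  hol : MDiff F
  bdd : IsBoundedAtImInfty F

theorem NebNice.analyticAt {F : ℍ → ℂ} (hF : NebNice F) : AnalyticAt ℂ (cuspFunction 1 F) 0 :=
  analyticAt_cuspFunction_zero one_pos (by simpa using hF.per) hF.hol hF.bdd

theorem NebNice.heckeU {F : ℍ → ℂ} (hF : NebNice F) (k : ℤ) (p : ℕ) :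
    NebNice (heckeU k p F) :=
  ⟨ModularForm.periodic_heckeU_comp_ofComplex hF.per k p,
    ModularForm.mdifferentiable_heckeU hF.hol k p,
    ModularForm.isBoundedAtImInfty_heckeU hF.bdd k p⟩

theorem NebNice.heckeT {F : ℍ → ℂ} (hF : NebNice F) (k : ℤ) (p : ℕ) :
    NebNice (heckeT k p F) :=
  ⟨ModularForm.periodic_heckeT_comp_ofComplex hF.per k p,
    ModularForm.mdifferentiable_heckeT hF.hol k p,
    ModularForm.isBoundedAtImInfty_heckeT hF.bdd k p⟩

theorem NebNice.add {F G : ℍ → ℂ} (hF : NebNice F) (hG : NebNice G) : NebNice (F + G) := by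
  refine ⟨?_, hF.hol.add hG.hol, hF.bdd.add hG.bdd⟩
  intro x
  have h1 := hF.per x
  have h2 := hG.per x
  simp only [Function.comp_apply, Pi.add_apply] at h1 h2 ⊢
  rw [h1, h2]

theorem NebNice.smul {F : ℍ → ℂ} (hF : NebNice F) (c : ℂ) : NebNice (c • F) := by
  refine ⟨?_, hF.hol.const_smul c, hF.bdd.const_smul_left c⟩
  intro x
  have h1 := hF.per x
  simp only [Function.comp_apply, Pi.smul_apply] at h1 ⊢
  rw [h1]

theorem NebNice.neg {F : ℍ → ℂ} (hF : NebNice F) : NebNice (-F) := by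
  have := hF.smul (-1)
  simpa using this

theorem NebNice.sub {F G : ℍ → ℂ} (hF : NebNice F) (hG : NebNice G) : NebNice (F - G) := by
  rw [sub_eq_add_neg]
  exact hF.add hG.neg

theorem neben_slash_diag_eq (k : ℤ) (p : ℕ) (F : ℍ → ℂ) :
    F ∣[k] heckeDiagMatrix p = heckeT k p F - heckeU k p F := by
  rw [heckeT_eq_heckeU_add, add_sub_cancel_left]

theorem NebNice.diag {F : ℍ → ℂ} (hF : NebNice F) (k : ℤ) (p : ℕ) :
    NebNice (F ∣[k] heckeDiagMatrix p) := by
  rw [neben_slash_diag_eq]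
  exact (hF.heckeT k p).sub (hF.heckeU k p)

theorem neben_qCoeff_add {F G : ℍ → ℂ} (hF : NebNice F) (hG : NebNice G) (n : ℕ) :
    ModularFormClass.qCoeff (F + G) n = ModularFormClass.qCoeff F n + ModularFormClass.qCoeff G n := by
  unfold ModularFormClass.qCoeff
  rw [qExpansion_add hF.analyticAt hG.analyticAt, map_add]

theorem neben_qCoeff_sub {F G : ℍ → ℂ} (hF : NebNice F) (hG : NebNice G) (n : ℕ) :
    ModularFormClass.qCoeff (F - G) n = ModularFormClass.qCoeff F n - ModularFormClass.qCoeff G n := by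
  unfold ModularFormClass.qCoeff
  rw [qExpansion_sub hF.analyticAt hG.analyticAt, map_sub]

theorem neben_qCoeff_smul {F : ℍ → ℂ} (hF : NebNice F) (c : ℂ) (n : ℕ) :
    ModularFormClass.qCoeff (c • F) n = c * ModularFormClass.qCoeff F n := by
  unfold ModularFormClass.qCoeff
  rw [qExpansion_smul hF.analyticAt, PowerSeries.coeff_smul, smul_eq_mul]

/-- the `q`-expansion of `V_p F` -/
theorem neben_qCoeff_diag {F : ℍ → ℂ} (hF : NebNice F) (k : ℤ) {p : ℕ} (hp : p ≠ 0) (n : ℕ) :
    ModularFormClass.qCoeff (F ∣[k] heckeDiagMatrix p) n =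
      if p ∣ n then (p : ℂ) ^ (k - 1) * ModularFormClass.qCoeff F (n / p) else 0 := by
  rw [neben_slash_diag_eq, neben_qCoeff_sub (hF.heckeT k p) (hF.heckeU k p),
    UpperHalfPlane.qCoeff_heckeT hF.per hF.hol hF.bdd k hp,
    UpperHalfPlane.qCoeff_heckeU hF.per hF.hol hF.bdd k hp,
    coeffHeckeT_eq_coeffHeckeU_add, add_sub_cancel_left]

theorem neben_qCoeff_heckeU {F : ℍ → ℂ} (hF : NebNice F) (k : ℤ) {p : ℕ} (hp : p ≠ 0) (n : ℕ) :
    ModularFormClass.qCoeff (heckeU k p F) n = ModularFormClass.qCoeff F (n * p) := by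
  rw [UpperHalfPlane.qCoeff_heckeU hF.per hF.hol hF.bdd k hp, coeffHeckeU_apply]

theorem neben_eq_of_qCoeff {F G : ℍ → ℂ} (hF : NebNice F) (hG : NebNice G)
    (h : ∀ n : ℕ, ModularFormClass.qCoeff F n = ModularFormClass.qCoeff G n) : F = G :=
  UpperHalfPlane.eq_of_forall_qCoeff_eq hF.per hF.hol hF.bdd hG.per hG.hol hG.bdd h

end Fermat.Agent.S48
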