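import Mathlib
import Fermat.Agent.S48.Plan
import Fermat.Agent.S48.NebenNice
import Fermat.Prelude.Thm_ModularForm_sturm_bound_of_isArithmetic

/-!
# S48, piece N: a Hecke eigenform in `S₁(Γ₁(N))` has nebentypus `ε` (`stmtNeben : StmtNeben`)

Route (no decomposition into characters).  Let `p ∤ N` be a prime and `γ ∈ Γ₀(N)` with lower right
entry `≡ p mod N`.
* `T_p f := U_p f + V_p (f ∣ γ)` is invariant under `Γ₁(N)` (`nebInv_heckeT`, NebenCoset.lean).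
* The Hecke relations say `U_p f + ε(p) V_p f = a_p f`; hence `V_p h`, `h := f ∣ γ - ε(p) f`,
  is invariant under `Γ₁(N)`.
* `V_p`-lemma (`neben_V_lemma`): a cusp form `h` on `Γ₁(N)` with `V_p h` of level `Γ₁(N)` is zero:
  then all `V_p^m h` are cusp forms on `Γ₁(N)` (`nebInv_diag_diag`, NebenV.lean), they vanish to order
  `≥ p^m` at `∞`, which contradicts the Sturm bound.
* Dirichlet's theorem on primes in arithmetic progressions gives a prime in every class.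
-/

set_option autoImplicit false

open CongruenceSubgroup UpperHalfPlane Matrix.SpecialLinearGroup
open scoped MatrixGroups ModularForm OnePoint Manifold

namespace Fermat.Agent.S48

open ModularForm

/-- `F` is (the function of) a cusp form of weight `k` on `Γ₁(N)` -/
def NebCusp (N : ℕ) (k : ℤ) (F : ℍ → ℂ) : Prop :=
  ∃ G : CuspForm (Gamma1 N) k, ⇑G = F

theorem nebCusp_coe {N : ℕ} {k : ℤ} (G : CuspForm (Gamma1 N) k) : NebCusp N k ⇑G := ⟨G, rfl⟩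

theorem NebCusp.inv {N : ℕ} {k : ℤ} {F : ℍ → ℂ} (hF : NebCusp N k F) : NebInv N k F := by
  obtain ⟨G, rfl⟩ := hF
  intro γ hγ
  exact G.slash_action_eq' _ (Subgroup.mem_map_of_mem _ hγ)

theorem neben_isCusp_infty (N : ℕ) :
    IsCusp ∞ ((Gamma1 N : Subgroup SL(2, ℤ)) : Subgroup (GL (Fin 2) ℝ)) :=
  Subgroup.isCusp_of_mem_strictPeriods one_pos (neben_one_mem_strictPeriods N)

theorem NebCusp.isZeroAtImInfty {N : ℕ} {k : ℤ} {F : ℍ → ℂ} (hF : NebCusp N k F) :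
    IsZeroAtImInfty F := by
  obtain ⟨G, rfl⟩ := hF
  exact OnePoint.isZeroAt_infty_iff.mp (G.zero_at_cusps' (neben_isCusp_infty N))

theorem NebCusp.hol {N : ℕ} {k : ℤ} {F : ℍ → ℂ} (hF : NebCusp N k F) : MDiff F := by
  obtain ⟨G, rfl⟩ := hF
  exact G.holo'

theorem NebCusp.nice {N : ℕ} {k : ℤ} {F : ℍ → ℂ} (hF : NebCusp N k F) : NebNice F :=
  ⟨nebInv_periodic hF.inv, hF.hol, hF.isZeroAtImInfty.isBoundedAtImInfty⟩

theorem NebCusp.qCoeff_zero {N : ℕ} {k : ℤ} {F : ℍ → ℂ} (hF : NebCusp N k F) :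
    ModularFormClass.qCoeff F 0 = 0 := by
  obtain ⟨G, rfl⟩ := hF
  exact CuspFormClass.qExpansion_coeff_zero G one_pos (neben_one_mem_strictPeriods N)

theorem NebCusp.sub {N : ℕ} {k : ℤ} {F G : ℍ → ℂ} (hF : NebCusp N k F) (hG : NebCusp N k G) :
    NebCusp N k (F - G) := by
  obtain ⟨F', rfl⟩ := hF
  obtain ⟨G', rfl⟩ := hG
  exact ⟨F' - G', rfl⟩

theorem NebCusp.smul {N : ℕ} {k : ℤ} {F : ℍ → ℂ} (hF : NebCusp N k F) (c : ℂ) :
    NebCusp N k (c • F) := by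
  obtain ⟨F', rfl⟩ := hF
  exact ⟨c • F', rfl⟩

/-- the cusps of `Γ₁(N)` are permuted by `SL(2, ℤ)` -/
theorem neben_isCusp_smul {N : ℕ} [NeZero N] {c : OnePoint ℝ}
    (hc : IsCusp c ((Gamma1 N : Subgroup SL(2, ℤ)) : Subgroup (GL (Fin 2) ℝ))) (γ : SL(2, ℤ)) :
    IsCusp (mapGL ℝ γ • c) ((Gamma1 N : Subgroup SL(2, ℤ)) : Subgroup (GL (Fin 2) ℝ)) := by
  rw [Subgroup.IsArithmetic.isCusp_iff_isCusp_SL2Z] at hc ⊢
  exact hc.smul_of_mem ⟨γ, rfl⟩

theorem NebCusp.slash {N : ℕ} [NeZero N] {k : ℤ} {F : ℍ → ℂ} (hF : NebCusp N k F) (γ : SL(2, ℤ))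
    (hγ : γ ∈ Gamma0 N) : NebCusp N k (F ∣[k] mapGL ℝ γ) := by
  have hinv := nebInv_slash hF.inv γ hγ
  have hhol : MDiff (F ∣[k] mapGL ℝ γ) := by
    obtain ⟨G, rfl⟩ := hF
    exact (CuspForm.translate G (mapGL ℝ γ)).holo'
  obtain ⟨G, rfl⟩ := hF
  refine ⟨{ toSlashInvariantForm := nebSIF hinv, holo' := hhol, zero_at_cusps' := ?_ }, rfl⟩
  intro c hc
  exact OnePoint.IsZeroAt.smul_iff.mp (G.zero_at_cusps' (neben_isCusp_smul hc γ))

theorem neben_isZeroAt_sub {c : OnePoint ℝ} {k : ℤ} {F G : ℍ → ℂ} (hF : c.IsZeroAt F k)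
    (hG : c.IsZeroAt G k) : c.IsZeroAt (F - G) k := by
  intro g hg
  have h1 := hF g hg
  have h2 := hG g hg
  have : (F - G) ∣[k] g = F ∣[k] g - G ∣[k] g := by
    rw [sub_eq_add_neg, SlashAction.add_slash, SlashAction.neg_slash, ← sub_eq_add_neg]
  rw [this]
  have h3 : Filter.Tendsto (F ∣[k] g - G ∣[k] g) atImInfty (nhds (0 - 0)) :=
    Filter.Tendsto.sub h1 h2
  rw [sub_zero] at h3
  exact h3

/-- if `F` is a cusp form on `Γ₁(N)` and `V_p F` is invariant under `Γ₁(N)`, then `V_p F` is a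
cusp form on `Γ₁(N)` -/
theorem NebCusp.diag {N : ℕ} [NeZero N] {k : ℤ} {F : ℍ → ℂ} (hF : NebCusp N k F) (p : ℕ)
    (hV : NebInv N k (F ∣[k] heckeDiagMatrix p)) : NebCusp N k (F ∣[k] heckeDiagMatrix p) := by
  have hhol : MDiff (F ∣[k] heckeDiagMatrix p) := (hF.nice.diag k p).hol
  obtain ⟨G, rfl⟩ := hF
  refine ⟨{ toSlashInvariantForm := nebSIF hV, holo' := hhol, zero_at_cusps' := ?_ }, rfl⟩
  intro c hc
  have h1 := CuspFormClass.isZeroAt_heckeT G p hc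
  have h2 := CuspFormClass.isZeroAt_heckeU G p hc
  have := neben_isZeroAt_sub h1 h2
  rw [← neben_slash_diag_eq] at this
  exact this

/-- `V_p` is injective -/
theorem neben_diag_injective {k : ℤ} {p : ℕ} {F : ℍ → ℂ} (h : F ∣[k] heckeDiagMatrix p = 0) :
    F = 0 := by
  have : (F ∣[k] heckeDiagMatrix p) ∣[k] (heckeDiagMatrix p)⁻¹ = F := by
    rw [← SlashAction.slash_mul, mul_inv_cancel, SlashAction.slash_one]
  rw [← this, h, SlashAction.zero_slash]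

/-- the Sturm bound for cusp forms on `Γ₁(N)` -/
theorem neben_sturm (N : ℕ) [NeZero N] (k : ℤ) :
    ∃ B : ℕ, ∀ F' : ℍ → ℂ, NebCusp N k F' →
      (∀ n ≤ B, ModularFormClass.qCoeff F' n = 0) → F' = 0 := by
  refine ⟨(k * ((Gamma1 N : Subgroup SL(2, ℤ)) : Subgroup (GL (Fin 2) ℝ)).relIndex
    𝒮ℒ).toNat / 12, ?_⟩
  rintro _ ⟨G, rfl⟩ hG
  set M : ModularForm (Gamma1 N) k :=
    { toSlashInvariantForm := G.toSlashInvariantForm
      holo' := G.holo'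
      bdd_at_cusps' := fun hc g hg => (G.zero_at_cusps' hc g hg).isBoundedAtImInfty } with hM
  have h0 : M = 0 := by
    refine ModularForm.sturm_bound_of_isArithmetic (neben_one_mem_strictPeriods N) ?_
    refine lt_of_lt_of_le ?_ (PowerSeries.nat_le_order _ ((k * ((Gamma1 N : Subgroup SL(2, ℤ)) :
      Subgroup (GL (Fin 2) ℝ)).relIndex 𝒮ℒ).toNat / 12 + 1) ?_)
    · exact_mod_cast Nat.lt_succ_self _
    · intro i hi
      exact hG i (Nat.lt_succ_iff.mp hi)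
  have : (⇑M : ℍ → ℂ) = 0 := by rw [h0]; rfl
  exact this

/-- iterating `V_p` -/
theorem neben_iterate {N : ℕ} [NeZero N] {k : ℤ} {p : ℕ} (hp : p.Prime) (hpN : ¬ p ∣ N) (m : ℕ) :
    ∀ F : ℍ → ℂ, NebCusp N k F → NebInv N k (F ∣[k] heckeDiagMatrix p) → ∀ r : ℕ,
      (∀ n < r, ModularFormClass.qCoeff F n = 0) →
      ∃ F' : ℍ → ℂ, NebCusp N k F' ∧ (∀ n < p ^ m * r, ModularFormClass.qCoeff F' n = 0) ∧
        (F' = 0 → F = 0) := by
  induction m with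
  | zero =>
    intro F hF _ r hr
    exact ⟨F, hF, by simpa using hr, id⟩
  | succ m ih =>
    intro F hF hV r hr
    have hF1 : NebCusp N k (F ∣[k] heckeDiagMatrix p) := hF.diag p hV
    have hV1 := nebInv_diag_diag hp hpN hF.inv hV
    have hr1 : ∀ n < p * r, ModularFormClass.qCoeff (F ∣[k] heckeDiagMatrix p) n = 0 := by
      intro n hn
      rw [neben_qCoeff_diag hF.nice k hp.ne_zero]
      split_ifs with h
      · rw [hr (n / p) (Nat.div_lt_of_lt_mul hn), mul_zero]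
      · rfl
    obtain ⟨F', hF', hvan, himp⟩ := ih _ hF1 hV1 (p * r) hr1
    refine ⟨F', hF', ?_, fun h => neben_diag_injective (himp h)⟩
    intro n hn
    apply hvan
    rw [pow_succ, mul_assoc] at hn
    exact hn

/-- **The `V_p`-lemma**: a cusp form `F` on `Γ₁(N)` such that `V_p F` is invariant under `Γ₁(N)`
(`p ∤ N` prime) vanishes. -/
theorem neben_V_lemma {N : ℕ} [NeZero N] {k : ℤ} {p : ℕ} (hp : p.Prime) (hpN : ¬ p ∣ N)
    {F : ℍ → ℂ} (hF : NebCusp N k F) (hV : NebInv N k (F ∣[k] heckeDiagMatrix p)) : F = 0 := by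
  obtain ⟨B, hB⟩ := neben_sturm N k
  obtain ⟨F', hF', hvan, himp⟩ := neben_iterate hp hpN (B + 1) F hF hV 1
    (by
      intro n hn
      interval_cases n
      exact hF.qCoeff_zero)
  apply himp
  apply hB F' hF'
  intro n hn
  apply hvan
  rw [mul_one]
  calc n ≤ B := hn
    _ < B + 1 := Nat.lt_succ_self B
    _ < 2 ^ (B + 1) := Nat.lt_two_pow_self
    _ ≤ p ^ (B + 1) := Nat.pow_le_pow_left hp.two_le _

/-- the Hecke relation at `p` as an identity of functions: `U_p f + ε(p) V_p f = a_p f` -/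
theorem neben_hecke_rel {N : ℕ} [NeZero N] (ε : DirichletCharacter ℂ N)
    (f : CuspForm (Gamma1 N) 1) (hf : IsHeckeEigen N ε f) {p : ℕ} (hp : p.Prime)
    (hpN : ¬ p ∣ N) :
    heckeU 1 p ⇑f + ε (p : ZMod N) • ((⇑f : ℍ → ℂ) ∣[(1 : ℤ)] heckeDiagMatrix p) =
      ModularFormClass.qCoeff f p • (⇑f : ℍ → ℂ) := by
  have hF : NebCusp N 1 ⇑f := nebCusp_coe f
  refine neben_eq_of_qCoeff ((hF.nice.heckeU 1 p).add ((hF.nice.diag 1 p).smul _))
    (hF.nice.smul _) ?_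
  intro n
  rw [neben_qCoeff_add (hF.nice.heckeU 1 p) ((hF.nice.diag 1 p).smul _),
    neben_qCoeff_heckeU hF.nice 1 hp.ne_zero, neben_qCoeff_smul (hF.nice.diag 1 p),
    neben_qCoeff_diag hF.nice 1 hp.ne_zero, neben_qCoeff_smul hF.nice]
  have := hf.2 p hp hpN n
  rw [mul_comm n p]
  simp only [sub_self, zpow_zero, one_mul]
  exact this

/-- **Nebentypus at a prime**: `f ∣ γ = ε(p) f` for `γ ∈ Γ₀(N)` with lower right entry `≡ p`. -/
theorem neben_slash_eq {N : ℕ} [NeZero N] (ε : DirichletCharacter ℂ N)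
    (f : CuspForm (Gamma1 N) 1) (hf : IsHeckeEigen N ε f) {p : ℕ} (hp : p.Prime)
    (hpN : ¬ p ∣ N) (γ : SL(2, ℤ)) (hγ : γ ∈ Gamma0 N)
    (hγ1 : ((γ 1 1 : ℤ) : ZMod N) = (p : ZMod N)) :
    (⇑f : ℍ → ℂ) ∣[(1 : ℤ)] mapGL ℝ γ = ε (p : ZMod N) • (⇑f : ℍ → ℂ) := by
  have hF : NebCusp N 1 ⇑f := nebCusp_coe f
  have h1 := neben_hecke_rel ε f hf hp hpN
  set h : ℍ → ℂ := (⇑f : ℍ → ℂ) ∣[(1 : ℤ)] mapGL ℝ γ - ε (p : ZMod N) • (⇑f : ℍ → ℂ) with hh
  have hh1 : NebCusp N 1 h := (hF.slash γ hγ).sub (hF.smul _)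
  have hh2 : h ∣[(1 : ℤ)] heckeDiagMatrix p =
      (heckeU 1 p ⇑f + ((⇑f : ℍ → ℂ) ∣[(1 : ℤ)] mapGL ℝ γ) ∣[(1 : ℤ)] heckeDiagMatrix p) -
        ModularFormClass.qCoeff f p • (⇑f : ℍ → ℂ) := by
    rw [← h1, hh, sub_eq_add_neg, SlashAction.add_slash, SlashAction.neg_slash,
      ModularForm.smul_slash, σ_heckeDiagMatrix]
    simp only [ContinuousAlgEquiv.refl_apply]
    abel
  have hV : NebInv N 1 (h ∣[(1 : ℤ)] heckeDiagMatrix p) := by
    rw [hh2]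
    exact nebInv_sub (nebInv_heckeT hp hpN hF.inv γ hγ hγ1) (nebInv_smul hF.inv _)
  exact sub_eq_zero.mp (neben_V_lemma hp hpN hh1 hV)

/-- **Reusable**: the Hecke operator `T_p` on `S₁(Γ₁(N))`, `p ∤ N`, with the diamond operator
given by any `γ ∈ Γ₀(N)` with lower right entry `≡ p mod N`: there is a cusp form `g'` with
`a_n(g') = a_{pn}(g) + [p ∣ n] a_{n/p}(g ∣ γ)`. -/
theorem neben_exists_heckeT {N : ℕ} [NeZero N] {p : ℕ} (hp : p.Prime) (hpN : ¬ p ∣ N)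
    (g : CuspForm (Gamma1 N) 1) (γ : SL(2, ℤ)) (hγ : γ ∈ Gamma0 N)
    (hγ1 : ((γ 1 1 : ℤ) : ZMod N) = (p : ZMod N)) :
    ∃ g' gd : CuspForm (Gamma1 N) 1, (⇑gd : ℍ → ℂ) = (⇑g : ℍ → ℂ) ∣[(1 : ℤ)] mapGL ℝ γ ∧
      (⇑g' : ℍ → ℂ) = heckeU 1 p ⇑g + (⇑gd : ℍ → ℂ) ∣[(1 : ℤ)] heckeDiagMatrix p ∧
      ∀ n : ℕ, ModularFormClass.qCoeff g' n = ModularFormClass.qCoeff g (p * n) +
        if p ∣ n then ModularFormClass.qCoeff gd (n / p) else 0 := by
  have hG : NebCusp N 1 ⇑g := nebCusp_coe g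
  obtain ⟨gd, hgd⟩ := hG.slash γ hγ
  have hGd : NebCusp N 1 ⇑gd := nebCusp_coe gd
  have hinv : NebInv N 1 (heckeU 1 p ⇑g + (⇑gd : ℍ → ℂ) ∣[(1 : ℤ)] heckeDiagMatrix p) := by
    rw [hgd]
    exact nebInv_heckeT hp hpN hG.inv γ hγ hγ1
  have hnice : NebNice (heckeU 1 p ⇑g + (⇑gd : ℍ → ℂ) ∣[(1 : ℤ)] heckeDiagMatrix p) :=
    (hG.nice.heckeU 1 p).add (hGd.nice.diag 1 p)
  refine ⟨{ toSlashInvariantForm := nebSIF hinv, holo' := hnice.hol, zero_at_cusps' := ?_ }, gd,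
    hgd, rfl, ?_⟩
  · intro c hc
    have h1 := CuspFormClass.isZeroAt_heckeU g p hc
    have h2 := CuspFormClass.isZeroAt_heckeT gd p hc
    have h3 := CuspFormClass.isZeroAt_heckeU gd p hc
    have h4 := neben_isZeroAt_sub h2 h3
    rw [← neben_slash_diag_eq] at h4
    exact h1.add h4
  · intro n
    change ModularFormClass.qCoeff
      (heckeU 1 p ⇑g + (⇑gd : ℍ → ℂ) ∣[(1 : ℤ)] heckeDiagMatrix p) n = _
    rw [neben_qCoeff_add (hG.nice.heckeU 1 p) (hGd.nice.diag 1 p),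
      neben_qCoeff_heckeU hG.nice 1 hp.ne_zero, neben_qCoeff_diag hGd.nice 1 hp.ne_zero,
      mul_comm n p]
    simp only [sub_self, zpow_zero, one_mul]

/-- **(N)** a normalised Hecke eigenform (for `ε`) in `S₁(Γ₁(N))` has nebentypus `ε`. -/
theorem stmtNeben : StmtNeben := by
  intro N _ ε f hf γ hγ z
  have hu : IsUnit (((γ 1 1 : ℤ) : ZMod N)) :=
    IsUnit.of_mul_eq_one _ (by rw [mul_comm]; exact neben_det_zmod γ hγ)
  obtain ⟨p, hpgt, hp, hpd⟩ := Nat.forall_exists_prime_gt_and_eq_mod hu N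
  have hpN : ¬ p ∣ N := fun h =>
    absurd (Nat.le_of_dvd (Nat.pos_of_ne_zero (NeZero.ne N)) h) (not_le.mpr hpgt)
  have key := neben_slash_eq ε f hf hp hpN γ hγ hpd.symm
  have h1 := congrFun key z
  rw [hpd, ModularForm.slash_apply, neben_σ_mapGL] at h1
  have hden : denom (mapGL ℝ γ) (z : ℂ) = (γ 1 0 : ℂ) * (z : ℂ) + (γ 1 1 : ℂ) := by
    simp [UpperHalfPlane.denom]
  have hden0 : denom (mapGL ℝ γ) (z : ℂ) ≠ 0 := UpperHalfPlane.denom_ne_zero _ z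
  have hsmul : (mapGL ℝ γ) • z = γ • z := rfl
  have hdet : ((Matrix.GeneralLinearGroup.det (mapGL ℝ γ) : ℝˣ) : ℝ) = 1 := by
    simp
  rw [hsmul, hdet] at h1
  simp only [ContinuousAlgEquiv.refl_apply, abs_one, Complex.ofReal_one, one_zpow, mul_one,
    Pi.smul_apply, smul_eq_mul, zpow_neg, zpow_one] at h1
  rw [← hden]
  field_simp at h1
  rw [h1]
  ring

end Fermat.Agent.S48
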