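import Mathlib
import Fermat.Agent.S48.Plan2
import Fermat.Agent.S48.Neben
import Fermat.Prelude.Thm_ModularFormClass_isBoundedAt_heckeT
import Fermat.Prelude.Thm_ModularFormClass_isBoundedAt_heckeU

/-!
# S48, piece HK: the Hecke operators `T_p` on forms with nebentypus (any weight)

* `neben_heckeT_slash0`: `T_p` commutes with the diamond operators.
* `NebChar N k χ F`: `F ∣[k] γ = χ(d_γ) F` for `γ ∈ Γ₀(N)`; `nebChar_iff_hasNebenK`.
* `nebChar_heckeT`: `T_p F = U_p F + χ(p) V_p F` has nebentypus `χ` again.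
* `nebChar_exists_heckeT_cusp`, `nebChar_exists_heckeT_mod`: `T_p` on cusp forms / modular
  forms on `Γ₁(N)` with nebentypus `χ`, with the `q`-expansion of the image.
-/

set_option autoImplicit false

open CongruenceSubgroup UpperHalfPlane Matrix.SpecialLinearGroup
open scoped MatrixGroups ModularForm OnePoint Manifold

namespace Fermat.Agent.S48

open ModularForm
open P2MW.S_ModularForm_heckeT_slash_eq_self_of_mem_Gamma0.ModularForm.HeckeSlashInvariance

/-- the terms of `T_p` are permuted by `δ ∈ Γ₀(N)`, up to the diamond operator of `δ` -/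
theorem nebChar_term_slash {N : ℕ} {k : ℤ} {p : ℕ} [Fact p.Prime] (hpN : ¬ p ∣ N) {f : ℍ → ℂ}
    (hf : NebInv N k f) (γp : SL(2, ℤ)) (hγp : γp ∈ Gamma0 N)
    (hγp1 : ((γp 1 1 : ℤ) : ZMod N) = (p : ZMod N))
    (g : SL(2, ℤ)) (hg0 : g ∈ Gamma0 N) (x : OnePoint (ZMod p)) :
    nebTerm k p f (f ∣[k] mapGL ℝ γp) x ∣[k] mapGL ℝ g =
      nebTerm k p (f ∣[k] mapGL ℝ g) ((f ∣[k] mapGL ℝ g) ∣[k] mapGL ℝ γp)
        (redMatrix p g • x) := by
  have hp : p ≠ 0 := (Fact.out : p.Prime).ne_zero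
  have hg10 : ((g 1 0 : ℤ) : ZMod N) = 0 := Gamma0_mem.mp hg0
  have hcop : IsCoprime (N : ℤ) (p : ℤ) :=
    Nat.isCoprime_iff_coprime.mpr ((Nat.Prime.coprime_iff_not_dvd Fact.out).mpr hpN).symm
  have hgγ : (f ∣[k] mapGL ℝ g) ∣[k] mapGL ℝ γp = f ∣[k] mapGL ℝ (g * γp) := by
    rw [← SlashAction.slash_mul, ← map_mul]
  have hgγ0 : g * γp ∈ Gamma0 N := (Gamma0 N).mul_mem hg0 hγp
  have hgγ11 : (((g * γp) 1 1 : ℤ) : ZMod N) = ((g 1 1 : ℤ) : ZMod N) * (p : ZMod N) := by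
    rw [neben_mul_apply_11 g γp hg0, hγp1]
  induction x using OnePoint.rec with
  | infty =>
    rw [OnePoint.smul_infty_eq_ite]
    by_cases hc : ((g 1 0 : ℤ) : ZMod p) = 0
    · rw [if_pos (by simpa using hc), nebTerm_infty, nebTerm_infty]
      obtain ⟨e, he⟩ := (ZMod.intCast_zmod_eq_zero_iff_dvd _ _).mp hc
      obtain ⟨g', hg'10, hg'11, hmul⟩ := neben_heckeDiagMatrix_mul_of_eq' hp g e he
      have hg'0 : g' ∈ Gamma0 N := by
        rw [Gamma0_mem, hg'10, ZMod.intCast_zmod_eq_zero_iff_dvd]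
        have : (N : ℤ) ∣ g 1 0 := (ZMod.intCast_zmod_eq_zero_iff_dvd _ _).mp hg10
        exact hcop.dvd_of_dvd_mul_left (he ▸ this)
      have e1 : (f ∣[k] mapGL ℝ γp) ∣[k] mapGL ℝ g' =
          (f ∣[k] mapGL ℝ g) ∣[k] mapGL ℝ γp := by
        rw [hgγ, ← SlashAction.slash_mul, ← map_mul]
        refine neben_slash_congr hf _ _ ((Gamma0 N).mul_mem hγp hg'0) hgγ0 ?_
        rw [neben_mul_apply_11 γp g' hγp, hg'11, hgγ11, hγp1, mul_comm]
      rw [← SlashAction.slash_mul, hmul, SlashAction.slash_mul, e1]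
    · rw [if_neg (by simpa using hc), nebTerm_infty, nebTerm_coe]
      set y : ZMod p := redMatrix p g 0 0 / redMatrix p g 1 0 with hy
      obtain ⟨e, he⟩ : (p : ℤ) ∣ g 1 1 - g 1 0 * y.val := by
        rw [← ZMod.intCast_zmod_eq_zero_iff_dvd]
        push_cast
        rw [ZMod.natCast_zmod_val, hy, redMatrix_apply_zero_zero, redMatrix_apply_one_zero,
          mul_div_cancel₀ _ hc, sub_self]
      obtain ⟨g', hg'10, hg'11, hmul⟩ :=
        neben_heckeDiagMatrix_mul_of_eq hp g y.val e (by linear_combination he)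
      have hg'0 : g' ∈ Gamma0 N := by
        rw [Gamma0_mem, hg'10]; exact hg10
      have e1 : (f ∣[k] mapGL ℝ γp) ∣[k] mapGL ℝ g' = f ∣[k] mapGL ℝ g := by
        rw [← SlashAction.slash_mul, ← map_mul]
        refine neben_slash_congr hf _ _ ((Gamma0 N).mul_mem hγp hg'0) hg0 ?_
        rw [neben_mul_apply_11 γp g' hγp, hg'11, hγp1]
        have h1 : (p : ZMod N) * ((e : ℤ) : ZMod N) = ((g 1 1 : ℤ) : ZMod N) := by
          have := congrArg (Int.cast : ℤ → ZMod N) he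
          push_cast at this
          rw [hg10, zero_mul, sub_zero] at this
          exact this.symm
        exact h1
      rw [← SlashAction.slash_mul, hmul, SlashAction.slash_mul, e1]
  | coe j =>
    rw [OnePoint.smul_some_eq_ite]
    by_cases h : redMatrix p g 1 0 * j + redMatrix p g 1 1 = 0
    · rw [if_pos h, nebTerm_infty, nebTerm_coe]
      rw [redMatrix_apply_one_zero, redMatrix_apply_one_one] at h
      obtain ⟨e, he⟩ : (p : ℤ) ∣ g 0 0 + j.val * g 1 0 := by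
        rw [← ZMod.intCast_zmod_eq_zero_iff_dvd]
        push_cast
        rw [ZMod.natCast_zmod_val]
        linear_combination h
      obtain ⟨g', hg'10, hg'11, hmul⟩ := neben_heckeMatrix_mul_of_eq' hp g j.val e he
      have hg'0 : g' ∈ Gamma0 N := by
        rw [Gamma0_mem, hg'10]; exact hg10
      have e1 : f ∣[k] mapGL ℝ g' = (f ∣[k] mapGL ℝ g) ∣[k] mapGL ℝ γp := by
        rw [hgγ]
        refine neben_slash_congr hf _ _ hg'0 hgγ0 ?_
        rw [hg'11, hgγ11]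
        push_cast
        rw [mul_comm]
      rw [← SlashAction.slash_mul, hmul, SlashAction.slash_mul, e1]
    · rw [if_neg h, nebTerm_coe, nebTerm_coe]
      set y : ZMod p := (redMatrix p g 0 0 * j + redMatrix p g 0 1) /
        (redMatrix p g 1 0 * j + redMatrix p g 1 1) with hy
      obtain ⟨e, he⟩ : (p : ℤ) ∣ g 0 1 + j.val * g 1 1 - y.val * (g 0 0 + j.val * g 1 0) := by
        rw [← ZMod.intCast_zmod_eq_zero_iff_dvd]
        push_cast
        rw [ZMod.natCast_zmod_val, ZMod.natCast_zmod_val,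
          show ((g 0 0 : ℤ) : ZMod p) + j * ((g 1 0 : ℤ) : ZMod p)
            = redMatrix p g 1 0 * j + redMatrix p g 1 1 by
              rw [redMatrix_apply_one_zero, redMatrix_apply_one_one]; ring,
          hy, div_mul_cancel₀ _ h, redMatrix_apply_zero_zero, redMatrix_apply_zero_one]
        ring
      obtain ⟨g', hg'10, hg'11, hmul⟩ :=
        neben_heckeMatrix_mul_of_eq hp g j.val y.val e (by linear_combination he)
      have hg'0 : g' ∈ Gamma0 N := by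
        rw [Gamma0_mem, hg'10]
        push_cast
        rw [hg10, mul_zero]
      have e1 : f ∣[k] mapGL ℝ g' = f ∣[k] mapGL ℝ g := by
        refine neben_slash_congr hf _ _ hg'0 hg0 ?_
        rw [hg'11]
        push_cast
        rw [hg10, zero_mul, sub_zero]
      rw [← SlashAction.slash_mul, hmul, SlashAction.slash_mul, e1]

/-- **`T_p` commutes with the diamond operators**: for `δ ∈ Γ₀(N)`,
`(T_p f) ∣ δ = T_p (f ∣ δ)`. -/
theorem neben_heckeT_slash0 {N : ℕ} {k : ℤ} {p : ℕ} (hp : p.Prime) (hpN : ¬ p ∣ N) {f : ℍ → ℂ}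
    (hf : NebInv N k f) (γp : SL(2, ℤ)) (hγp : γp ∈ Gamma0 N)
    (hγp1 : ((γp 1 1 : ℤ) : ZMod N) = (p : ZMod N)) (δ : SL(2, ℤ)) (hδ : δ ∈ Gamma0 N) :
    (heckeU k p f + (f ∣[k] mapGL ℝ γp) ∣[k] heckeDiagMatrix p) ∣[k] mapGL ℝ δ =
      heckeU k p (f ∣[k] mapGL ℝ δ) +
        ((f ∣[k] mapGL ℝ δ) ∣[k] mapGL ℝ γp) ∣[k] heckeDiagMatrix p := by
  have : Fact p.Prime := ⟨hp⟩
  rw [neben_sum_nebTerm, neben_sum_nebTerm, SlashAction.sum_slash]
  calc ∑ x : OnePoint (ZMod p), (nebTerm k p f (f ∣[k] mapGL ℝ γp) x) ∣[k] mapGL ℝ δ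
      = ∑ x : OnePoint (ZMod p), nebTerm k p (f ∣[k] mapGL ℝ δ)
          ((f ∣[k] mapGL ℝ δ) ∣[k] mapGL ℝ γp) (redMatrix p δ • x) :=
        Finset.sum_congr rfl fun x _ ↦ nebChar_term_slash hpN hf γp hγp hγp1 δ hδ x
    _ = ∑ x : OnePoint (ZMod p), nebTerm k p (f ∣[k] mapGL ℝ δ)
          ((f ∣[k] mapGL ℝ δ) ∣[k] mapGL ℝ γp) x :=
        Equiv.sum_comp (MulAction.toPerm (redMatrix p δ))
          (fun x ↦ nebTerm k p (f ∣[k] mapGL ℝ δ) ((f ∣[k] mapGL ℝ δ) ∣[k] mapGL ℝ γp) x)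

/-- `F` has nebentypus `χ` in weight `k` (slash form) -/
def NebChar (N : ℕ) (k : ℤ) (χ : DirichletCharacter ℂ N) (F : ℍ → ℂ) : Prop :=
  ∀ γ : SL(2, ℤ), γ ∈ Gamma0 N → F ∣[k] mapGL ℝ γ = χ ((γ 1 1 : ℤ) : ZMod N) • F

theorem NebChar.inv {N : ℕ} {k : ℤ} {χ : DirichletCharacter ℂ N} {F : ℍ → ℂ}
    (hF : NebChar N k χ F) : NebInv N k F := by
  intro γ hγ
  rw [hF γ (Gamma1_in_Gamma0 N hγ), ((Gamma1_mem N γ).mp hγ).2.1, map_one, one_smul]

theorem neben_slash_apply (k : ℤ) (F : ℍ → ℂ) (γ : SL(2, ℤ)) (z : ℍ) :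
    (F ∣[k] mapGL ℝ γ) z =
      F (γ • z) * ((γ 1 0 : ℂ) * (z : ℂ) + (γ 1 1 : ℂ)) ^ (-k) := by
  rw [ModularForm.slash_apply, neben_σ_mapGL]
  have hden : denom (mapGL ℝ γ) (z : ℂ) = (γ 1 0 : ℂ) * (z : ℂ) + (γ 1 1 : ℂ) := by
    simp [UpperHalfPlane.denom]
  have hsmul : (mapGL ℝ γ) • z = γ • z := rfl
  have hdet : ((Matrix.GeneralLinearGroup.det (mapGL ℝ γ) : ℝˣ) : ℝ) = 1 := by
    simp
  rw [hsmul, hdet, hden]
  simp

theorem neben_denom_ne_zero (γ : SL(2, ℤ)) (z : ℍ) :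
    (γ 1 0 : ℂ) * (z : ℂ) + (γ 1 1 : ℂ) ≠ 0 := by
  have hden : denom (mapGL ℝ γ) (z : ℂ) = (γ 1 0 : ℂ) * (z : ℂ) + (γ 1 1 : ℂ) := by
    simp [UpperHalfPlane.denom]
  rw [← hden]
  exact UpperHalfPlane.denom_ne_zero _ z

/-- the slash form and the pointwise form of "nebentypus `χ`" agree -/
theorem nebChar_iff_hasNebenK {N : ℕ} (k : ℕ) (χ : DirichletCharacter ℂ N) (F : ℍ → ℂ) :
    NebChar N k χ F ↔ HasNebenK N χ k F := by
  constructor
  · intro h γ hγ z
    have h1 := congrFun (h γ hγ) z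
    rw [neben_slash_apply, Pi.smul_apply, smul_eq_mul, zpow_neg, zpow_natCast] at h1
    have h0 := pow_ne_zero k (neben_denom_ne_zero γ z)
    field_simp at h1
    rw [h1]
    ring
  · intro h γ hγ
    funext z
    rw [neben_slash_apply, Pi.smul_apply, smul_eq_mul, zpow_neg, zpow_natCast, h γ hγ z]
    have h0 := pow_ne_zero k (neben_denom_ne_zero γ z)
    field_simp

/-- **`T_p` preserves the nebentypus**: if `F` has nebentypus `χ`, so has
`T_p F = U_p F + χ(p) V_p F`. -/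
theorem nebChar_heckeT {N : ℕ} [NeZero N] {k : ℤ} {χ : DirichletCharacter ℂ N} {p : ℕ}
    (hp : p.Prime) (hpN : ¬ p ∣ N) {F : ℍ → ℂ} (hF : NebChar N k χ F) :
    NebChar N k χ (heckeU k p F + χ (p : ZMod N) • (F ∣[k] heckeDiagMatrix p)) := by
  obtain ⟨γp, hγp, hγp1, -⟩ := neben_exists_gammaP hp hpN
  have key : ∀ c : ℂ, heckeU k p (c • F) + ((c • F) ∣[k] mapGL ℝ γp) ∣[k] heckeDiagMatrix p =
      c • (heckeU k p F + χ (p : ZMod N) • (F ∣[k] heckeDiagMatrix p)) := by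
    intro c
    rw [heckeU_smul, ModularForm.smul_slash, neben_σ_mapGL, hF γp hγp, hγp1,
      ModularForm.smul_slash, σ_heckeDiagMatrix, ModularForm.smul_slash, σ_heckeDiagMatrix]
    simp only [ContinuousAlgEquiv.refl_apply, smul_add]
  intro δ hδ
  have h1 := neben_heckeT_slash0 hp hpN hF.inv γp hγp hγp1 δ hδ
  have h2 := key 1
  rw [one_smul, one_smul] at h2
  rw [← h2, h1, hF δ hδ, key, h2]

/-- `T_p` on cusp forms of weight `k` on `Γ₁(N)` with nebentypus `χ` -/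
theorem nebChar_exists_heckeT_cusp {N : ℕ} [NeZero N] {k : ℤ} (χ : DirichletCharacter ℂ N)
    {p : ℕ} (hp : p.Prime) (hpN : ¬ p ∣ N) (g : CuspForm (Gamma1 N) k)
    (hg : NebChar N k χ ⇑g) :
    ∃ g' : CuspForm (Gamma1 N) k, NebChar N k χ ⇑g' ∧
      (⇑g' : ℍ → ℂ) = heckeU k p ⇑g + χ (p : ZMod N) • ((⇑g : ℍ → ℂ) ∣[k] heckeDiagMatrix p) ∧
      ∀ n : ℕ, ModularFormClass.qCoeff g' n = ModularFormClass.qCoeff g (p * n) +
        (p : ℂ) ^ (k - 1) * χ (p : ZMod N) *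
          (if p ∣ n then ModularFormClass.qCoeff g (n / p) else 0) := by
  have hG : NebCusp N k ⇑g := nebCusp_coe g
  have hchar := nebChar_heckeT hp hpN hg
  have hnice : NebNice (heckeU k p ⇑g + χ (p : ZMod N) • ((⇑g : ℍ → ℂ) ∣[k] heckeDiagMatrix p)) :=
    (hG.nice.heckeU k p).add ((hG.nice.diag k p).smul _)
  refine ⟨{ toSlashInvariantForm := nebSIF hchar.inv
            holo' := hnice.hol
            zero_at_cusps' := ?_ }, hchar, rfl, ?_⟩
  · intro c hc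
    have h1 := CuspFormClass.isZeroAt_heckeU g p hc
    have h2 := CuspFormClass.isZeroAt_heckeT g p hc
    have h4 := neben_isZeroAt_sub h2 h1
    rw [← neben_slash_diag_eq] at h4
    refine h1.add ?_
    intro γ hγ
    have h5 := h4 γ hγ
    rw [ModularForm.smul_slash]
    exact h5.smul _
  · intro n
    change ModularFormClass.qCoeff
      (heckeU k p ⇑g + χ (p : ZMod N) • ((⇑g : ℍ → ℂ) ∣[k] heckeDiagMatrix p)) n = _
    rw [neben_qCoeff_add (hG.nice.heckeU k p) ((hG.nice.diag k p).smul _),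
      neben_qCoeff_heckeU hG.nice k hp.ne_zero, neben_qCoeff_smul (hG.nice.diag k p),
      neben_qCoeff_diag hG.nice k hp.ne_zero, mul_comm n p]
    split_ifs <;> ring

theorem neben_isBoundedAt_sub {c : OnePoint ℝ} {k : ℤ} {F G : ℍ → ℂ} (hF : c.IsBoundedAt F k)
    (hG : c.IsBoundedAt G k) : c.IsBoundedAt (F - G) k := by
  intro g hg
  have h1 := hF g hg
  have h2 := hG g hg
  have : (F - G) ∣[k] g = F ∣[k] g + (-1 : ℂ) • (G ∣[k] g) := by
    rw [sub_eq_add_neg, SlashAction.add_slash, SlashAction.neg_slash]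
    simp
  rw [this]
  exact h1.add (h2.const_smul_left (-1))

/-- `T_p` on modular forms of weight `k` on `Γ₁(N)` with nebentypus `χ` -/
theorem nebChar_exists_heckeT_mod {N : ℕ} [NeZero N] {k : ℤ} (χ : DirichletCharacter ℂ N)
    {p : ℕ} (hp : p.Prime) (hpN : ¬ p ∣ N) (g : ModularForm (Gamma1 N) k)
    (hg : NebChar N k χ ⇑g) :
    ∃ g' : ModularForm (Gamma1 N) k, NebChar N k χ ⇑g' ∧
      (⇑g' : ℍ → ℂ) = heckeU k p ⇑g + χ (p : ZMod N) • ((⇑g : ℍ → ℂ) ∣[k] heckeDiagMatrix p) ∧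
      ∀ n : ℕ, ModularFormClass.qCoeff g' n = ModularFormClass.qCoeff g (p * n) +
        (p : ℂ) ^ (k - 1) * χ (p : ZMod N) *
          (if p ∣ n then ModularFormClass.qCoeff g (n / p) else 0) := by
  have hGnice : NebNice ⇑g :=
    ⟨nebInv_periodic hg.inv, g.holo',
      OnePoint.isBoundedAt_infty_iff.mp (g.bdd_at_cusps' (neben_isCusp_infty N))⟩
  have hchar := nebChar_heckeT hp hpN hg
  have hnice : NebNice (heckeU k p ⇑g + χ (p : ZMod N) • ((⇑g : ℍ → ℂ) ∣[k] heckeDiagMatrix p)) :=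
    (hGnice.heckeU k p).add ((hGnice.diag k p).smul _)
  refine ⟨{ toSlashInvariantForm := nebSIF hchar.inv
            holo' := hnice.hol
            bdd_at_cusps' := ?_ }, hchar, rfl, ?_⟩
  · intro c hc
    have h1 := ModularFormClass.isBoundedAt_heckeU g p hc
    have h2 := ModularFormClass.isBoundedAt_heckeT g p hc
    have h4 := neben_isBoundedAt_sub h2 h1
    rw [← neben_slash_diag_eq] at h4
    refine h1.add ?_
    intro γ hγ
    have h5 := h4 γ hγ
    rw [ModularForm.smul_slash]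
    exact h5.const_smul_left _
  · intro n
    change ModularFormClass.qCoeff
      (heckeU k p ⇑g + χ (p : ZMod N) • ((⇑g : ℍ → ℂ) ∣[k] heckeDiagMatrix p)) n = _
    rw [neben_qCoeff_add (hGnice.heckeU k p) ((hGnice.diag k p).smul _),
      neben_qCoeff_heckeU hGnice k hp.ne_zero, neben_qCoeff_smul (hGnice.diag k p),
      neben_qCoeff_diag hGnice k hp.ne_zero, mul_comm n p]
    split_ifs <;> ring

/-- `T_p` on `S₁(Γ₁(N))` with nebentypus `χ`, in the form of `S48/Plan2.lean` -/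
theorem nebChar_heckeT_one {N : ℕ} [NeZero N] (χ : DirichletCharacter ℂ N)
    {p : ℕ} (hp : p.Prime) (hpN : ¬ p ∣ N) (g : CuspForm (Gamma1 N) 1)
    (hg : HasNebenK N χ 1 g) :
    ∃ g' : CuspForm (Gamma1 N) 1, HasNebenK N χ 1 g' ∧
      ∀ n : ℕ, ModularFormClass.qCoeff g' n = ModularFormClass.qCoeff g (p * n) +
        χ (p : ZMod N) * (if p ∣ n then ModularFormClass.qCoeff g (n / p) else 0) := by
  have hg' : NebChar N ((1 : ℕ) : ℤ) χ ⇑g := (nebChar_iff_hasNebenK 1 χ _).mpr hg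
  rw [Nat.cast_one] at hg'
  obtain ⟨g', h1, -, h3⟩ := nebChar_exists_heckeT_cusp χ hp hpN g hg'
  refine ⟨g', ?_, ?_⟩
  · exact (nebChar_iff_hasNebenK 1 χ _).mp (by simpa using h1)
  · intro n
    rw [h3 n]
    simp

/-- `T_p` on `S₂(Γ₁(N))` with nebentypus `χ`, in the form of `S48/Plan2.lean` -/
theorem nebChar_heckeT_two {N : ℕ} [NeZero N] (χ : DirichletCharacter ℂ N)
    {p : ℕ} (hp : p.Prime) (hpN : ¬ p ∣ N) (g : CuspForm (Gamma1 N) 2)
    (hg : HasNebenK N χ 2 g) :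
    ∃ g' : CuspForm (Gamma1 N) 2, HasNebenK N χ 2 g' ∧
      ∀ n : ℕ, ModularFormClass.qCoeff g' n = ModularFormClass.qCoeff g (p * n) +
        (p : ℂ) * χ (p : ZMod N) * (if p ∣ n then ModularFormClass.qCoeff g (n / p) else 0) := by
  have hg' : NebChar N ((2 : ℕ) : ℤ) χ ⇑g := (nebChar_iff_hasNebenK 2 χ _).mpr hg
  rw [Nat.cast_ofNat] at hg'
  obtain ⟨g', h1, -, h3⟩ := nebChar_exists_heckeT_cusp χ hp hpN g hg'
  refine ⟨g', ?_, ?_⟩
  · exact (nebChar_iff_hasNebenK 2 χ _).mp (by simpa using h1)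
  · intro n
    rw [h3 n]
    norm_num

/-- a Hecke eigenform in `S₁(Γ₁(N))` (for `ε`) has nebentypus `ε`, in the form of
`S48/Plan2.lean` -/
theorem nebChar_of_isHeckeEigen {N : ℕ} [NeZero N] (ε : DirichletCharacter ℂ N)
    (f : CuspForm (Gamma1 N) 1) (hf : IsHeckeEigen N ε f) : HasNebenK N ε 1 f := by
  intro γ hγ z
  rw [pow_one]
  exact stmtNeben N ε f hf γ hγ z

end Fermat.Agent.S48
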