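import Mathlib
import Fermat.Agent.S48.Plan

/-!
# S48 (END assembly): the ring `ℤ̄` of algebraic integers in `ℂ` and its maximal ideals

* `zb_int_dvd_of_mem` : a maximal ideal over `ℓ` meets `ℤ` in `ℓ ℤ`.
* `zb_prime_bound_of_mem` : a nonzero algebraic integer lies in maximal ideals over finitely many `ℓ`.
* `zb_exists_maximal` : every prime `ℓ` lies in a maximal ideal.
* `zb_of_pow_eq_one` : roots of unity are algebraic integers.
* `zb_exists_root`, `zb_quotient_isAlgClosed` : `ℤ̄ / 𝔪` is algebraically closed.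
-/

set_option autoImplicit false

namespace Fermat.Agent.S48

theorem zb_int_dvd_of_mem {𝔪 : Ideal Zb} (h𝔪 : 𝔪 ≠ ⊤) {ℓ : ℕ} (hℓ : ℓ.Prime)
    (hℓ𝔪 : ((ℓ : ℕ) : Zb) ∈ 𝔪) {n : ℤ} (hn : ((n : ℤ) : Zb) ∈ 𝔪) : (ℓ : ℤ) ∣ n := by
  by_contra hdvd
  have hcop : IsCoprime (ℓ : ℤ) n := by
    rw [Int.isCoprime_iff_gcd_eq_one]
    have hp : Prime (ℓ : ℤ) := Nat.prime_iff_prime_int.mp hℓ
    exact Int.isCoprime_iff_gcd_eq_one.mp ((Prime.coprime_iff_not_dvd hp).mpr hdvd)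
  obtain ⟨u, v, huv⟩ := hcop
  apply h𝔪
  rw [Ideal.eq_top_iff_one]
  have h1 : ((u : ℤ) : Zb) * ((ℓ : ℕ) : Zb) + ((v : ℤ) : Zb) * ((n : ℤ) : Zb) = 1 := by
    have := congrArg (fun z : ℤ => (z : Zb)) huv
    simpa using this
  rw [← h1]
  exact 𝔪.add_mem (𝔪.mul_mem_left _ hℓ𝔪) (𝔪.mul_mem_left _ hn)

theorem zb_exists_int_mem_span {x : Zb} (hx : x ≠ 0) :
    ∃ c : ℤ, c ≠ 0 ∧ ((c : ℤ) : Zb) ∈ Ideal.span ({x} : Set Zb) := by
  have hxc : IsIntegral ℤ (x : ℂ) := x.2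
  have hxc0 : (x : ℂ) ≠ 0 := fun h => hx (Subtype.ext h)
  set P := minpoly ℤ (x : ℂ) with hP
  have hPq : minpoly ℚ (x : ℂ) = P.map (algebraMap ℤ ℚ) :=
    minpoly.isIntegrallyClosed_eq_field_fractions' ℚ hxc
  have hc0 : P.coeff 0 ≠ 0 := by
    have h1 := minpoly.coeff_zero_ne_zero (hxc.tower_top (A := ℚ)) hxc0
    rw [hPq, Polynomial.coeff_map] at h1
    intro h
    rw [h] at h1
    simp at h1
  refine ⟨P.coeff 0, hc0, ?_⟩
  have h0 : Polynomial.aeval x P = 0 := by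
    apply Subtype.ext
    have h1 : ((Polynomial.aeval x P : Zb) : ℂ) = Polynomial.aeval (x : ℂ) P :=
      (Polynomial.aeval_algebraMap_apply ℂ x P).symm
    rw [h1]
    exact minpoly.aeval ℤ (x : ℂ)
  have hdecomp := Polynomial.divX_mul_X_add P
  rw [← hdecomp] at h0
  simp only [map_add, map_mul, Polynomial.aeval_X, Polynomial.aeval_C] at h0
  have h1 : ((P.coeff 0 : ℤ) : Zb) = -(Polynomial.aeval x P.divX) * x := by
    have : algebraMap ℤ Zb (P.coeff 0) = ((P.coeff 0 : ℤ) : Zb) := by simp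
    rw [← this]
    linear_combination h0
  rw [h1]
  exact Ideal.mul_mem_left _ _ (Ideal.subset_span rfl)

theorem zb_prime_bound_of_mem {x : Zb} (hx : x ≠ 0) :
    ∃ B : ℕ, ∀ ℓ : ℕ, ℓ.Prime → ∀ 𝔪 : Ideal Zb, 𝔪 ≠ ⊤ → ((ℓ : ℕ) : Zb) ∈ 𝔪 → x ∈ 𝔪 → ℓ ≤ B := by
  obtain ⟨c, hc0, hc⟩ := zb_exists_int_mem_span hx
  refine ⟨c.natAbs, fun ℓ hℓ 𝔪 h𝔪 hℓ𝔪 hx𝔪 => ?_⟩
  have hc𝔪 : ((c : ℤ) : Zb) ∈ 𝔪 := by
    have : Ideal.span ({x} : Set Zb) ≤ 𝔪 := (Ideal.span_singleton_le_iff_mem _).mpr hx𝔪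
    exact this hc
  have hdvd := zb_int_dvd_of_mem h𝔪 hℓ hℓ𝔪 hc𝔪
  have h2 : ℓ ∣ c.natAbs := Int.natCast_dvd.mp hdvd
  exact Nat.le_of_dvd (Int.natAbs_pos.mpr hc0) h2

theorem zb_exists_maximal {ℓ : ℕ} (hℓ : ℓ.Prime) :
    ∃ 𝔪 : Ideal Zb, 𝔪.IsMaximal ∧ ((ℓ : ℕ) : Zb) ∈ 𝔪 := by
  have hne : Ideal.span ({((ℓ : ℕ) : Zb)} : Set Zb) ≠ ⊤ := by
    intro htop
    rw [Ideal.span_singleton_eq_top] at htop
    obtain ⟨y, hy⟩ := htop.exists_right_inv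
    -- `y = 1/ℓ` is a rational algebraic integer
    have hy' : ((ℓ : ℕ) : ℂ) * (y : ℂ) = 1 := by
      have := congrArg (fun z : Zb => (z : ℂ)) hy
      simpa using this
    have hℓ0 : ((ℓ : ℕ) : ℂ) ≠ 0 := Nat.cast_ne_zero.mpr hℓ.ne_zero
    have hyq : (y : ℂ) = algebraMap ℚ ℂ (1 / (ℓ : ℚ)) := by
      have : (y : ℂ) = 1 / ((ℓ : ℕ) : ℂ) := by field_simp; linear_combination hy'
      rw [this]
      simp
    have hint : IsIntegral ℤ (algebraMap ℚ ℂ (1 / (ℓ : ℚ))) := hyq ▸ y.2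
    have hint' : IsIntegral ℤ (1 / (ℓ : ℚ)) :=
      (isIntegral_algebraMap_iff (algebraMap ℚ ℂ).injective).mp hint
    obtain ⟨z, hz⟩ := IsIntegrallyClosed.isIntegral_iff.mp hint'
    have hz' : (z : ℚ) * ℓ = 1 := by
      have : (algebraMap ℤ ℚ z) = (z : ℚ) := rfl
      rw [this] at hz
      rw [hz]
      field_simp [Nat.cast_ne_zero.mpr hℓ.ne_zero]
    have hz'' : z * (ℓ : ℤ) = 1 := by exact_mod_cast hz'
    have := Int.isUnit_iff.mp (IsUnit.of_mul_eq_one _ ((mul_comm _ _).trans hz''))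
    have hℓ2 := hℓ.two_le
    omega
  obtain ⟨𝔪, h𝔪, hle⟩ := Ideal.exists_le_maximal _ hne
  exact ⟨𝔪, h𝔪, hle (Ideal.subset_span rfl)⟩

theorem zb_of_pow_eq_one {x : ℂ} {n : ℕ} (hn : 0 < n) (hx : x ^ n = 1) :
    ∃ z : Zb, (z : ℂ) = x := by
  have : IsIntegral ℤ x := IsIntegral.of_pow hn (hx ▸ isIntegral_one)
  exact ⟨⟨x, this⟩, rfl⟩


/-- every monic polynomial over `ℤ̄` has a root in `ℤ̄` -/
theorem zb_exists_root {P : Polynomial Zb} (hP : P.Monic) (hdeg : P.natDegree ≠ 0) :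
    ∃ z : Zb, P.eval z = 0 := by
  have hdeg' : (P.map (algebraMap Zb ℂ)).degree ≠ 0 := by
    rw [Polynomial.degree_map_eq_of_injective (FaithfulSMul.algebraMap_injective Zb ℂ),
      Polynomial.degree_eq_natDegree hP.ne_zero]
    exact_mod_cast hdeg
  obtain ⟨z, hz⟩ := IsAlgClosed.exists_root _ hdeg'
  have hz' : Polynomial.aeval z P = 0 := by
    rw [Polynomial.aeval_def, ← Polynomial.eval_map]
    exact hz
  have hint : IsIntegral Zb z := ⟨P, hP, by rw [← Polynomial.aeval_def]; exact hz'⟩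
  have hint' : IsIntegral ℤ z := isIntegral_trans (A := Zb) z hint
  have hmem : z ∈ integralClosure ℤ ℂ := hint'
  refine ⟨⟨z, hmem⟩, ?_⟩
  have h1 : algebraMap Zb ℂ (P.eval (⟨z, hmem⟩ : Zb)) = Polynomial.aeval z P := by
    rw [Polynomial.aeval_def, ← Polynomial.eval_map, ← Polynomial.eval₂_at_apply,
      Polynomial.eval₂_eq_eval_map]
    rfl
  rw [hz'] at h1
  exact (FaithfulSMul.algebraMap_injective Zb ℂ) (h1.trans (map_zero _).symm)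

/-- the residue fields of `ℤ̄` are algebraically closed -/
theorem zb_quotient_isAlgClosed (𝔪 : Ideal Zb) [𝔪.IsMaximal] :
    @IsAlgClosed (Zb ⧸ 𝔪) (Ideal.Quotient.field 𝔪) := by
  let _ := Ideal.Quotient.field 𝔪
  apply IsAlgClosed.of_exists_root
  intro p hmonic hirr
  have hlift : p ∈ Polynomial.lifts (Ideal.Quotient.mk 𝔪) := by
    rw [Polynomial.mem_lifts]
    exact Polynomial.map_surjective _ Ideal.Quotient.mk_surjective p
  obtain ⟨P, hPmap, hPdeg, hPmonic⟩ := Polynomial.lifts_and_degree_eq_and_monic hlift hmonic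
  have hdeg : P.natDegree ≠ 0 := by
    have h1 : P.natDegree = p.natDegree := Polynomial.natDegree_eq_of_degree_eq hPdeg
    rw [h1]
    exact (Polynomial.natDegree_pos_iff_degree_pos.mpr
      (Polynomial.degree_pos_of_irreducible hirr)).ne'
  obtain ⟨z, hz⟩ := zb_exists_root hPmonic hdeg
  refine ⟨Ideal.Quotient.mk 𝔪 z, ?_⟩
  rw [← hPmap, Polynomial.eval_map, Polynomial.eval₂_at_apply, hz, map_zero]


end Fermat.Agent.S48
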