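import Mathlib

/-!
# S48 / INT+: algebraic tools

* `intPlus_isAlgebraic_of_fixed` : a complex number which is fixed by all automorphisms of `ℂ` over
  `ℚ̄` is algebraic.
* `intPlus_le_span_of_stable` : echelon descent for finite dimensional subspaces of `ℂ⟦X⟧`.
* `intPlus_specialise` : a finite family of complex numbers can be specialised to algebraic
  numbers, preserving all polynomial relations over `ℚ̄` (Nullstellensatz).
* `intPlus_exists_den` : the algebraic elements of a finitely generated subgroup of `ℂ` have a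
  common denominator.
-/

set_option autoImplicit false

noncomputable section

namespace Fermat.Agent.S48

open MvPolynomial

/-- the field of algebraic numbers inside `ℂ` -/
abbrev Qb : IntermediateField ℚ ℂ := algebraicClosure ℚ ℂ

theorem mem_Qb_iff {x : ℂ} : x ∈ Qb ↔ IsAlgebraic ℚ x := mem_algebraicClosure_iff

instance intPlus_isAlgClosed_Qb : IsAlgClosed Qb :=
  (algebraicClosure.isAlgClosure ℚ ℂ).isAlgClosed

/-- algebraic integers are algebraic numbers -/
theorem intPlus_isAlgebraic_of_isIntegral {x : ℂ} (h : IsIntegral ℤ x) : IsAlgebraic ℚ x :=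
  (IsFractionRing.isAlgebraic_iff ℤ ℚ ℂ).mp h.isAlgebraic

/-- A transcendental complex number is moved by some ring automorphism of `ℂ` which fixes all
algebraic numbers. -/
theorem intPlus_exists_equiv_ne {z : ℂ} (hz : Transcendental ℚ z) :
    ∃ σ : ℂ ≃+* ℂ, (∀ y : ℂ, IsAlgebraic ℚ y → σ y = y) ∧ σ z ≠ z := by
  have hzK : Transcendental Qb z := by
    intro h
    apply hz
    have : Algebra.IsAlgebraic ℚ Qb := algebraicClosure.isAlgebraic ℚ ℂ
    exact h.restrictScalars ℚ
  have hs : AlgebraicIndepOn Qb id ({z} : Set ℂ) :=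
    (algebraicIndependent_singleton_iff (⟨z, Set.mem_singleton z⟩ : ({z} : Set ℂ))).mpr hzK
  obtain ⟨t, hzt, ht⟩ := exists_isTranscendenceBasis_superset hs
  have hzt' : z ∈ t := hzt (Set.mem_singleton z)
  have := IsAlgClosed.isAlgClosure_of_transcendence_basis ((↑) : t → ℂ) ht
  let φ : MvPolynomial t Qb ≃ₐ[Qb] MvPolynomial t Qb :=
    AlgEquiv.ofAlgHom (MvPolynomial.aeval fun b => - MvPolynomial.X b)
      (MvPolynomial.aeval fun b => - MvPolynomial.X b) (by ext; simp) (by ext; simp)
  let e : Algebra.adjoin Qb (Set.range ((↑) : t → ℂ)) ≃+*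
      Algebra.adjoin Qb (Set.range ((↑) : t → ℂ)) :=
    (ht.1.aevalEquiv.symm.trans (φ.trans ht.1.aevalEquiv)).toRingEquiv
  refine ⟨IsAlgClosure.equivOfEquiv ℂ ℂ e, ?_, ?_⟩
  · intro y hy
    let y' : Qb := ⟨y, mem_Qb_iff.mpr hy⟩
    have h1 : (ht.1.aevalEquiv (C y') : ℂ) = y := by
      simp [AlgebraicIndependent.aevalEquiv_apply_coe, y']
    have h2 : (e (ht.1.aevalEquiv (C y')) : ℂ) = y := by
      simp [e, φ, AlgebraicIndependent.aevalEquiv_apply_coe, y']
    have h3 := IsAlgClosure.equivOfEquiv_algebraMap ℂ ℂ e (ht.1.aevalEquiv (C y'))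
    have h4 : algebraMap (Algebra.adjoin Qb (Set.range ((↑) : t → ℂ))) ℂ
        (ht.1.aevalEquiv (C y')) = y := h1
    have h5 : algebraMap (Algebra.adjoin Qb (Set.range ((↑) : t → ℂ))) ℂ
        (e (ht.1.aevalEquiv (C y'))) = y := h2
    rw [h4, h5] at h3
    exact h3
  · have hz0 : z ≠ 0 := by
      rintro rfl
      exact hz isAlgebraic_zero
    have h1 : (ht.1.aevalEquiv (X ⟨z, hzt'⟩) : ℂ) = z := by
      simp [AlgebraicIndependent.aevalEquiv_apply_coe]
    have h2 : (e (ht.1.aevalEquiv (X ⟨z, hzt'⟩)) : ℂ) = -z := by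
      simp [e, φ, AlgebraicIndependent.aevalEquiv_apply_coe]
    have h3 := IsAlgClosure.equivOfEquiv_algebraMap ℂ ℂ e (ht.1.aevalEquiv (X ⟨z, hzt'⟩))
    have h4 : algebraMap (Algebra.adjoin Qb (Set.range ((↑) : t → ℂ))) ℂ
        (ht.1.aevalEquiv (X ⟨z, hzt'⟩)) = z := h1
    have h5 : algebraMap (Algebra.adjoin Qb (Set.range ((↑) : t → ℂ))) ℂ
        (e (ht.1.aevalEquiv (X ⟨z, hzt'⟩))) = -z := h2
    rw [h4, h5] at h3
    rw [h3]
    intro h
    apply hz0
    have : (2 : ℂ) * z = 0 := by linear_combination -h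
    simpa using this

/-- a complex number which is fixed by all automorphisms of `ℂ` over `ℚ̄` is algebraic -/
theorem intPlus_isAlgebraic_of_fixed (x : ℂ)
    (h : ∀ σ : ℂ ≃+* ℂ, (∀ y : ℂ, IsAlgebraic ℚ y → σ y = y) → σ x = x) : IsAlgebraic ℚ x := by
  by_contra hx
  obtain ⟨σ, hσ, hne⟩ := intPlus_exists_equiv_ne (z := x) hx
  exact hne (h σ hσ)

open Module in
/-- Echelon descent: a finite dimensional subspace of `ℂ⟦X⟧` which is stable under the
coefficientwise action of a set `S` of automorphisms of `ℂ` is spanned by its elements with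
coefficients in the fixed field of `S`. -/
theorem intPlus_le_span_of_stable (S : Set (ℂ ≃+* ℂ)) (P : ℂ → Prop)
    (hfix : ∀ x : ℂ, (∀ σ ∈ S, σ x = x) → P x)
    (V : Submodule ℂ (PowerSeries ℂ)) [FiniteDimensional ℂ V]
    (hV : ∀ σ ∈ S, ∀ F ∈ V, PowerSeries.map (σ : ℂ →+* ℂ) F ∈ V) :
    V ≤ Submodule.span ℂ {F | F ∈ V ∧ ∀ n, P (PowerSeries.coeff n F)} := by
  classical
  let c : ℕ → Module.Dual ℂ V := fun n => (PowerSeries.coeff (R := ℂ) n).comp V.subtype
  have hc : ∀ n (f : V), c n f = PowerSeries.coeff n (f : PowerSeries ℂ) := fun n f => rfl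
  have hspan : (⊤ : Submodule ℂ (Module.Dual ℂ V)) ≤ Submodule.span ℂ (Set.range c) := by
    have h0 : (Submodule.span ℂ (Set.range c)).dualCoannihilator = ⊥ := by
      rw [eq_bot_iff]
      intro f hf
      rw [Submodule.mem_dualCoannihilator] at hf
      rw [Submodule.mem_bot]
      apply Subtype.ext
      ext n
      have := hf (c n) (Submodule.subset_span ⟨n, rfl⟩)
      simpa [hc] using this
    have h1 := Subspace.dualCoannihilator_dualAnnihilator_eq
      (W := Submodule.span ℂ (Set.range c))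
    rw [h0, Submodule.dualAnnihilator_bot] at h1
    exact h1.le
  let β := Module.Basis.ofSpan hspan
  have hβc : ∀ i, ∃ n, c n = β i := fun i => Module.Basis.ofSpan_subset hspan ⟨i, rfl⟩
  have : Finite _ := Module.Finite.finite_basis β
  let b := β.dualBasis.map (Module.evalEquiv ℂ V).symm
  have hb : ∀ i j, β i (b j) = if i = j then 1 else 0 := by
    intro i j
    simp only [b, Module.Basis.map_apply, Module.apply_evalEquiv_symm_apply]
    exact β.dualBasis_apply_self j i
  have hzero : ∀ f : V, (∀ i, β i f = 0) → f = 0 := by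
    intro f hf
    have : Module.evalEquiv ℂ V f = 0 := by
      apply β.ext
      intro i
      simpa using hf i
    exact (LinearEquiv.map_eq_zero_iff (Module.evalEquiv ℂ V)).mp this
  have hfixed : ∀ σ ∈ S, ∀ j,
      PowerSeries.map (σ : ℂ →+* ℂ) (b j : PowerSeries ℂ) = (b j : PowerSeries ℂ) := by
    intro σ hσ j
    have hmem := hV σ hσ _ (b j).2
    have : (⟨_, hmem⟩ : V) - b j = 0 := by
      apply hzero
      intro i
      obtain ⟨n, hn⟩ := hβc i
      have h1 : β i (b j) = PowerSeries.coeff n (b j : PowerSeries ℂ) := by rw [← hn, hc]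
      rw [map_sub, sub_eq_zero, ← hn, hc, hc]
      simp only [PowerSeries.coeff_map, RingHom.coe_coe]
      rw [← h1, hb]
      split_ifs <;> simp
    exact congrArg Subtype.val (sub_eq_zero.mp this)
  intro f hf
  have hmemspan : (⟨f, hf⟩ : V) ∈ Submodule.span ℂ (Set.range b) := by
    rw [b.span_eq]; exact Submodule.mem_top
  have := Submodule.mem_map_of_mem (f := V.subtype) hmemspan
  rw [Submodule.map_span] at this
  refine Submodule.span_mono ?_ this
  rintro _ ⟨_, ⟨j, rfl⟩, rfl⟩
  refine ⟨(b j).2, fun n => hfix _ fun σ hσ => ?_⟩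
  have := congrArg (PowerSeries.coeff n) (hfixed σ hσ j)
  simpa using this

/-- **Specialisation.**  A finite family of complex numbers can be specialised to algebraic
numbers, preserving all polynomial relations with algebraic coefficients. -/
theorem intPlus_specialise {r : ℕ} (c : Fin r → ℂ) :
    ∃ y : Fin r → Qb, ∀ P : MvPolynomial (Fin r) Qb,
      MvPolynomial.aeval c P = 0 → MvPolynomial.eval y P = 0 := by
  let I : Ideal (MvPolynomial (Fin r) Qb) :=
    RingHom.ker (MvPolynomial.aeval c : MvPolynomial (Fin r) Qb →ₐ[Qb] ℂ).toRingHom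
  have hI : I ≠ ⊤ := by
    intro h
    have h1 : (1 : MvPolynomial (Fin r) Qb) ∈ I := by rw [h]; exact Submodule.mem_top
    rw [RingHom.mem_ker] at h1
    simp at h1
  obtain ⟨J, hJ, hIJ⟩ := Ideal.exists_le_maximal I hI
  obtain ⟨y, hy⟩ := MvPolynomial.eq_vanishingIdeal_singleton_of_isMaximal Qb hJ
  refine ⟨y, fun P hP => ?_⟩
  have h1 : P ∈ J := hIJ (by rw [RingHom.mem_ker]; exact hP)
  rw [hy, MvPolynomial.mem_vanishingIdeal_singleton_iff] at h1
  simpa using h1

/-- the algebraic elements of a finitely generated subgroup of `ℂ` have a common denominator -/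
theorem intPlus_exists_den (M : Submodule ℤ ℂ) (hM : M.FG) :
    ∃ D : ℕ, D ≠ 0 ∧ ∀ y ∈ M, IsAlgebraic ℚ y → IsIntegral ℤ ((D : ℂ) * y) := by
  classical
  let A : Submodule ℤ ℂ :=
    { carrier := {y | IsAlgebraic ℚ y}
      add_mem' := fun ha hb => ha.add hb
      zero_mem' := isAlgebraic_zero
      smul_mem' := fun m y hy => by
        rw [zsmul_eq_mul]
        exact (isAlgebraic_algebraMap (m : ℚ)).mul hy |> fun h => by simpa using h }
  have hfg : (M ⊓ A).FG := Submodule.FG.of_le hM inf_le_left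
  obtain ⟨s, hs⟩ := hfg
  have hd : ∀ x : ℂ, x ∈ s → ∃ d : ℕ, d ≠ 0 ∧ IsIntegral ℤ ((d : ℂ) * x) := by
    intro x hx
    have hxA : IsAlgebraic ℚ x := by
      have : x ∈ M ⊓ A := hs ▸ Submodule.subset_span hx
      exact this.2
    have hxZ : IsAlgebraic ℤ x := (IsFractionRing.isAlgebraic_iff ℤ ℚ ℂ).mpr hxA
    obtain ⟨m, hm0, hm⟩ := hxZ.exists_integral_multiple
    refine ⟨m.natAbs, Int.natAbs_ne_zero.mpr hm0, ?_⟩
    rw [zsmul_eq_mul] at hm
    rcases Int.natAbs_eq m with h | h
    · have : ((m.natAbs : ℕ) : ℂ) = (m : ℂ) := by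
        conv_rhs => rw [h]
        simp
      rw [this]
      exact hm
    · have : ((m.natAbs : ℕ) : ℂ) = -(m : ℂ) := by
        conv_rhs => rw [h]
        simp
      rw [this, neg_mul]
      exact hm.neg
  choose! d hd0 hdi using hd
  refine ⟨∏ x ∈ s, d x, Finset.prod_ne_zero_iff.mpr fun x hx => hd0 x hx, ?_⟩
  intro y hy hyA
  have hyMA : y ∈ Submodule.span ℤ (s : Set ℂ) := hs ▸ (⟨hy, hyA⟩ : y ∈ M ⊓ A)
  refine Submodule.span_induction
    (p := fun y _ => IsIntegral ℤ (((∏ x ∈ s, d x : ℕ) : ℂ) * y)) ?_ ?_ ?_ ?_ hyMA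
  · intro x hx
    have hx' : x ∈ s := hx
    rw [← Finset.prod_erase_mul s d hx']
    push_cast
    rw [mul_assoc]
    refine IsIntegral.mul ?_ (hdi x hx')
    exact_mod_cast isIntegral_algebraMap (R := ℤ) (A := ℂ) (x := ((∏ x ∈ s.erase x, d x : ℕ) : ℤ))
  · rw [mul_zero]
    exact isIntegral_zero
  · intro x y _ _ hx hy
    rw [mul_add]
    exact hx.add hy
  · intro m x _ hx
    rw [zsmul_eq_mul, mul_left_comm]
    exact (isIntegral_algebraMap (R := ℤ) (A := ℂ) (x := m)).mul hx

end Fermat.Agent.S48
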