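import Fermat.Agent.S48.Int
import Fermat.Agent.S48.IntPlusAlg
import Fermat.Agent.S48.Plan2

/-!
# S48 / INT+: WLOG the coefficients of `f` are algebraic with bounded denominators

`stmtIntPlus_of_neben : StmtNeben → StmtIntPlus`.

Route.  `V` := the space of `q`-expansions of the weight one cusp forms with nebentypus `ε`.
* `V` is finite dimensional (multiplication by the Eisenstein series `H_{ε⁻¹}` maps it into
  the `q`-expansions of `S₄(Γ₀(N))`).
* `V` is stable under the automorphisms of `ℂ` over `ℚ̄` (`stmtSigmaGen`), hence spanned by its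
  elements with algebraic coefficients (echelon descent).
* `f = ∑ c_j E_j` with `E_j ∈ V` algebraic; specialise `c ↦ y ∈ ℚ̄^r` (Nullstellensatz): all
  polynomial relations over `ℚ̄` between the `a_n(f)` persist, in particular the Hecke relations
  and the values `a_p(f) ∈ ℤ̄` (`stmtInt_of_neben`).  `h := ∑ y_j E_j`.
* the coefficients of `h` lie in a finitely generated `ℤ`-module (`int_coeff_bdd`) and are
  algebraic, hence have a common denominator.
-/

set_option autoImplicit false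

open CongruenceSubgroup UpperHalfPlane ModularForm Filter Topology
open Fermat.Agent.S23
open scoped MatrixGroups Manifold

noncomputable section

namespace Fermat.Agent.S48

/-! ## The space of `q`-expansions -/

theorem intPlus_qExpansion_add {N : ℕ} (g₁ g₂ : CuspForm (Gamma1 N) 1) :
    qExpansion 1 (⇑(g₁ + g₂) : ℍ → ℂ) =
      qExpansion 1 (⇑g₁ : ℍ → ℂ) + qExpansion 1 (⇑g₂ : ℍ → ℂ) := by
  have h : (⇑(g₁ + g₂) : ℍ → ℂ) = ⇑g₁ + ⇑g₂ := rfl
  rw [h]
  exact UpperHalfPlane.qExpansion_add (sigma_isHPB g₁).analyticAt (sigma_isHPB g₂).analyticAt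

theorem intPlus_qExpansion_smul {N : ℕ} (c : ℂ) (g : CuspForm (Gamma1 N) 1) :
    qExpansion 1 (⇑(c • g) : ℍ → ℂ) = c • qExpansion 1 (⇑g : ℍ → ℂ) := by
  have h : (⇑(c • g) : ℍ → ℂ) = c • ⇑g := rfl
  rw [h]
  exact UpperHalfPlane.qExpansion_smul (sigma_isHPB g).analyticAt c

/-- the `q`-expansions of the weight one cusp forms with nebentypus `ε` -/
def intPlusV (N : ℕ) [NeZero N] (ε : DirichletCharacter ℂ N) : Submodule ℂ (PowerSeries ℂ) where
  carrier := {F | ∃ g : CuspForm (Gamma1 N) 1, HasNeben N ε g ∧ qExpansion 1 (⇑g : ℍ → ℂ) = F}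
  add_mem' := by
    rintro _ _ ⟨g₁, h₁, rfl⟩ ⟨g₂, h₂, rfl⟩
    refine ⟨g₁ + g₂, ?_, intPlus_qExpansion_add g₁ g₂⟩
    intro γ hγ z
    have e1 : (g₁ + g₂) (γ • z) = g₁ (γ • z) + g₂ (γ • z) := rfl
    have e2 : (g₁ + g₂) z = g₁ z + g₂ z := rfl
    rw [e1, e2, h₁ γ hγ z, h₂ γ hγ z]
    ring
  zero_mem' := by
    refine ⟨0, ?_, ?_⟩
    · intro γ _ z
      simp
    · exact UpperHalfPlane.qExpansion_zero 1
  smul_mem' := by
    rintro c _ ⟨g, h, rfl⟩
    refine ⟨c • g, ?_, intPlus_qExpansion_smul c g⟩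
    intro γ hγ z
    have e1 : (c • g) (γ • z) = c * g (γ • z) := rfl
    have e2 : (c • g) z = c * g z := rfl
    rw [e1, e2, h γ hγ z]
    ring

theorem mem_intPlusV {N : ℕ} [NeZero N] {ε : DirichletCharacter ℂ N} {F : PowerSeries ℂ} :
    F ∈ intPlusV N ε ↔
      ∃ g : CuspForm (Gamma1 N) 1, HasNeben N ε g ∧ qExpansion 1 (⇑g : ℍ → ℂ) = F := Iff.rfl

/-- `V` is finite dimensional -/
theorem intPlusV_finiteDimensional {N : ℕ} [NeZero N] (ε : DirichletCharacter ℂ N)
    (hε1 : ε (-1) = -1) : FiniteDimensional ℂ (intPlusV N ε) := by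
  have hne : ∀ a : ZMod N, IsUnit a → ε a ≠ 0 := fun a ha => (ha.map ε).ne_zero
  have hinv : ∀ a : ZMod N, IsUnit a → ε a * ε⁻¹ a = 1 := by
    intro a ha
    rw [MulChar.inv_apply_eq_inv', mul_inv_cancel₀ (hne a ha)]
  have hε'1 : ε⁻¹ (-1) = -1 := by
    rw [MulChar.inv_apply_eq_inv', hε1]
    norm_num
  obtain ⟨H, hHneb, hH0, hHn⟩ :=
    exists_eisOdd_of_odd N (k := 3) le_rfl (by decide) ε⁻¹ hε'1
  have hqH1 : (qExpansion 1 (⇑H : ℍ → ℂ)).coeff 1 = 1 := by
    change ModularFormClass.qCoeff H 1 = 1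
    rw [hHn 1 one_ne_zero]
    simp
  have hqHne : qExpansion 1 (⇑H : ℍ → ℂ) ≠ 0 := by
    intro h
    rw [h] at hqH1
    simp at hqH1
  let μ : PowerSeries ℂ →ₗ[ℂ] PowerSeries ℂ := LinearMap.mulRight ℂ (qExpansion 1 (⇑H : ℍ → ℂ))
  have hμ : Function.Injective μ := by
    intro x y hxy
    exact mul_right_cancel₀ hqHne hxy
  have : FiniteDimensional ℂ (CuspForm (G0 N) 4) := cuspForm_finiteDimensional N 4
  have hle : (intPlusV N ε).map μ ≤ LinearMap.range (qExpLin N 4) := by
    rintro _ ⟨F, ⟨g, hg, rfl⟩, rfl⟩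
    obtain ⟨G, hG⟩ := sigma_exists_mul ε ε⁻¹ hinv g hg H (by
      intro γ hγ z
      have := hHneb γ hγ z
      simpa using this)
    refine ⟨G, ?_⟩
    rw [qExpLin_apply, hG, sigma_qExpansion_mul (sigma_isHPB g) (sigma_isHPB H)]
    rfl
  have : FiniteDimensional ℂ ((intPlusV N ε).map μ) :=
    Submodule.finiteDimensional_of_le hle
  exact LinearEquiv.finiteDimensional (Submodule.equivMapOfInjective μ hμ (intPlusV N ε)).symm

/-- `V` is stable under the automorphisms of `ℂ` which fix the algebraic numbers -/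
theorem intPlusV_stable {N : ℕ} [NeZero N] (ε : DirichletCharacter ℂ N) (σ : ℂ ≃+* ℂ)
    (hσ : ∀ y : ℂ, IsAlgebraic ℚ y → σ y = y) (F : PowerSeries ℂ) (hF : F ∈ intPlusV N ε) :
    PowerSeries.map (σ : ℂ →+* ℂ) F ∈ intPlusV N ε := by
  obtain ⟨g, hg, rfl⟩ := hF
  obtain ⟨g', hg', hq⟩ := stmtSigmaGen N ε g hg (σ : ℂ →+* ℂ)
  have hεσ : ε.ringHomComp (σ : ℂ →+* ℂ) = ε := by
    ext a
    rw [MulChar.ringHomComp_apply]
    exact hσ _ (intPlus_isAlgebraic_of_isIntegral (int_isIntegral_char ε _))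
  rw [hεσ] at hg'
  refine ⟨g', hg', ?_⟩
  ext n
  rw [PowerSeries.coeff_map]
  exact hq n

/-! ## The theorem -/

/-- **INT+.**  Given the nebentypus statement, a Hecke eigenform of weight one can be replaced by
one with the same eigenvalues whose coefficients are algebraic with bounded denominators. -/
theorem stmtIntPlus_of_neben (hN : StmtNeben) : StmtIntPlus := by
  intro N _ ε f hf
  classical
  have hneb : HasNeben N ε f := hN N ε f hf
  have h0 : (⇑f : ℍ → ℂ) ≠ 0 := by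
    apply int_ne_zero_of_qCoeff (n := 1)
    rw [hf.1]
    exact one_ne_zero
  have hε1 : ε (-1) = -1 := sigma_neg_one hneb h0
  have hfin : FiniteDimensional ℂ (intPlusV N ε) := intPlusV_finiteDimensional ε hε1
  have hFf : qExpansion 1 (⇑f : ℍ → ℂ) ∈ intPlusV N ε := ⟨f, hneb, rfl⟩
  have hdesc := intPlus_le_span_of_stable {σ | ∀ y : ℂ, IsAlgebraic ℚ y → σ y = y}
    (fun x => IsAlgebraic ℚ x) (fun x hx => intPlus_isAlgebraic_of_fixed x hx) (intPlusV N ε)
    (fun σ hσ F hF => intPlusV_stable ε σ hσ F hF) hFf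
  obtain ⟨r, c, E, hsum⟩ := Submodule.mem_span_set'.mp hdesc
  -- the coefficients of the `E j`, in `ℚ̄`
  let e : Fin r → ℕ → Qb := fun j n =>
    ⟨PowerSeries.coeff n ((E j : PowerSeries ℂ)), mem_Qb_iff.mpr ((E j).2.2 n)⟩
  have he : ∀ j n, ((e j n : Qb) : ℂ) = PowerSeries.coeff n ((E j : PowerSeries ℂ)) :=
    fun j n => rfl
  obtain ⟨y, hy⟩ := intPlus_specialise c
  -- the linear forms `a_n`
  let L : ℕ → MvPolynomial (Fin r) Qb := fun n =>
    ∑ j, MvPolynomial.C (e j n) * MvPolynomial.X j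
  have hLc : ∀ n, MvPolynomial.aeval c (L n) = ModularFormClass.qCoeff (⇑f) n := by
    intro n
    change _ = (qExpansion 1 (⇑f : ℍ → ℂ)).coeff n
    rw [← hsum, map_sum, map_sum]
    refine Finset.sum_congr rfl fun j _ => ?_
    rw [map_mul, MvPolynomial.aeval_C, MvPolynomial.aeval_X, PowerSeries.coeff_smul,
      mul_comm]
    rfl
  -- the form `h`
  have hFh : (∑ j, ((y j : Qb) : ℂ) • ((E j : PowerSeries ℂ))) ∈ intPlusV N ε :=
    Submodule.sum_mem _ fun j _ => Submodule.smul_mem _ _ (E j).2.1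
  obtain ⟨h, hhneb, hhq⟩ := hFh
  have hLy : ∀ n, ((MvPolynomial.eval y (L n) : Qb) : ℂ) = ModularFormClass.qCoeff (⇑h) n := by
    intro n
    change _ = (qExpansion 1 (⇑h : ℍ → ℂ)).coeff n
    rw [hhq, map_sum, map_sum]
    push_cast
    refine Finset.sum_congr rfl fun j _ => ?_
    rw [map_mul, MvPolynomial.eval_C, MvPolynomial.eval_X, PowerSeries.coeff_smul]
    push_cast
    rw [mul_comm, smul_eq_mul]
  -- transfer of relations
  have htrans : ∀ P : MvPolynomial (Fin r) Qb, MvPolynomial.aeval c P = 0 →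
      ((MvPolynomial.eval y P : Qb) : ℂ) = 0 := by
    intro P hP
    rw [hy P hP]
    rfl
  -- the character values and the eigenvalues, in `ℚ̄`
  let εK : ZMod N → Qb := fun a =>
    ⟨ε a, mem_Qb_iff.mpr (intPlus_isAlgebraic_of_isIntegral (int_isIntegral_char ε a))⟩
  have hInt := stmtInt_of_neben hN N ε f hf
  -- the Hecke relations for `h`
  have hh1 : ModularFormClass.qCoeff (⇑h) 1 = 1 := by
    have := htrans (L 1 - 1) (by rw [map_sub, hLc, hf.1, map_one, sub_self])
    rw [map_sub, map_one] at this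
    push_cast at this
    rw [hLy] at this
    exact sub_eq_zero.mp this
  have hhp : ∀ p : ℕ, p.Prime → ¬ p ∣ N →
      ModularFormClass.qCoeff (⇑h) p = ModularFormClass.qCoeff (⇑f) p := by
    intro p hp hpN
    obtain ⟨a, ha⟩ := hInt p hp hpN
    let κ : Qb := ⟨ModularFormClass.qCoeff (⇑f) p,
      mem_Qb_iff.mpr (intPlus_isAlgebraic_of_isIntegral (ha ▸ a.2))⟩
    have := htrans (L p - MvPolynomial.C κ) (by
      rw [map_sub, hLc, MvPolynomial.aeval_C]
      exact sub_self _)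
    rw [map_sub, MvPolynomial.eval_C] at this
    push_cast at this
    rw [hLy] at this
    exact sub_eq_zero.mp this
  have hheig : IsHeckeEigen N ε h := by
    refine ⟨hh1, fun p hp hpN n => ?_⟩
    have hrel := hf.2 p hp hpN n
    by_cases hd : p ∣ n
    · rw [if_pos hd] at hrel ⊢
      have := htrans (L (p * n) + MvPolynomial.C (εK (p : ZMod N)) * L (n / p) - L p * L n) (by
        rw [map_sub, map_add, map_mul, map_mul, hLc, hLc, hLc, hLc, MvPolynomial.aeval_C]
        exact sub_eq_zero.mpr hrel)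
      rw [map_sub, map_add, map_mul, map_mul, MvPolynomial.eval_C] at this
      push_cast at this
      rw [hLy, hLy, hLy, hLy] at this
      exact sub_eq_zero.mp this
    · rw [if_neg hd] at hrel ⊢
      rw [mul_zero, add_zero] at hrel ⊢
      have := htrans (L (p * n) - L p * L n) (by
        rw [map_sub, map_mul, hLc, hLc, hLc]
        exact sub_eq_zero.mpr hrel)
      rw [map_sub, map_mul] at this
      push_cast at this
      rw [hLy, hLy, hLy] at this
      exact sub_eq_zero.mp this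
  -- bounded denominators
  have hh0 : (⇑h : ℍ → ℂ) ≠ 0 := by
    apply int_ne_zero_of_qCoeff (n := 1)
    rw [hh1]
    exact one_ne_zero
  obtain ⟨M, hM, -, hmem⟩ := int_coeff_bdd ε h hhneb hh0
  obtain ⟨D, hD0, hD⟩ := intPlus_exists_den M hM
  refine ⟨h, D, hD0, hheig, ?_, ?_, ?_⟩
  · intro γ hγ z
    rw [pow_one]
    exact hhneb γ hγ z
  · intro n
    have halg : IsAlgebraic ℚ (ModularFormClass.qCoeff (⇑h) n) := by
      rw [← hLy n]
      exact mem_Qb_iff.mp (MvPolynomial.eval y (L n)).2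
    exact ⟨⟨_, hD _ (hmem n) halg⟩, rfl⟩
  · intro p hp hpN
    exact ⟨hhp p hp hpN, hInt p hp hpN⟩

end Fermat.Agent.S48
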