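import Mathlib
import Fermat.Agent.S48.EndDefs
import Fermat.Agent.S48.GalFactor
import Fermat.Agent.S48.ZbLemmas

/-!
# S48 (END assembly), step 1: the images of the residual representations are uniformly bounded

`exists_bound`: from DENS (Rankin), CD (Chebotarev density) and GT' (Burnside trace bound): there
is `B`, depending only on `f`, such that every residual representation attached to `f` (at any
`𝔪 ∣ ℓ`) has a semisimplification `ρ'` (same traces and determinants, trivial where `ρ` is) with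
`# im ρ' ≤ B`.
-/

set_option autoImplicit false

open CongruenceSubgroup

namespace Fermat.Agent.S48

/-- if `a log (1/(s-1)) ≤ C` for all `s` close to `1`, then `a ≤ 0` -/
theorem nonpos_of_mul_log_le {a C s₁ : ℝ} (hs₁ : 1 < s₁)
    (h : ∀ s : ℝ, 1 < s → s < s₁ → a * Real.log (1 / (s - 1)) ≤ C) : a ≤ 0 := by
  by_contra ha
  rw [not_le] at ha
  set L : ℝ := max (C / a + 1) (Real.log (1 / (s₁ - 1)) + 1) with hL
  have hL1 : C / a + 1 ≤ L := le_max_left _ _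
  have hL2 : Real.log (1 / (s₁ - 1)) + 1 ≤ L := le_max_right _ _
  have hs₁' : 0 < s₁ - 1 := by linarith
  have hexp : Real.exp (-L) < s₁ - 1 := by
    rw [← Real.exp_log hs₁']
    apply Real.exp_lt_exp.mpr
    have : Real.log (1 / (s₁ - 1)) = -Real.log (s₁ - 1) := by
      rw [one_div, Real.log_inv]
    linarith
  have h1 := h (1 + Real.exp (-L)) (by linarith [Real.exp_pos (-L)]) (by linarith)
  have h2 : Real.log (1 / (1 + Real.exp (-L) - 1)) = L := by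
    rw [add_sub_cancel_left, one_div, ← Real.exp_neg, neg_neg, Real.log_exp]
  rw [h2] at h1
  have h3 : C / a < L := by linarith
  rw [div_lt_iff₀ ha] at h3
  linarith

section Bound

variable (hDens : StmtDensity) (hCD : StmtChebDensity) (hTS : StmtTraceSpan)
  (hTD : StmtTraceDiag) (hSemi : StmtSemi) (hWC : StmtWeakCheb) (hFrob : StmtFrobExists)

include hDens hCD hTS hTD hSemi hWC hFrob in
/-- **Uniform bound for the images of the residual representations.** -/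
theorem exists_bound (N : ℕ) [NeZero N] (ε : DirichletCharacter ℂ N) (f : CuspForm (Gamma1 N) 1)
    (hf : IsHeckeEigen N ε f) :
    ∃ B : ℕ, ∀ ℓ : ℕ, ℓ.Prime → ∀ 𝔪 : Ideal Zb, 𝔪.IsMaximal → ((ℓ : ℕ) : Zb) ∈ 𝔪 →
      ∀ ρ : GalQ →* GL (Fin 2) (Zb ⧸ 𝔪), IsResidualRep N ε f ℓ 𝔪 ρ →
        ∃ ρ' : GalQ →* GL (Fin 2) (Zb ⧸ 𝔪),
          (∀ σ : GalQ, ρ σ = 1 → ρ' σ = 1) ∧
          (∀ σ : GalQ, Matrix.trace (ρ' σ : Matrix (Fin 2) (Fin 2) (Zb ⧸ 𝔪)) =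
              Matrix.trace (ρ σ : Matrix (Fin 2) (Fin 2) (Zb ⧸ 𝔪)) ∧
            Matrix.det (ρ' σ : Matrix (Fin 2) (Fin 2) (Zb ⧸ 𝔪)) =
              Matrix.det (ρ σ : Matrix (Fin 2) (Fin 2) (Zb ⧸ 𝔪))) ∧
          Nat.card ρ'.range ≤ B := by
  obtain ⟨Y, C₀, hY⟩ := hDens N ε f hf (1 / 16) (by norm_num)
  refine ⟨max (2 * Y.card ^ 4) (4 * Y.card * N), fun ℓ hℓ 𝔪 h𝔪 hℓ𝔪 ρ hρ => ?_⟩
  haveI := h𝔪
  letI : Field (Zb ⧸ 𝔪) := Ideal.Quotient.field 𝔪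
  haveI : IsAlgClosed (Zb ⧸ 𝔪) := zb_quotient_isAlgClosed 𝔪
  obtain ⟨ρ', hker, htd, hcase⟩ := hSemi (Zb ⧸ 𝔪) GalQ ρ
  refine ⟨ρ', hker, htd, ?_⟩
  obtain ⟨⟨F, hFfin, hFgal, hFker⟩, hfrob⟩ := hρ
  haveI := hFfin
  haveI := hFgal
  haveI : Finite (F ≃ₐ[ℚ] F) := finite_galF F
  obtain ⟨ρF, hρF⟩ := exists_factor F ρ' fun σ hσ => hker σ (hFker σ hσ)
  have hrange : ρF.range = ρ'.range := range_eq_of_factor F hρF
  rw [← hrange]
  -- the set of primes dividing `N ℓ`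
  have hNℓ : N * ℓ ≠ 0 := Nat.mul_ne_zero (NeZero.ne N) hℓ.ne_zero
  set S : Finset ℕ := (N * ℓ).primeFactors with hS
  have hS' : ∀ p : ℕ, p.Prime → p ∉ S → ¬ p ∣ N * ℓ := by
    intro p hp hpS hdvd
    exact hpS (Nat.mem_primeFactors.mpr ⟨hp, hdvd, hNℓ⟩)
  -- trace of `ρF` at a Frobenius
  have htrF : ∀ p : ℕ, p.Prime → ¬ p ∣ N * ℓ →
      ∀ A : ValuationSubring (AlgebraicClosure ℚ), A.LiesOverPrime p →
        ∀ τ : GalQ, A.IsFrobeniusAt τ p →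
          ∃ a e : Zb, (a : ℂ) = ModularFormClass.qCoeff f p ∧ (e : ℂ) = ε (p : ZMod N) ∧
            Matrix.trace (ρF (resF F τ) : Matrix (Fin 2) (Fin 2) (Zb ⧸ 𝔪)) =
              Ideal.Quotient.mk 𝔪 a ∧
            Matrix.det (ρF (resF F τ) : Matrix (Fin 2) (Fin 2) (Zb ⧸ 𝔪)) =
              Ideal.Quotient.mk 𝔪 e := by
    intro p hp hpN A hA τ hτ
    obtain ⟨a, e, ha, he, htr, hdet⟩ := (hfrob p hp hpN A hA).2 τ hτ
    refine ⟨a, e, ha, he, ?_, ?_⟩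
    · rw [hρF, (htd τ).1, htr]
    · rw [hρF, (htd τ).2, hdet]
  -- the bad set
  set Ybar : Finset (Zb ⧸ 𝔪) := redSet 𝔪 Y with hYbar
  set C : Set (F ≃ₐ[ℚ] F) :=
    {g | Matrix.trace (ρF g : Matrix (Fin 2) (Fin 2) (Zb ⧸ 𝔪)) ∉ Ybar} with hC
  have hCconj : ∀ g σ : F ≃ₐ[ℚ] F, σ ∈ C → g * σ * g⁻¹ ∈ C := by
    intro g σ hσ
    simp only [hC, Set.mem_setOf_eq] at hσ ⊢
    have : (ρF (g * σ * g⁻¹) : Matrix (Fin 2) (Fin 2) (Zb ⧸ 𝔪)) =
        (ρF g : Matrix (Fin 2) (Fin 2) (Zb ⧸ 𝔪)) * (ρF σ : Matrix (Fin 2) (Fin 2) (Zb ⧸ 𝔪)) *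
          ((ρF g)⁻¹ : GL (Fin 2) (Zb ⧸ 𝔪)) := by
      rw [map_mul, map_mul, map_inv]
      rfl
    rw [this, Matrix.trace_mul_comm, ← mul_assoc]
    have h2 : (((ρF g)⁻¹ : GL (Fin 2) (Zb ⧸ 𝔪)) : Matrix (Fin 2) (Fin 2) (Zb ⧸ 𝔪)) *
        (ρF g : Matrix (Fin 2) (Fin 2) (Zb ⧸ 𝔪)) = 1 := by
      rw [← Units.val_mul, inv_mul_cancel, Units.val_one]
    rw [h2, one_mul]
    exact hσ
  -- Chebotarev against Rankin
  have hprop : (C.ncard : ℝ) / (Nat.card (F ≃ₐ[ℚ] F) : ℝ) ≤ 1 / 8 := by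
    obtain ⟨s₀, hs₀, hP⟩ := hCD F S C hCconj (1 / 16) (by norm_num)
    have key : ∀ s : ℝ, 1 < s → s < min s₀ 2 →
        ((C.ncard : ℝ) / (Nat.card (F ≃ₐ[ℚ] F) : ℝ) - 1 / 8) * Real.log (1 / (s - 1)) ≤ C₀ := by
      intro s hs hs2
      obtain ⟨P, hPmem, hPsum⟩ := hP s hs (lt_of_lt_of_le hs2 (min_le_left _ _))
      have hbad : ∀ p ∈ P, p.Prime ∧ ¬ p ∣ N ∧ ModularFormClass.qCoeff f p ∉ Y := by
        intro p hp
        obtain ⟨hpp, hpS, hall⟩ := hPmem p hp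
        have hpNℓ := hS' p hpp hpS
        refine ⟨hpp, fun hd => hpNℓ (Dvd.dvd.mul_right hd ℓ), ?_⟩
        obtain ⟨A, τ, hA, hτ⟩ := hFrob p hpp
        obtain ⟨a, e, ha, -, htr, -⟩ := htrF p hpp hpNℓ A hA τ hτ
        have hmem : resF F τ ∈ C := hall A hA τ hτ
        simp only [hC, Set.mem_setOf_eq, htr] at hmem
        intro hin
        apply hmem
        rw [hYbar]
        exact mk_mem_redSet 𝔪 (ha ▸ hin)
      have h1 := hY s hs (le_of_lt (lt_of_lt_of_le hs2 (min_le_right _ _))) P hbad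
      have h2 := hPsum.trans h1
      linarith
    have := nonpos_of_mul_log_le (lt_min hs₀ one_lt_two) key
    linarith
  have hG0 : 0 < Nat.card (F ≃ₐ[ℚ] F) := Nat.card_pos
  have hcard : 8 * Nat.card {g : F ≃ₐ[ℚ] F //
      Matrix.trace (ρF g : Matrix (Fin 2) (Fin 2) (Zb ⧸ 𝔪)) ∉ Ybar} ≤ Nat.card (F ≃ₐ[ℚ] F) := by
    have h1 : Nat.card {g : F ≃ₐ[ℚ] F //
        Matrix.trace (ρF g : Matrix (Fin 2) (Fin 2) (Zb ⧸ 𝔪)) ∉ Ybar} = C.ncard := by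
      rw [hC, ← _root_.Nat.card_coe_set_eq]
      rfl
    rw [h1]
    have hG0' : (0 : ℝ) < (Nat.card (F ≃ₐ[ℚ] F) : ℝ) := by exact_mod_cast hG0
    rw [div_le_iff₀ hG0'] at hprop
    have : (8 * C.ncard : ℝ) ≤ (Nat.card (F ≃ₐ[ℚ] F) : ℝ) := by linarith
    exact_mod_cast this
  rcases hcase with hspan | hdiag
  · -- absolutely irreducible case
    have hspanF : Submodule.span (Zb ⧸ 𝔪)
        (Set.range fun g : F ≃ₐ[ℚ] F => (ρF g : Matrix (Fin 2) (Fin 2) (Zb ⧸ 𝔪))) = ⊤ := by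
      have : (Set.range fun g : F ≃ₐ[ℚ] F => (ρF g : Matrix (Fin 2) (Fin 2) (Zb ⧸ 𝔪))) =
          Set.range fun σ : GalQ => (ρ' σ : Matrix (Fin 2) (Fin 2) (Zb ⧸ 𝔪)) := by
        ext M
        constructor
        · rintro ⟨g, rfl⟩
          obtain ⟨σ, rfl⟩ := resF_surjective F g
          exact ⟨σ, by simp only [hρF]⟩
        · rintro ⟨σ, rfl⟩
          exact ⟨resF F σ, by simp only [hρF]⟩
      rw [this]
      exact hspan
    have h1 := hTS (Zb ⧸ 𝔪) (F ≃ₐ[ℚ] F) ρF Ybar hspanF hcard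
    refine h1.trans (le_trans ?_ (le_max_left _ _))
    have := card_redSet_le 𝔪 Y
    gcongr
  · -- diagonal case
    set Ebar : Finset (Zb ⧸ 𝔪) := redSet 𝔪 (charValues ε) with hEbar
    have hdiagF : ∀ g : F ≃ₐ[ℚ] F, (ρF g : Matrix (Fin 2) (Fin 2) (Zb ⧸ 𝔪)) 0 1 = 0 ∧
        (ρF g : Matrix (Fin 2) (Fin 2) (Zb ⧸ 𝔪)) 1 0 = 0 := by
      intro g
      obtain ⟨σ, rfl⟩ := resF_surjective F g
      rw [hρF]
      exact hdiag σ
    have hdetF : ∀ g : F ≃ₐ[ℚ] F,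
        Matrix.det (ρF g : Matrix (Fin 2) (Fin 2) (Zb ⧸ 𝔪)) ∈ Ebar := by
      intro g
      obtain ⟨σ, rfl⟩ := resF_surjective F g
      obtain ⟨p, A, τ, m, hp, hpS, hA, hτ, hagree⟩ := hWC F S σ
      have hres : resF F σ = resF F τ ^ m := by
        rw [← map_pow]
        exact resF_eq_of_agree F fun x hx => (hagree x hx).symm
      obtain ⟨a, e, -, he, -, hdet⟩ := htrF p hp (hS' p hp hpS) A hA τ hτ
      rw [hres, map_pow, Units.val_pow_eq_pow_val, Matrix.det_pow, hdet, ← map_pow]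
      rw [hEbar]
      apply mk_mem_redSet
      have : ((e ^ m : Zb) : ℂ) = ε (((p : ZMod N)) ^ m) := by
        rw [map_pow, ← he]
        rfl
      rw [this]
      exact mem_charValues ε _
    have h1 := hTD (Zb ⧸ 𝔪) (F ≃ₐ[ℚ] F) ρF Ybar Ebar hdiagF hdetF hcard
    refine h1.trans (le_trans ?_ (le_max_right _ _))
    have h2 := card_redSet_le 𝔪 Y
    have h3 : Ebar.card ≤ N := (card_redSet_le 𝔪 (charValues ε)).trans (card_charValues_le ε)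
    exact Nat.mul_le_mul (Nat.mul_le_mul_left 4 h2) h3

end Bound

end Fermat.Agent.S48
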