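import Mathlib

/-!
# S48, pieces R2 + R3: from the mean-square bound to the prime sum bound

Let `a : ℕ → ℂ` satisfy `a 1 = 1` and the Hecke relations
`a (p n) + ε p [p ∣ n] a (n / p) = a p a n` at the primes `p ∤ N`, with `‖ε p‖ = 1`, and suppose
`∑_{n ≤ X} ‖a n‖² ≤ C X`.  Then `∑_{p ∈ P} ‖a p‖² p^{-s} ≤ log (1 / (s - 1)) + C'` for
`1 < s ≤ 2` and every finite set `P` of primes not dividing `N` (`prime_sum_le`).

No analytic continuation is used: only positivity of the local Rankin–Selberg factors.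
-/

set_option autoImplicit false

namespace Fermat.Agent.S48

open Finset ComplexConjugate

/-! ### Abel summation as an inequality -/

/-- If the partial sums of `b` are at most `C k` and `w` is antitone and nonnegative, then
`∑ b i w i ≤ C ∑ w i`. -/
theorem sum_mul_le_of_partial_sums_le (b w : ℕ → ℝ) (C : ℝ) (hw : Antitone w)
    (hw0 : ∀ n, 0 ≤ w n) (hB : ∀ k, ∑ i ∈ range k, b i ≤ C * k) (M : ℕ) :
    ∑ i ∈ range M, b i * w i ≤ C * ∑ i ∈ range M, w i := by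
  have key : ∀ M, (C * M - ∑ i ∈ range M, b i) * w M ≤ ∑ i ∈ range M, (C - b i) * w i := by
    intro M
    induction M with
    | zero => simp
    | succ M ih =>
      rw [sum_range_succ, sum_range_succ]
      have h1 : 0 ≤ C * ((M + 1 : ℕ) : ℝ) - (∑ i ∈ range M, b i + b M) := by
        have := hB (M + 1)
        rw [sum_range_succ] at this
        linarith
      have h2 : w (M + 1) ≤ w M := hw (Nat.le_succ M)
      have h3 : (C * ((M + 1 : ℕ) : ℝ) - (∑ i ∈ range M, b i + b M)) * w (M + 1) ≤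
          (C * ((M + 1 : ℕ) : ℝ) - (∑ i ∈ range M, b i + b M)) * w M :=
        mul_le_mul_of_nonneg_left h2 h1
      push_cast at h3 ⊢
      nlinarith [ih]
  have h0 : 0 ≤ (C * M - ∑ i ∈ range M, b i) * w M :=
    mul_nonneg (by have := hB M; linarith) (hw0 M)
  have h1 := key M
  have h2 : ∑ i ∈ range M, (C - b i) * w i =
      C * ∑ i ∈ range M, w i - ∑ i ∈ range M, b i * w i := by
    rw [mul_sum, ← sum_sub_distrib]
    exact sum_congr rfl fun i _ => by ring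
  linarith

theorem sum_rpow_neg_le (s : ℝ) (hs : 1 < s) (M : ℕ) :
    ∑ i ∈ range M, ((i : ℝ) + 1) ^ (-s) ≤ 1 + 1 / (s - 1) := by
  have hpos : 0 < 1 / (s - 1) := by
    have : 0 < s - 1 := by linarith
    positivity
  rcases Nat.eq_zero_or_pos M with rfl | hM
  · simp only [range_zero, sum_empty]
    linarith
  obtain ⟨a, rfl⟩ : ∃ a, M = a + 1 := ⟨M - 1, by omega⟩
  rw [sum_range_succ']
  have h1 : ((0 : ℕ) : ℝ) + 1 = 1 := by simp
  rw [h1, Real.one_rpow]
  have hanti : AntitoneOn (fun x : ℝ => x ^ (-s)) (Set.Icc (1 : ℝ) (1 + (a : ℝ))) := by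
    intro x hx y hy hxy
    have hx0 : (0 : ℝ) < x := by linarith [hx.1]
    exact Real.rpow_le_rpow_of_nonpos hx0 hxy (by linarith)
  have h2 := hanti.sum_le_integral
  have ha0 : (0 : ℝ) ≤ a := Nat.cast_nonneg a
  have h3 : ∫ x in (1 : ℝ)..(1 + (a : ℝ)), x ^ (-s) =
      ((1 + (a : ℝ)) ^ (-s + 1) - 1 ^ (-s + 1)) / (-s + 1) := by
    rw [integral_rpow]
    right
    refine ⟨by linarith, ?_⟩
    rw [Set.uIcc_of_le (by linarith)]
    intro h
    have := h.1
    linarith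
  rw [h3, Real.one_rpow] at h2
  have h4 : 0 ≤ (1 + (a : ℝ)) ^ (-s + 1) := Real.rpow_nonneg (by linarith) _
  have h5 : ((1 + (a : ℝ)) ^ (-s + 1) - 1) / (-s + 1) ≤ 1 / (s - 1) := by
    have h6 : ((1 + (a : ℝ)) ^ (-s + 1) - 1) / (-s + 1) =
        (1 - (1 + (a : ℝ)) ^ (-s + 1)) / (s - 1) := by
      rw [div_eq_div_iff (by linarith) (by linarith)]
      ring
    rw [h6]
    apply div_le_div_of_nonneg_right _ (by linarith)
    linarith
  have h7 : ∑ i ∈ range a, (((i + 1 : ℕ) : ℝ) + 1) ^ (-s) =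
      ∑ i ∈ range a, (fun x : ℝ => x ^ (-s)) (1 + ((i + 1 : ℕ) : ℝ)) :=
    sum_congr rfl fun i _ => by simp only [add_comm]
  rw [h7]
  linarith

/-- Dirichlet series with mean-bounded nonnegative coefficients: `∑ b n n^{-s} ≤ C (1 + 1/(s-1))`. -/
theorem dirichlet_sum_le (b : ℕ → ℝ) (hb : ∀ n, 0 ≤ b n) (C : ℝ)
    (hC : ∀ X : ℕ, 1 ≤ X → ∑ n ∈ range (X + 1), b n ≤ C * X) (s : ℝ) (hs : 1 < s) :
    Summable (fun n : ℕ => b n * (n : ℝ) ^ (-s)) ∧
      ∑' n : ℕ, b n * (n : ℝ) ^ (-s) ≤ C * (1 + 1 / (s - 1)) := by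
  have hC0 : 0 ≤ C := by
    have := hC 1 le_rfl
    have h2 : 0 ≤ ∑ n ∈ range (1 + 1), b n := sum_nonneg fun i _ => hb i
    simp only [Nat.cast_one, mul_one] at this
    linarith
  set w : ℕ → ℝ := fun i => ((i : ℝ) + 1) ^ (-s) with hw
  have hw0 : ∀ n, 0 ≤ w n := fun n => Real.rpow_nonneg (by positivity) _
  have hwanti : Antitone w := by
    intro m n hmn
    have hm0 : (0 : ℝ) < (m : ℝ) + 1 := by positivity
    have : ((m : ℝ) + 1) ≤ (n : ℝ) + 1 := by
      have : (m : ℝ) ≤ n := Nat.cast_le.mpr hmn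
      linarith
    exact Real.rpow_le_rpow_of_nonpos hm0 this (by linarith)
  have hB : ∀ k, ∑ i ∈ range k, b (i + 1) ≤ C * k := by
    intro k
    rcases Nat.eq_zero_or_pos k with rfl | hk
    · simp
    · have h1 := hC k hk
      rw [sum_range_succ'] at h1
      linarith [hb 0]
  have hpart : ∀ M, ∑ i ∈ range M, b (i + 1) * w i ≤ C * (1 + 1 / (s - 1)) := by
    intro M
    have h1 := sum_mul_le_of_partial_sums_le (fun i => b (i + 1)) w C hwanti hw0 hB M
    have h2 := sum_rpow_neg_le s hs M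
    calc ∑ i ∈ range M, b (i + 1) * w i ≤ C * ∑ i ∈ range M, w i := h1
      _ ≤ C * (1 + 1 / (s - 1)) := mul_le_mul_of_nonneg_left h2 hC0
  have hnn : ∀ i, 0 ≤ b (i + 1) * w i := fun i => mul_nonneg (hb _) (hw0 i)
  have hsum1 : Summable (fun i => b (i + 1) * w i) := summable_of_sum_range_le hnn hpart
  have hle1 : ∑' i, b (i + 1) * w i ≤ C * (1 + 1 / (s - 1)) :=
    Real.tsum_le_of_sum_range_le hnn hpart
  have hshift : ∀ i : ℕ, b (i + 1) * w i = (fun n : ℕ => b n * (n : ℝ) ^ (-s)) (i + 1) := by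
    intro i
    simp only [hw, Nat.cast_add, Nat.cast_one]
  have hsum : Summable (fun n : ℕ => b n * (n : ℝ) ^ (-s)) := by
    rw [← summable_nat_add_iff 1]
    exact hsum1.congr hshift
  refine ⟨hsum, ?_⟩
  rw [hsum.tsum_eq_zero_add]
  have h0 : b 0 * ((0 : ℕ) : ℝ) ^ (-s) = 0 := by
    rw [Nat.cast_zero, Real.zero_rpow (by linarith), mul_zero]
  rw [h0, zero_add]
  calc ∑' n : ℕ, b (n + 1) * ((n + 1 : ℕ) : ℝ) ^ (-s) = ∑' i, b (i + 1) * w i :=
        tsum_congr fun i => (hshift i).symm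
    _ ≤ _ := hle1

/-! ### Multiplicativity from the Hecke relations -/

/-- the Hecke relations at the primes not dividing `N`, for a sequence `a` and a "character" `ε` -/
def HeckeRel (a : ℕ → ℂ) (N : ℕ) (ε : ℕ → ℂ) : Prop :=
  ∀ p : ℕ, p.Prime → ¬ p ∣ N → ∀ n : ℕ,
    a (p * n) + ε p * (if p ∣ n then a (n / p) else 0) = a p * a n

namespace HeckeRel

variable {a : ℕ → ℂ} {N : ℕ} {ε : ℕ → ℂ}

theorem mul_of_not_dvd (h : HeckeRel a N ε) {p : ℕ} (hp : p.Prime) (hpN : ¬ p ∣ N) {m : ℕ}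
    (hm : ¬ p ∣ m) : a (p * m) = a p * a m := by
  have := h p hp hpN m
  rwa [if_neg hm, mul_zero, add_zero] at this

theorem mul_of_dvd (h : HeckeRel a N ε) {p : ℕ} (hp : p.Prime) (hpN : ¬ p ∣ N) (m : ℕ) :
    a (p * (p * m)) = a p * a (p * m) - ε p * a m := by
  have := h p hp hpN (p * m)
  rw [if_pos (dvd_mul_right p m), Nat.mul_div_cancel_left m hp.pos] at this
  rw [← this]
  ring

theorem pow_succ_succ (h : HeckeRel a N ε) {p : ℕ} (hp : p.Prime) (hpN : ¬ p ∣ N) (e : ℕ) :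
    a (p ^ (e + 2)) = a p * a (p ^ (e + 1)) - ε p * a (p ^ e) := by
  have := h.mul_of_dvd hp hpN (p ^ e)
  have e1 : p * (p * p ^ e) = p ^ (e + 2) := by ring
  have e2 : p * p ^ e = p ^ (e + 1) := by ring
  rwa [e1, e2] at this

theorem pow_mul (h : HeckeRel a N ε) (h1 : a 1 = 1) {p : ℕ} (hp : p.Prime) (hpN : ¬ p ∣ N)
    {m : ℕ} (hm : ¬ p ∣ m) : ∀ e : ℕ, a (p ^ e * m) = a (p ^ e) * a m := by
  have key : ∀ e : ℕ, a (p ^ e * m) = a (p ^ e) * a m ∧
      a (p ^ (e + 1) * m) = a (p ^ (e + 1)) * a m := by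
    intro e
    induction e with
    | zero =>
      refine ⟨by simp [h1], ?_⟩
      simpa using h.mul_of_not_dvd hp hpN hm
    | succ e ih =>
      refine ⟨ih.2, ?_⟩
      have h2 := h.mul_of_dvd hp hpN (p ^ e * m)
      have e1 : p * (p * (p ^ e * m)) = p ^ (e + 1 + 1) * m := by ring
      have e2 : p * (p ^ e * m) = p ^ (e + 1) * m := by ring
      rw [e1, e2, ih.1, ih.2] at h2
      rw [h2, h.pow_succ_succ hp hpN e]
      ring
  exact fun e => (key e).1

theorem mul_of_coprime (h : HeckeRel a N ε) (h1 : a 1 = 1) :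
    ∀ m : ℕ, Nat.Coprime m N → ∀ n : ℕ, Nat.Coprime m n → a (m * n) = a m * a n := by
  intro m
  induction m using Nat.recOnPrimeCoprime with
  | zero =>
    intro _ n hn
    have : n = 1 := by simpa using hn
    subst this
    simp [h1]
  | prime_pow p e hp =>
    intro hN n hn
    rcases Nat.eq_zero_or_pos e with rfl | he
    · simp [h1]
    have hpN : ¬ p ∣ N := by
      intro hd
      have h2 : p ∣ Nat.gcd (p ^ e) N := Nat.dvd_gcd (dvd_pow_self p he.ne') hd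
      rw [Nat.Coprime] at hN
      rw [hN] at h2
      exact hp.one_lt.ne' (Nat.dvd_one.mp h2)
    have hpn : ¬ p ∣ n := by
      intro hd
      have h2 : p ∣ Nat.gcd (p ^ e) n := Nat.dvd_gcd (dvd_pow_self p he.ne') hd
      rw [Nat.Coprime] at hn
      rw [hn] at h2
      exact hp.one_lt.ne' (Nat.dvd_one.mp h2)
    exact h.pow_mul h1 hp hpN hpn e
  | coprime m₁ m₂ _ _ hcop ih₁ ih₂ =>
    intro hN n hn
    have hN₁ : Nat.Coprime m₁ N := Nat.Coprime.coprime_mul_right hN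
    have hN₂ : Nat.Coprime m₂ N := Nat.Coprime.coprime_mul_left hN
    have hn₁ : Nat.Coprime m₁ n := Nat.Coprime.coprime_mul_right hn
    have hn₂ : Nat.Coprime m₂ n := Nat.Coprime.coprime_mul_left hn
    rw [mul_assoc, ih₁ hN₁ (m₂ * n) (Nat.Coprime.mul_right hcop hn₁), ih₂ hN₂ n hn₂,
      ih₁ hN₁ m₂ hcop]
    ring

end HeckeRel

/-! ### The local Rankin factor -/

theorem mul_conj_eq_one_of_norm_eq_one {e : ℂ} (he : ‖e‖ = 1) : e * conj e = 1 := by
  rw [Complex.mul_conj, Complex.normSq_eq_norm_sq, he]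
  simp

/-- the coefficient of `T²` in the quartic denominator of the local Rankin factor, minus `2` -/
noncomputable def rankinMid (x e : ℂ) : ℝ := 2 * (conj e * x ^ 2).re - 2

theorem rankinMid_cast (x e : ℂ) :
    ((rankinMid x e : ℝ) : ℂ) = conj e * x ^ 2 + e * conj x ^ 2 - 2 := by
  have h := Complex.add_conj (conj e * x ^ 2)
  simp only [map_mul, map_pow, Complex.conj_conj] at h
  rw [rankinMid]
  push_cast at h ⊢
  rw [← h]

/-- order four recurrence of `‖u n‖²` for a sequence `u (n+2) = x u (n+1) - e u n`, `‖e‖ = 1` -/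
theorem normSq_rec {x e : ℂ} {u : ℕ → ℂ} (he : ‖e‖ = 1) (hrec : ∀ n, u (n + 2) = x * u (n + 1) - e * u n) (n : ℕ) :
    Complex.normSq (u (n + 4)) - Complex.normSq x * Complex.normSq (u (n + 3)) +
      rankinMid x e * Complex.normSq (u (n + 2)) - Complex.normSq x * Complex.normSq (u (n + 1)) +
      Complex.normSq (u n) = 0 := by
  apply Complex.ofReal_injective
  have he' := mul_conj_eq_one_of_norm_eq_one he
  have h2 := hrec n
  have h3 : u (n + 3) = x * u (n + 2) - e * u (n + 1) := hrec (n + 1)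
  have h4 : u (n + 4) = x * u (n + 3) - e * u (n + 2) := hrec (n + 2)
  push_cast
  rw [rankinMid_cast]
  simp only [Complex.normSq_eq_conj_mul_self]
  rw [h4, h3, h2]
  simp only [map_sub, map_mul]
  linear_combination (3 * u (n + 1) * x * conj (u (n + 1)) * conj x
    - 2 * u (n + 1) * x * conj (u n) * conj e - u n * conj (u n)
    - 2 * u n * e * conj (u (n + 1)) * conj x + u n * e * conj (u n) * conj e) * he'

theorem normSq_init {x e : ℂ} {u : ℕ → ℂ} (he : ‖e‖ = 1) (h0 : u 0 = 1) (h1 : u 1 = x)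
    (hrec : ∀ n, u (n + 2) = x * u (n + 1) - e * u n) :
    Complex.normSq (u 0) = 1 ∧ Complex.normSq (u 1) - Complex.normSq x * Complex.normSq (u 0) = 0 ∧
    Complex.normSq (u 2) - Complex.normSq x * Complex.normSq (u 1)
      + rankinMid x e * Complex.normSq (u 0) = -1 ∧
    Complex.normSq (u 3) - Complex.normSq x * Complex.normSq (u 2)
      + rankinMid x e * Complex.normSq (u 1) - Complex.normSq x * Complex.normSq (u 0) = 0 := by
  have he' := mul_conj_eq_one_of_norm_eq_one he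
  have h2 : u 2 = x * x - e := by rw [hrec 0, h1, h0]; ring
  have h3 : u 3 = x * (x * x - e) - e * x := by rw [hrec 1, h2, h1]
  refine ⟨by rw [h0]; simp, by rw [h0, h1]; simp, ?_, ?_⟩
  · apply Complex.ofReal_injective
    push_cast
    rw [rankinMid_cast]
    simp only [Complex.normSq_eq_conj_mul_self]
    rw [h2, h1, h0]
    simp only [map_sub, map_mul, map_one]
    linear_combination he'
  · apply Complex.ofReal_injective
    push_cast
    rw [rankinMid_cast]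
    simp only [Complex.normSq_eq_conj_mul_self]
    rw [h3, h2, h1, h0]
    simp only [map_sub, map_mul, map_one]
    linear_combination (3 * x * conj x) * he'

/-- generating function of a sequence with a palindromic order four recurrence -/
theorem tsum_mul_quartic (w : ℕ → ℝ) (A c T : ℝ)
    (hrec : ∀ n, w (n + 4) - A * w (n + 3) + c * w (n + 2) - A * w (n + 1) + w n = 0)
    (h0 : w 0 = 1) (h1 : w 1 - A * w 0 = 0) (h2 : w 2 - A * w 1 + c * w 0 = -1)
    (h3 : w 3 - A * w 2 + c * w 1 - A * w 0 = 0)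
    (hs : Summable fun n => w n * T ^ n) :
    (∑' n, w n * T ^ n) * (1 - A * T + c * T ^ 2 - A * T ^ 3 + T ^ 4) = 1 - T ^ 2 := by
  set g : ℕ → ℝ := fun n => w n * T ^ n with hg
  have hs1 : Summable fun n => g (n + 1) := (summable_nat_add_iff 1).mpr hs
  have hs2 : Summable fun n => g (n + 2) := (summable_nat_add_iff 2).mpr hs
  have hs3 : Summable fun n => g (n + 3) := (summable_nat_add_iff 3).mpr hs
  have hs4 : Summable fun n => g (n + 4) := (summable_nat_add_iff 4).mpr hs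
  have e1 := hs.sum_add_tsum_nat_add 1
  have e2 := hs.sum_add_tsum_nat_add 2
  have e3 := hs.sum_add_tsum_nat_add 3
  have e4 := hs.sum_add_tsum_nat_add 4
  simp only [sum_range_succ, range_zero, sum_empty, zero_add] at e1 e2 e3 e4
  have hrecT : ∀ n, g (n + 4) =
      A * T * g (n + 3) - c * T ^ 2 * g (n + 2) + A * T ^ 3 * g (n + 1) - T ^ 4 * g n := by
    intro n
    simp only [hg]
    have := hrec n
    have hw : w (n + 4) = A * w (n + 3) - c * w (n + 2) + A * w (n + 1) - w n := by linarith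
    rw [hw]
    ring
  have e5 : ∑' n, g (n + 4) = A * T * ∑' n, g (n + 3) - c * T ^ 2 * ∑' n, g (n + 2)
      + A * T ^ 3 * ∑' n, g (n + 1) - T ^ 4 * ∑' n, g n := by
    have := (((hs3.hasSum.mul_left (A * T)).sub (hs2.hasSum.mul_left (c * T ^ 2))).add
      (hs1.hasSum.mul_left (A * T ^ 3))).sub (hs.hasSum.mul_left (T ^ 4))
    rw [← this.tsum_eq]
    exact tsum_congr hrecT
  have g0 : g 0 = w 0 := by simp [hg]
  have g1 : g 1 = w 1 * T := by simp [hg]
  have g2 : g 2 = w 2 * T ^ 2 := rfl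
  have g3 : g 3 = w 3 * T ^ 3 := rfl
  rw [g0] at e1 e2 e3 e4
  rw [g1] at e2 e3 e4
  rw [g2] at e3 e4
  rw [g3] at e4
  have hS : ∑' n, w n * T ^ n = ∑' n, g n := rfl
  rw [hS]
  set S := ∑' n, g n
  set S1 := ∑' n, g (n + 1)
  set S2 := ∑' n, g (n + 2)
  set S3 := ∑' n, g (n + 3)
  set S4 := ∑' n, g (n + 4)
  have k1 : S1 = S - w 0 := by linarith
  have k2 : S2 = S - w 0 - w 1 * T := by linarith
  have k3 : S3 = S - w 0 - w 1 * T - w 2 * T ^ 2 := by linarith
  have k4 : S4 = S - w 0 - w 1 * T - w 2 * T ^ 2 - w 3 * T ^ 3 := by linarith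
  rw [k1, k2, k3, k4] at e5
  have w1 : w 1 = A := by rw [h0] at h1; linarith
  have w2 : w 2 = A * A - c - 1 := by rw [h0, w1] at h2; linarith
  have w3 : w 3 = A * (A * A - c - 1) - c * A + A := by rw [h0, w1, w2] at h3; linarith
  rw [h0, w1, w2, w3] at e5
  linear_combination e5

theorem one_sub_le_exp_neg_sub_sq {T : ℝ} (hT0 : 0 ≤ T) (hT1 : T < 1) :
    1 - T ≤ Real.exp (-T - T ^ 2 / 2) := by
  have h := Real.hasSum_pow_div_log_of_abs_lt_one (x := T) (by rw [abs_lt]; constructor <;> linarith)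
  have h2 : ∑ i ∈ range 2, T ^ (i + 1) / ((i : ℝ) + 1) ≤ -Real.log (1 - T) :=
    sum_le_hasSum _ (fun i _ => by positivity) h
  simp only [sum_range_succ, range_zero, sum_empty, zero_add, Nat.cast_zero, Nat.cast_one,
    pow_one, div_one] at h2
  have h3 : Real.log (1 - T) ≤ -T - T ^ 2 / 2 := by
    have : (1 : ℝ) + 1 = 2 := by norm_num
    rw [this] at h2
    linarith
  calc 1 - T = Real.exp (Real.log (1 - T)) := (Real.exp_log (by linarith)).symm
    _ ≤ _ := Real.exp_le_exp.mpr h3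

/-- the quadratic `1 - P T + T²` with `P ≥ 2` is below `exp (-P T - T²)` on `[0, 1)` -/
theorem quad_le_exp {P T : ℝ} (hP : 2 ≤ P) (hT0 : 0 ≤ T) (hT1 : T < 1) :
    1 - P * T + T ^ 2 ≤ Real.exp (-P * T - T ^ 2) := by
  have h1 := one_sub_le_exp_neg_sub_sq hT0 hT1
  have hE : (1 - T) ^ 2 ≤ Real.exp (-2 * T - T ^ 2) := by
    have h2 : Real.exp (-2 * T - T ^ 2) = Real.exp (-T - T ^ 2 / 2) ^ 2 := by
      rw [← Real.exp_nat_mul]
      congr 1
      push_cast
      ring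
    rw [h2]
    exact pow_le_pow_left₀ (by linarith) h1 2
  have hE1 : Real.exp (-2 * T - T ^ 2) ≤ 1 := by
    rw [Real.exp_le_one_iff]
    nlinarith
  have hE0 : 0 < Real.exp (-2 * T - T ^ 2) := Real.exp_pos _
  have h3 : Real.exp (-P * T - T ^ 2) =
      Real.exp (-2 * T - T ^ 2) * Real.exp (-(P - 2) * T) := by
    rw [← Real.exp_add]
    congr 1
    ring
  have h4 : -(P - 2) * T + 1 ≤ Real.exp (-(P - 2) * T) := Real.add_one_le_exp _
  have h5 : 0 ≤ (P - 2) * T := mul_nonneg (by linarith) hT0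
  rw [h3]
  have h6 : Real.exp (-2 * T - T ^ 2) * (-(P - 2) * T + 1) ≤
      Real.exp (-2 * T - T ^ 2) * Real.exp (-(P - 2) * T) :=
    mul_le_mul_of_nonneg_left h4 hE0.le
  nlinarith

/-- positivity of the local Rankin factor, abstract form -/
theorem local_ineq_aux {P Q T S : ℝ} (hP : 2 ≤ P) (hQ : Q ≤ 2) (hT0 : 0 ≤ T) (hT1 : T < 1)
    (hS : 0 < S) (hid : S * ((1 - P * T + T ^ 2) * (1 - Q * T + T ^ 2)) = 1 - T ^ 2) :
    (1 - T ^ 2) * Real.exp ((P + Q) * T) ≤ S := by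
  have hqQ : 0 < 1 - Q * T + T ^ 2 := by nlinarith
  have hT2 : 0 < 1 - T ^ 2 := by nlinarith
  have hqP : 0 < 1 - P * T + T ^ 2 := by
    by_contra hneg
    rw [not_lt] at hneg
    have : S * ((1 - P * T + T ^ 2) * (1 - Q * T + T ^ 2)) ≤ 0 :=
      mul_nonpos_of_nonneg_of_nonpos hS.le (mul_nonpos_of_nonpos_of_nonneg hneg hqQ.le)
    linarith
  have h1 := quad_le_exp hP hT0 hT1
  have h2 : 1 - Q * T + T ^ 2 ≤ Real.exp (-Q * T + T ^ 2) := by
    have := Real.add_one_le_exp (-Q * T + T ^ 2)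
    linarith
  have h3 : (1 - P * T + T ^ 2) * (1 - Q * T + T ^ 2) ≤
      Real.exp (-P * T - T ^ 2) * Real.exp (-Q * T + T ^ 2) :=
    mul_le_mul h1 h2 hqQ.le (Real.exp_pos _).le
  have h4 : Real.exp (-P * T - T ^ 2) * Real.exp (-Q * T + T ^ 2) * Real.exp ((P + Q) * T) = 1 := by
    rw [← Real.exp_add, ← Real.exp_add]
    have : -P * T - T ^ 2 + (-Q * T + T ^ 2) + (P + Q) * T = 0 := by ring
    rw [this, Real.exp_zero]
  have hpos : 0 < (1 - P * T + T ^ 2) * (1 - Q * T + T ^ 2) := mul_pos hqP hqQ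
  have h5 : (1 - T ^ 2) * Real.exp ((P + Q) * T) * ((1 - P * T + T ^ 2) * (1 - Q * T + T ^ 2))
      ≤ S * ((1 - P * T + T ^ 2) * (1 - Q * T + T ^ 2)) := by
    rw [hid]
    have h6 : (1 - P * T + T ^ 2) * (1 - Q * T + T ^ 2) * Real.exp ((P + Q) * T) ≤ 1 :=
      le_of_le_of_eq (mul_le_mul_of_nonneg_right h3 (Real.exp_pos ((P + Q) * T)).le) h4
    calc (1 - T ^ 2) * Real.exp ((P + Q) * T) * ((1 - P * T + T ^ 2) * (1 - Q * T + T ^ 2))
        = (1 - T ^ 2) * ((1 - P * T + T ^ 2) * (1 - Q * T + T ^ 2) * Real.exp ((P + Q) * T)) := by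
          ring
      _ ≤ (1 - T ^ 2) * 1 := mul_le_mul_of_nonneg_left h6 hT2.le
      _ = 1 - T ^ 2 := mul_one _
  exact le_of_mul_le_mul_right h5 hpos

/-- the discriminant identity behind the factorisation of the quartic -/
theorem normSq_sq_sub_norm_sq (x e : ℂ) (he : ‖e‖ = 1) :
    Complex.normSq x ^ 2 - ‖x ^ 2 - 4 * e‖ ^ 2 = 4 * (rankinMid x e - 2) := by
  apply Complex.ofReal_injective
  have he' := mul_conj_eq_one_of_norm_eq_one he
  rw [Complex.sq_norm]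
  push_cast
  rw [rankinMid_cast]
  simp only [Complex.normSq_eq_conj_mul_self]
  simp only [map_sub, map_mul, map_pow, map_ofNat]
  linear_combination (-16 : ℂ) * he'

/-- **Positivity of the local Rankin factor.**  If `u 0 = 1`, `u 1 = x`,
`u (n+2) = x u (n+1) - e u n` with `‖e‖ = 1`, and `∑ ‖u n‖² Tⁿ` converges (`0 ≤ T < 1`), then
`(1 - T²) exp (‖x‖² T) ≤ ∑ ‖u n‖² Tⁿ`. -/
theorem local_factor_ge {x e : ℂ} {u : ℕ → ℂ} (he : ‖e‖ = 1) (h0 : u 0 = 1) (h1 : u 1 = x)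
    (hrec : ∀ n, u (n + 2) = x * u (n + 1) - e * u n) {T : ℝ} (hT0 : 0 ≤ T) (hT1 : T < 1)
    (hs : Summable fun n => Complex.normSq (u n) * T ^ n) :
    (1 - T ^ 2) * Real.exp (Complex.normSq x * T) ≤ ∑' n, Complex.normSq (u n) * T ^ n := by
  set A := Complex.normSq x with hA
  set c := rankinMid x e with hc
  set d := ‖x ^ 2 - 4 * e‖ with hd
  obtain ⟨i0, i1, i2, i3⟩ := normSq_init he h0 h1 hrec
  have hq := tsum_mul_quartic (fun n => Complex.normSq (u n)) A c T (normSq_rec he hrec)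
    i0 i1 i2 i3 hs
  have hdisc : A ^ 2 - d ^ 2 = 4 * (c - 2) := normSq_sq_sub_norm_sq x e he
  have hAn : A = ‖x ^ 2‖ := by
    rw [hA, Complex.normSq_eq_norm_sq, norm_pow]
  have h4 : ‖(4 : ℂ) * e‖ = 4 := by
    rw [norm_mul, he]
    simp
  have hP : 2 ≤ (A + d) / 2 := by
    have := norm_sub_le (x ^ 2) (x ^ 2 - 4 * e)
    rw [sub_sub_cancel, h4] at this
    rw [hAn]
    linarith
  have hQ : (A - d) / 2 ≤ 2 := by
    have := norm_sub_norm_le (x ^ 2) (x ^ 2 - 4 * e)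
    rw [sub_sub_cancel, h4] at this
    rw [hAn]
    linarith
  have hS : 0 < ∑' n, Complex.normSq (u n) * T ^ n := by
    have h5 : Complex.normSq (u 0) * T ^ 0 ≤ ∑' n, Complex.normSq (u n) * T ^ n :=
      hs.le_tsum 0 fun j _ => mul_nonneg (Complex.normSq_nonneg _) (pow_nonneg hT0 _)
    rw [i0] at h5
    simp only [pow_zero, mul_one] at h5
    linarith
  have hid : (∑' n, Complex.normSq (u n) * T ^ n) *
      ((1 - (A + d) / 2 * T + T ^ 2) * (1 - (A - d) / 2 * T + T ^ 2)) = 1 - T ^ 2 := by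
    rw [← hq]
    congr 1
    linear_combination (T ^ 2 / 4) * hdisc
  have := local_ineq_aux hP hQ hT0 hT1 hS hid
  have e1 : (A + d) / 2 + (A - d) / 2 = A := by ring
  rwa [e1] at this

/-! ### The Euler product -/

/-- the coefficients of the Rankin Dirichlet series, restricted to `n` prime to `N` -/
noncomputable def rankinTerm (a : ℕ → ℂ) (N : ℕ) (s : ℝ) (n : ℕ) : ℝ :=
  if Nat.Coprime n N then Complex.normSq (a n) * (n : ℝ) ^ (-s) else 0

section Global

variable {a : ℕ → ℂ} {N : ℕ} {ε : ℕ → ℂ}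

theorem rankinTerm_nonneg (a : ℕ → ℂ) (N : ℕ) (s : ℝ) (n : ℕ) : 0 ≤ rankinTerm a N s n := by
  unfold rankinTerm
  split_ifs
  · exact mul_nonneg (Complex.normSq_nonneg _) (Real.rpow_nonneg (Nat.cast_nonneg n) _)
  · exact le_rfl

theorem rankinTerm_le (a : ℕ → ℂ) (N : ℕ) (s : ℝ) (n : ℕ) :
    rankinTerm a N s n ≤ Complex.normSq (a n) * (n : ℝ) ^ (-s) := by
  unfold rankinTerm
  split_ifs
  · exact le_rfl
  · exact mul_nonneg (Complex.normSq_nonneg _) (Real.rpow_nonneg (Nat.cast_nonneg n) _)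

theorem rankinTerm_one (h1 : a 1 = 1) (s : ℝ) : rankinTerm a N s 1 = 1 := by
  unfold rankinTerm
  rw [if_pos (Nat.coprime_one_left N), h1]
  simp

theorem rankinTerm_mul (h : HeckeRel a N ε) (h1 : a 1 = 1) (s : ℝ) {m n : ℕ}
    (hmn : Nat.Coprime m n) :
    rankinTerm a N s (m * n) = rankinTerm a N s m * rankinTerm a N s n := by
  unfold rankinTerm
  by_cases hm : Nat.Coprime m N
  · by_cases hn : Nat.Coprime n N
    · rw [if_pos hm, if_pos hn, if_pos (Nat.Coprime.mul_left hm hn), h.mul_of_coprime h1 m hm n hmn,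
        map_mul, Nat.cast_mul, Real.mul_rpow (Nat.cast_nonneg m) (Nat.cast_nonneg n)]
      ring
    · rw [if_neg hn, mul_zero, if_neg]
      exact fun hc => hn (Nat.Coprime.coprime_mul_left hc)
  · rw [if_neg hm, zero_mul, if_neg]
    exact fun hc => hm (Nat.Coprime.coprime_mul_right hc)

theorem rankinTerm_summable (C : ℝ)
    (hC : ∀ X : ℕ, 1 ≤ X → ∑ n ∈ range (X + 1), Complex.normSq (a n) ≤ C * X) {s : ℝ}
    (hs : 1 < s) :
    Summable (rankinTerm a N s) ∧ ∑' n, rankinTerm a N s n ≤ C * (1 + 1 / (s - 1)) := by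
  obtain ⟨h1, h2⟩ := dirichlet_sum_le (fun n => Complex.normSq (a n))
    (fun n => Complex.normSq_nonneg _) C hC s hs
  have h3 : Summable (rankinTerm a N s) :=
    Summable.of_nonneg_of_le (rankinTerm_nonneg a N s) (rankinTerm_le a N s) h1
  exact ⟨h3, (h3.tsum_le_tsum (rankinTerm_le a N s) h1).trans h2⟩

theorem rankinTerm_prime_pow {p : ℕ} (hp : p.Prime) (hpN : ¬ p ∣ N) (s : ℝ) (e : ℕ) :
    rankinTerm a N s (p ^ e) = Complex.normSq (a (p ^ e)) * ((p : ℝ) ^ (-s)) ^ e := by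
  unfold rankinTerm
  rw [if_pos (Nat.Coprime.pow_left e ((Nat.Prime.coprime_iff_not_dvd hp).mpr hpN))]
  congr 1
  rw [Nat.cast_pow, ← Real.rpow_natCast, ← Real.rpow_natCast, ← Real.rpow_mul (Nat.cast_nonneg p),
    ← Real.rpow_mul (Nat.cast_nonneg p), mul_comm]

theorem prime_rpow_neg_lt_one {p : ℕ} (hp : p.Prime) {s : ℝ} (hs : 1 < s) :
    0 ≤ (p : ℝ) ^ (-s) ∧ (p : ℝ) ^ (-s) < 1 ∧ ((p : ℝ) ^ (-s)) ^ 2 ≤ 1 / (p : ℝ) ^ 2 := by
  have hp1 : (1 : ℝ) < p := by exact_mod_cast hp.one_lt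
  have h0 : 0 ≤ (p : ℝ) ^ (-s) := Real.rpow_nonneg (by linarith) _
  have h1 : (p : ℝ) ^ (-s) < 1 := Real.rpow_lt_one_of_one_lt_of_neg hp1 (by linarith)
  have h2 : (p : ℝ) ^ (-s) ≤ (p : ℝ) ^ (-1 : ℝ) :=
    Real.rpow_le_rpow_of_exponent_le hp1.le (by linarith)
  refine ⟨h0, h1, ?_⟩
  rw [Real.rpow_neg_one] at h2
  calc ((p : ℝ) ^ (-s)) ^ 2 ≤ ((p : ℝ)⁻¹) ^ 2 := pow_le_pow_left₀ h0 h2 2
    _ = 1 / (p : ℝ) ^ 2 := by rw [inv_pow, one_div]

/-- the finite Euler product of the local lower bounds is bounded by the Rankin Dirichlet series -/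
theorem prod_local_le (h : HeckeRel a N ε) (h1 : a 1 = 1)
    (hε : ∀ p : ℕ, p.Prime → ¬ p ∣ N → ‖ε p‖ = 1) (C : ℝ)
    (hC : ∀ X : ℕ, 1 ≤ X → ∑ n ∈ range (X + 1), Complex.normSq (a n) ≤ C * X) {s : ℝ}
    (hs : 1 < s) (P : Finset ℕ) (hP : ∀ p ∈ P, p.Prime ∧ ¬ p ∣ N) :
    ∏ p ∈ P, ((1 - ((p : ℝ) ^ (-s)) ^ 2) * Real.exp (Complex.normSq (a p) * (p : ℝ) ^ (-s))) ≤
      C * (1 + 1 / (s - 1)) := by
  obtain ⟨hsum, hle⟩ := rankinTerm_summable (N := N) C hC hs
  have hsumn : Summable fun n => ‖rankinTerm a N s n‖ := by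
    refine hsum.congr fun n => ?_
    rw [Real.norm_of_nonneg (rankinTerm_nonneg a N s n)]
  have hE := EulerProduct.prod_filter_prime_tsum_eq_tsum_factoredNumbers
    (f := rankinTerm a N s) (rankinTerm_one h1 s) (fun hmn => rankinTerm_mul h h1 s hmn) hsumn P
  rw [Finset.filter_true_of_mem fun p hp => (hP p hp).1] at hE
  have hloc : ∀ p ∈ P, (1 - ((p : ℝ) ^ (-s)) ^ 2) *
      Real.exp (Complex.normSq (a p) * (p : ℝ) ^ (-s)) ≤ ∑' e : ℕ, rankinTerm a N s (p ^ e) := by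
    intro p hp
    obtain ⟨hpp, hpN⟩ := hP p hp
    obtain ⟨t0, t1, -⟩ := prime_rpow_neg_lt_one hpp hs
    have hs' : Summable fun e : ℕ => rankinTerm a N s (p ^ e) :=
      hsum.comp_injective (Nat.pow_right_injective hpp.two_le)
    simp only [rankinTerm_prime_pow hpp hpN] at hs' ⊢
    exact local_factor_ge (u := fun e => a (p ^ e)) (hε p hpp hpN) (by simpa using h1)
      (by simp) (fun n => h.pow_succ_succ hpp hpN n) t0 t1 hs'
  calc ∏ p ∈ P, ((1 - ((p : ℝ) ^ (-s)) ^ 2) * Real.exp (Complex.normSq (a p) * (p : ℝ) ^ (-s)))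
      ≤ ∏ p ∈ P, ∑' e : ℕ, rankinTerm a N s (p ^ e) := by
        refine Finset.prod_le_prod (fun p hp => ?_) hloc
        obtain ⟨t0, t1, -⟩ := prime_rpow_neg_lt_one (hP p hp).1 hs
        exact mul_nonneg (by nlinarith) (Real.exp_pos _).le
    _ = ∑' m : Nat.factoredNumbers P, rankinTerm a N s m := hE
    _ ≤ ∑' n, rankinTerm a N s n :=
        Summable.tsum_subtype_le _ _ (rankinTerm_nonneg a N s) hsum
    _ ≤ _ := hle

theorem exp_neg_two_mul_le {x : ℝ} (hx0 : 0 ≤ x) (hx1 : x ≤ 1 / 2) :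
    Real.exp (-2 * x) ≤ 1 - x := by
  have h1 : 2 * x + 1 ≤ Real.exp (2 * x) := Real.add_one_le_exp _
  have h2 : Real.exp (-2 * x) * Real.exp (2 * x) = 1 := by
    rw [← Real.exp_add]
    simp
  have h3 : 0 < Real.exp (-2 * x) := Real.exp_pos _
  have h4 : Real.exp (-2 * x) * (2 * x + 1) ≤ 1 :=
    le_of_le_of_eq (mul_le_mul_of_nonneg_left h1 h3.le) h2
  -- (1 - x) (1 + 2x) ≥ 1
  have h5 : 1 ≤ (1 - x) * (2 * x + 1) := by nlinarith
  have h6 : Real.exp (-2 * x) * (2 * x + 1) ≤ (1 - x) * (2 * x + 1) := h4.trans h5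
  exact le_of_mul_le_mul_right h6 (by linarith)

/-- **R3.** The prime sum bound `∑_{p ∈ P} ‖a p‖² p^{-s} ≤ log (1 / (s - 1)) + C'`. -/
theorem prime_sum_le (h : HeckeRel a N ε) (h1 : a 1 = 1)
    (hε : ∀ p : ℕ, p.Prime → ¬ p ∣ N → ‖ε p‖ = 1) (C : ℝ)
    (hC : ∀ X : ℕ, 1 ≤ X → ∑ n ∈ range (X + 1), ‖a n‖ ^ 2 ≤ C * X) :
    ∃ C' : ℝ, ∀ s : ℝ, 1 < s → s ≤ 2 → ∀ P : Finset ℕ, (∀ p ∈ P, p.Prime ∧ ¬ p ∣ N) →
      ∑ p ∈ P, ‖a p‖ ^ 2 * (p : ℝ) ^ (-s) ≤ Real.log (1 / (s - 1)) + C' := by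
  have hC' : ∀ X : ℕ, 1 ≤ X → ∑ n ∈ range (X + 1), Complex.normSq (a n) ≤ C * X := by
    intro X hX
    simpa only [Complex.normSq_eq_norm_sq] using hC X hX
  have hCpos : 1 ≤ C := by
    have := hC 1 le_rfl
    rw [sum_range_succ, sum_range_succ, range_zero, sum_empty, h1] at this
    simp only [norm_one, one_pow, Nat.cast_one, mul_one, zero_add] at this
    have h0 : 0 ≤ ‖a 0‖ ^ 2 := by positivity
    linarith
  have hZs : Summable fun n : ℕ => 1 / (n : ℝ) ^ 2 := Real.summable_one_div_nat_pow.mpr one_lt_two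
  set Z : ℝ := ∑' n : ℕ, 1 / (n : ℝ) ^ 2 with hZ
  refine ⟨Real.log (2 * C) + 2 * Z, fun s hs hs2 P hP => ?_⟩
  have hmain := prod_local_le h h1 hε C hC' hs P hP
  rw [Finset.prod_mul_distrib, ← Real.exp_sum] at hmain
  -- lower bound for the product of the `1 - T²`
  have hZP : ∑ p ∈ P, ((p : ℝ) ^ (-s)) ^ 2 ≤ Z := by
    calc ∑ p ∈ P, ((p : ℝ) ^ (-s)) ^ 2 ≤ ∑ p ∈ P, 1 / (p : ℝ) ^ 2 :=
          Finset.sum_le_sum fun p hp => (prime_rpow_neg_lt_one (hP p hp).1 hs).2.2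
      _ ≤ Z := hZs.sum_le_tsum P fun n _ => by positivity
  have hprod : Real.exp (-2 * Z) ≤ ∏ p ∈ P, (1 - ((p : ℝ) ^ (-s)) ^ 2) := by
    calc Real.exp (-2 * Z) ≤ Real.exp (∑ p ∈ P, -2 * ((p : ℝ) ^ (-s)) ^ 2) := by
          apply Real.exp_le_exp.mpr
          rw [← Finset.mul_sum]
          linarith
      _ = ∏ p ∈ P, Real.exp (-2 * ((p : ℝ) ^ (-s)) ^ 2) := Real.exp_sum _ _
      _ ≤ ∏ p ∈ P, (1 - ((p : ℝ) ^ (-s)) ^ 2) := by
          refine Finset.prod_le_prod (fun p _ => (Real.exp_pos _).le) fun p hp => ?_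
          obtain ⟨t0, t1, t2⟩ := prime_rpow_neg_lt_one (hP p hp).1 hs
          apply exp_neg_two_mul_le (by positivity)
          have hp2 : (2 : ℝ) ≤ p := by exact_mod_cast (hP p hp).1.two_le
          have : 1 / (p : ℝ) ^ 2 ≤ 1 / 2 := by
            apply one_div_le_one_div_of_le (by norm_num)
            nlinarith
          linarith
  set SP := ∑ p ∈ P, Complex.normSq (a p) * (p : ℝ) ^ (-s) with hSP
  have hs1 : 0 < s - 1 := by linarith
  have h2 : Real.exp (-2 * Z) * Real.exp SP ≤ C * (1 + 1 / (s - 1)) :=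
    (mul_le_mul_of_nonneg_right hprod (Real.exp_pos _).le).trans hmain
  have h3 : C * (1 + 1 / (s - 1)) ≤ 2 * C * (1 / (s - 1)) := by
    have : 1 + 1 / (s - 1) ≤ 2 * (1 / (s - 1)) := by
      have : 1 ≤ 1 / (s - 1) := by
        rw [le_div_iff₀ hs1]
        linarith
      linarith
    nlinarith
  have h4 : Real.exp (-2 * Z + SP) ≤ 2 * C * (1 / (s - 1)) := by
    rw [Real.exp_add]
    exact h2.trans h3
  have h5 : -2 * Z + SP ≤ Real.log (2 * C * (1 / (s - 1))) := by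
    rw [Real.le_log_iff_exp_le (by positivity)]
    exact h4
  rw [Real.log_mul (by positivity) (by positivity)] at h5
  have h6 : ∑ p ∈ P, ‖a p‖ ^ 2 * (p : ℝ) ^ (-s) = SP := by
    rw [hSP]
    exact Finset.sum_congr rfl fun p _ => by rw [Complex.normSq_eq_norm_sq]
  rw [h6]
  linarith

end Global

end Fermat.Agent.S48
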