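import Mathlib
import Fermat.Prelude.Def_FLTPrelim_Modularity
import Fermat.Agent.S48.Parseval
import Fermat.Agent.S48.Euler

/-!
# S48, piece R3 instantiated: the prime sum bound for the form of the statement

For `f : CuspForm (Gamma1 N) 1` with `a_1 = 1` and the Hecke relations of S48 at the primes
`p ∤ N` (character `ε`):
`∑_{p ∈ P} ‖a_p‖² p^{-s} ≤ log (1 / (s - 1)) + C'` for `1 < s ≤ 2`, uniformly in the finite set `P`
of primes not dividing `N` (`qCoeff_prime_sum_le`).  Also: multiplicativity of the coefficients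
prime to `N` (`qCoeff_mul_of_coprime`) and the recurrence at prime powers.
-/

set_option autoImplicit false

open CongruenceSubgroup
open scoped MatrixGroups

namespace Fermat.Agent.S48

theorem T_mem_Gamma1 (N : ℕ) : ModularGroup.T ∈ Gamma1 N := by
  rw [Gamma1_mem]
  simp [ModularGroup.T]

theorem one_mem_strictPeriods_Gamma1 (N : ℕ) :
    (1 : ℝ) ∈ ((Gamma1 N : Subgroup SL(2, ℤ)) : Subgroup (GL (Fin 2) ℝ)).strictPeriods := by
  rw [Subgroup.strictPeriods_eq_zmultiples_one_of_T_mem (T_mem_Gamma1 N)]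
  exact AddSubgroup.mem_zmultiples 1

section Statement

variable (N : ℕ) [NeZero N] (ε : DirichletCharacter ℂ N) (f : CuspForm (Gamma1 N) 1)

/-- the hypothesis `hT` of S48 is `HeckeRel` for the `q`-coefficients -/
theorem heckeRel_of_hT
    (hT : ∀ p : ℕ, p.Prime → ¬ p ∣ N → ∀ n : ℕ,
        ModularFormClass.qCoeff f (p * n) +
            ε (p : ZMod N) * (if p ∣ n then ModularFormClass.qCoeff f (n / p) else 0) =
          ModularFormClass.qCoeff f p * ModularFormClass.qCoeff f n) :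
    HeckeRel (fun n => ModularFormClass.qCoeff f n) N (fun p => ε (p : ZMod N)) :=
  fun p hp hpN n => hT p hp hpN n

theorem norm_char_prime (p : ℕ) (hp : p.Prime) (hpN : ¬ p ∣ N) : ‖ε (p : ZMod N)‖ = 1 := by
  have hcop : Nat.Coprime p N := (Nat.Prime.coprime_iff_not_dvd hp).mpr hpN
  have hu : IsUnit ((p : ℕ) : ZMod N) := (ZMod.isUnit_iff_coprime p N).mpr hcop
  obtain ⟨u, hu'⟩ := hu
  rw [← hu']
  exact DirichletCharacter.unit_norm_eq_one ε u

/-- mean square bound for the `q`-coefficients (piece R1) -/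
theorem qCoeff_sum_sq_le :
    ∃ C : ℝ, 0 ≤ C ∧ ∀ X : ℕ, 1 ≤ X →
      ∑ n ∈ Finset.range (X + 1), ‖ModularFormClass.qCoeff f n‖ ^ 2 ≤ C * (X : ℝ) :=
  cuspForm_weight_one_sum_sq_coeff_le f (one_mem_strictPeriods_Gamma1 N)

/-- **R3 for S48.** -/
theorem qCoeff_prime_sum_le
    (hf₁ : ModularFormClass.qCoeff f 1 = 1)
    (hT : ∀ p : ℕ, p.Prime → ¬ p ∣ N → ∀ n : ℕ,
        ModularFormClass.qCoeff f (p * n) +
            ε (p : ZMod N) * (if p ∣ n then ModularFormClass.qCoeff f (n / p) else 0) =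
          ModularFormClass.qCoeff f p * ModularFormClass.qCoeff f n) :
    ∃ C' : ℝ, ∀ s : ℝ, 1 < s → s ≤ 2 → ∀ P : Finset ℕ, (∀ p ∈ P, p.Prime ∧ ¬ p ∣ N) →
      ∑ p ∈ P, ‖ModularFormClass.qCoeff f p‖ ^ 2 * (p : ℝ) ^ (-s) ≤
        Real.log (1 / (s - 1)) + C' := by
  obtain ⟨C, -, hC⟩ := qCoeff_sum_sq_le N f
  exact prime_sum_le (heckeRel_of_hT N ε f hT) hf₁ (norm_char_prime N ε) C hC

/-- multiplicativity of the coefficients prime to the level -/
theorem qCoeff_mul_of_coprime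
    (hf₁ : ModularFormClass.qCoeff f 1 = 1)
    (hT : ∀ p : ℕ, p.Prime → ¬ p ∣ N → ∀ n : ℕ,
        ModularFormClass.qCoeff f (p * n) +
            ε (p : ZMod N) * (if p ∣ n then ModularFormClass.qCoeff f (n / p) else 0) =
          ModularFormClass.qCoeff f p * ModularFormClass.qCoeff f n)
    (m : ℕ) (hm : Nat.Coprime m N) (n : ℕ) (hmn : Nat.Coprime m n) :
    ModularFormClass.qCoeff f (m * n) =
      ModularFormClass.qCoeff f m * ModularFormClass.qCoeff f n :=
  (heckeRel_of_hT N ε f hT).mul_of_coprime hf₁ m hm n hmn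

end Statement

end Fermat.Agent.S48
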