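import Mathlib
import Fermat.Prelude.Thm_ModularForm_sturm_bound_of_isArithmetic
import Fermat.Agent.S48.Plan
import Fermat.Agent.S48.PrimeSum
import Fermat.Agent.S23.Descent

/-!
# S48, piece DENS: outside a set of primes of small density the `a_p` take finitely many values

`stmtDensity_of : StmtSigma → StmtInt → StmtDensity`.

* (A) `S₁(Γ₁(N))` is finite dimensional (prelude Sturm bound) and the `q`-expansion is linear.
* (B) the span `W` of the conjugates `f^σ` is finite dimensional and stable under `Aut ℂ`, so it is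
  spanned by forms with rational coefficients (S23 descent): all `a_n` lie in a finite
  dimensional `ℚ`-space.
* (C) by the Hecke relations the `ℚ`-algebra generated by the `a_p`, `p ∤ N`, is finite
  dimensional; hence there are only finitely many systems `(σ a_p)_p`, `σ : ℂ →+* ℂ` (D).
* `∏_t (X - t p)` over the systems `t` is invariant under `Aut ℂ` and has integral coefficients,
  so it lies in `ℤ[X]`; if all `‖t p‖ ≤ B` its coefficients are bounded, so `a_p` lies in a finite
  set `Y`.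
* (E) if `a_p ∉ Y` some conjugate has `‖σ a_p‖² > B²`; Rankin's bound (R3) for the finitely many
  conjugate forms gives the density bound `D / B²`.
-/

set_option autoImplicit false
set_option linter.style.haveILetI false
set_option linter.unusedSectionVars false

noncomputable section

open CongruenceSubgroup UpperHalfPlane ModularForm Polynomial
open scoped MatrixGroups

namespace Fermat.Agent.S48

/-! ### (A) the `q`-expansion as an injective linear map, finite dimensionality -/

section QLin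

variable {Γ : Subgroup (GL (Fin 2) ℝ)} [Γ.IsArithmetic] [Γ.HasDetOne] {k : ℤ}

/-- the `q`-expansion (period `1`) as a linear map on cusp forms -/
def dens_qLin (hΓ : (1 : ℝ) ∈ Γ.strictPeriods) : CuspForm Γ k →ₗ[ℂ] PowerSeries ℂ where
  toFun f := qExpansion 1 f
  map_add' f g := by
    rw [FunLike.coe_add]
    exact ModularForm.qExpansion_add one_pos hΓ f g
  map_smul' c f := by
    have h1 : (⇑(c • f) : ℍ → ℂ) = c • ⇑f := by
      ext z
      simp
    rw [h1]
    exact ModularForm.qExpansion_smul one_pos hΓ c f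

@[simp] theorem dens_qLin_apply (hΓ : (1 : ℝ) ∈ Γ.strictPeriods) (f : CuspForm Γ k) :
    dens_qLin hΓ f = qExpansion 1 f := rfl

theorem dens_coeff_qLin (hΓ : (1 : ℝ) ∈ Γ.strictPeriods) (f : CuspForm Γ k) (n : ℕ) :
    PowerSeries.coeff n (dens_qLin hΓ f) = ModularFormClass.qCoeff f n := rfl

/-- the Sturm bound index -/
def dens_B (Γ : Subgroup (GL (Fin 2) ℝ)) (k : ℤ) : ℕ := (k * Γ.relIndex 𝒮ℒ).toNat / 12

/-- truncation of the `q`-expansion at the Sturm bound -/
def dens_trunc (hΓ : (1 : ℝ) ∈ Γ.strictPeriods) :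
    CuspForm Γ k →ₗ[ℂ] (Fin (dens_B Γ k + 1) → ℂ) where
  toFun f i := (qExpansion 1 f).coeff i
  map_add' f g := by
    funext i
    have h := (dens_qLin hΓ).map_add f g
    simp only [dens_qLin_apply] at h
    simp only [Pi.add_apply]
    rw [h, map_add]
  map_smul' c f := by
    funext i
    have h := (dens_qLin hΓ).map_smul c f
    simp only [dens_qLin_apply] at h
    simp only [Pi.smul_apply, RingHom.id_apply]
    rw [h, PowerSeries.coeff_smul]

theorem dens_trunc_injective (hΓ : (1 : ℝ) ∈ Γ.strictPeriods) :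
    Function.Injective (dens_trunc hΓ : CuspForm Γ k →ₗ[ℂ] _) := by
  rw [← LinearMap.ker_eq_bot, LinearMap.ker_eq_bot']
  intro f hf
  have hmf : (ModularFormClass.modularForm f : ModularForm Γ k) = 0 := by
    refine ModularForm.sturm_bound_of_isArithmetic hΓ ?_
    refine lt_of_lt_of_le (by exact_mod_cast Nat.lt_succ_self _)
      (PowerSeries.nat_le_order _ (dens_B Γ k + 1) fun n hn ↦ ?_)
    have := congrFun hf ⟨n, hn⟩
    simpa [dens_trunc] using this
  have hcoe : (⇑f : ℍ → ℂ) = 0 := by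
    have := congrArg (fun F : ModularForm Γ k ↦ (⇑F : ℍ → ℂ)) hmf
    simpa using this
  exact DFunLike.coe_injective (hcoe.trans (FunLike.coe_zero (F := CuspForm Γ k)).symm)

theorem dens_finiteDimensional (hΓ : (1 : ℝ) ∈ Γ.strictPeriods) :
    FiniteDimensional ℂ (CuspForm Γ k) :=
  FiniteDimensional.of_injective (dens_trunc hΓ) (dens_trunc_injective hΓ)

end QLin

/-! ### (B) descent: the coefficients lie in a finite dimensional `ℚ`-space -/

/-- a power series all of whose conjugates lie in a finite dimensional space has its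
coefficients in a finitely generated `ℚ`-vector space -/
theorem dens_exists_finset_span (Q : PowerSeries ℂ) (V₀ : Submodule ℂ (PowerSeries ℂ))
    [FiniteDimensional ℂ V₀]
    (h : ∀ σ : ℂ ≃+* ℂ, PowerSeries.map (σ : ℂ →+* ℂ) Q ∈ V₀) :
    ∃ C : Finset ℂ, ∀ n, PowerSeries.coeff n Q ∈ Submodule.span ℚ (C : Set ℂ) := by
  classical
  set W : Submodule ℂ (PowerSeries ℂ) :=
    Submodule.span ℂ (Set.range fun σ : ℂ ≃+* ℂ => PowerSeries.map (σ : ℂ →+* ℂ) Q) with hW
  have hWV : W ≤ V₀ := by
    rw [hW, Submodule.span_le]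
    rintro _ ⟨σ, rfl⟩
    exact h σ
  haveI : FiniteDimensional ℂ W := Submodule.finiteDimensional_of_le hWV
  have hstab : ∀ (τ : ℂ ≃+* ℂ), ∀ F ∈ W, PowerSeries.map (τ : ℂ →+* ℂ) F ∈ W := by
    intro τ F hF
    induction hF using Submodule.span_induction with
    | mem x hx =>
      obtain ⟨σ, rfl⟩ := hx
      refine Submodule.subset_span ⟨σ.trans τ, ?_⟩
      ext n
      simp
    | zero => rw [map_zero]; exact Submodule.zero_mem _
    | add x y _ _ hx hy => rw [map_add]; exact Submodule.add_mem _ hx hy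
    | smul c x _ hx =>
      have : PowerSeries.map (τ : ℂ →+* ℂ) (c • x)
          = (τ c) • PowerSeries.map (τ : ℂ →+* ℂ) x := by
        ext n
        simp
      rw [this]
      exact Submodule.smul_mem _ _ hx
  have hQW : Q ∈ W := by
    refine Submodule.subset_span ⟨RingEquiv.refl ℂ, ?_⟩
    ext n
    simp
  have hdesc := Fermat.Agent.S23.descent_le_span_rational W hstab hQW
  obtain ⟨n, f, g, hfg⟩ := Submodule.mem_span_set'.mp hdesc
  refine ⟨Finset.univ.image f, fun m => ?_⟩
  rw [← hfg, map_sum]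
  refine Submodule.sum_mem _ fun i _ => ?_
  obtain ⟨r, hr⟩ := (g i).2.2 m
  have : PowerSeries.coeff m (f i • ((g i : PowerSeries ℂ))) = r • f i := by
    rw [PowerSeries.coeff_smul, hr, smul_eq_mul, mul_comm]
    simp [Rat.smul_def]
  rw [this]
  refine Submodule.smul_mem _ _ (Submodule.subset_span ?_)
  exact Finset.mem_coe.mpr (Finset.mem_image.mpr ⟨i, Finset.mem_univ _, rfl⟩)

/-! ### (C) the field generated by the `a_p` is finite dimensional -/

/-- Hecke relations force the algebra generated by the good `a_p` to be finite dimensional as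
soon as all the `a_n` lie in a finite dimensional `ℚ`-space -/
theorem dens_adjoin_finite {N : ℕ} [NeZero N] (a : ℕ → ℂ) (ε : ZMod N → ℂ)
    (hε1 : ε 1 = 1) (hεmul : ∀ u v, ε (u * v) = ε u * ε v) (good : ℕ → Prop)
    (hrel : ∀ p, good p → ∀ n,
      a (p * n) + ε (p : ZMod N) * (if p ∣ n then a (n / p) else 0) = a p * a n)
    (ha1 : a 1 = 1) (C : Finset ℂ) (hC : ∀ n, a n ∈ Submodule.span ℚ (C : Set ℂ)) :
    FiniteDimensional ℚ (Algebra.adjoin ℚ {x : ℂ | ∃ p, good p ∧ x = a p}) := by
  classical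
  set M : Submodule ℚ ℂ := Submodule.span ℚ {x : ℂ | ∃ (u : ZMod N) (n : ℕ), x = ε u * a n}
    with hM
  set C' : Finset ℂ := (Finset.univ ×ˢ C).image (fun uc : ZMod N × ℂ => ε uc.1 * uc.2) with hC'
  have hMC : M ≤ Submodule.span ℚ (C' : Set ℂ) := by
    rw [hM, Submodule.span_le]
    rintro _ ⟨u, n, rfl⟩
    have h1 : ∀ y ∈ Submodule.span ℚ (C : Set ℂ), ε u * y ∈ Submodule.span ℚ (C' : Set ℂ) := by
      intro y hy
      induction hy using Submodule.span_induction with
      | mem x hx =>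
        refine Submodule.subset_span ?_
        rw [hC', Finset.mem_coe, Finset.mem_image]
        exact ⟨(u, x), Finset.mem_product.mpr ⟨Finset.mem_univ _, hx⟩, rfl⟩
      | zero => rw [mul_zero]; exact Submodule.zero_mem _
      | add x y _ _ hx hy => rw [mul_add]; exact Submodule.add_mem _ hx hy
      | smul c x _ hx =>
        rw [mul_smul_comm]
        exact Submodule.smul_mem _ _ hx
    exact h1 _ (hC n)
  haveI : FiniteDimensional ℚ (Submodule.span ℚ (C' : Set ℂ)) :=
    FiniteDimensional.span_finset ℚ C'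
  haveI : FiniteDimensional ℚ M := Submodule.finiteDimensional_of_le hMC
  -- `M` is stable under multiplication by the good `a_p`
  have hstab : ∀ p, good p → ∀ m ∈ M, a p * m ∈ M := by
    intro p hp m hm
    induction hm using Submodule.span_induction with
    | mem x hx =>
      obtain ⟨u, n, rfl⟩ := hx
      have h1 := hrel p hp n
      have h2 : a p * (ε u * a n) = ε u * a (p * n)
          + ε (u * (p : ZMod N)) * (if p ∣ n then a (n / p) else 0) := by
        rw [hεmul]
        linear_combination (-(ε u)) * h1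
      rw [h2]
      refine Submodule.add_mem _ (Submodule.subset_span ⟨u, p * n, rfl⟩) ?_
      split_ifs
      · exact Submodule.subset_span ⟨u * (p : ZMod N), n / p, rfl⟩
      · rw [mul_zero]; exact Submodule.zero_mem _
    | zero => rw [mul_zero]; exact Submodule.zero_mem _
    | add x y _ _ hx hy => rw [mul_add]; exact Submodule.add_mem _ hx hy
    | smul c x _ hx =>
      rw [mul_smul_comm]
      exact Submodule.smul_mem _ _ hx
  have h1M : (1 : ℂ) ∈ M := by
    refine Submodule.subset_span ⟨1, 1, ?_⟩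
    rw [hε1, ha1, mul_one]
  have hadj : ∀ x ∈ Algebra.adjoin ℚ {x : ℂ | ∃ p, good p ∧ x = a p}, ∀ m ∈ M, x * m ∈ M := by
    intro x hx
    induction hx using Algebra.adjoin_induction with
    | mem x hx =>
      obtain ⟨p, hp, rfl⟩ := hx
      exact hstab p hp
    | algebraMap r =>
      intro m hm
      rw [← Algebra.smul_def]
      exact Submodule.smul_mem _ _ hm
    | add x y _ _ hx hy =>
      intro m hm
      rw [add_mul]
      exact Submodule.add_mem _ (hx m hm) (hy m hm)
    | mul x y _ _ hx hy =>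
      intro m hm
      rw [mul_assoc]
      exact hx _ (hy m hm)
  have hle : Subalgebra.toSubmodule (Algebra.adjoin ℚ {x : ℂ | ∃ p, good p ∧ x = a p}) ≤ M := by
    intro x hx
    have := hadj x hx 1 h1M
    rwa [mul_one] at this
  exact Submodule.finiteDimensional_of_le hle

/-! ### (D) the conjugate systems -/

/-- the systems `p ↦ σ (a p)` of conjugates of the good coefficients -/
def dens_sys (a : ℕ → ℂ) (good : ℕ → Prop) : Set ({p : ℕ // good p} → ℂ) :=
  Set.range fun σ : ℂ →+* ℂ => fun p : {p : ℕ // good p} => σ (a p)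

theorem dens_sys_finite (a : ℕ → ℂ) (good : ℕ → Prop)
    (hfin : FiniteDimensional ℚ (Algebra.adjoin ℚ {x : ℂ | ∃ p, good p ∧ x = a p})) :
    (dens_sys a good).Finite := by
  haveI := hfin
  set K₀ := Algebra.adjoin ℚ {x : ℂ | ∃ p, good p ∧ x = a p} with hK₀
  let G : (K₀ →ₐ[ℚ] ℂ) → ({p : ℕ // good p} → ℂ) := fun φ p =>
    φ ⟨a p, Algebra.subset_adjoin ⟨p, p.2, rfl⟩⟩
  refine (Set.finite_range G).subset ?_
  rintro _ ⟨σ, rfl⟩
  exact ⟨(σ.toRatAlgHom).comp K₀.val, rfl⟩

/-- a rational number which is an algebraic integer in `ℂ` is an integer -/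
theorem dens_int_of_rat_of_isIntegral {x : ℂ} (hx : IsIntegral ℤ x) (r : ℚ) (hr : x = (r : ℂ)) :
    ∃ z : ℤ, x = (z : ℂ) := by
  have h1 : IsIntegral ℤ (r : ℚ) := by
    have h2 : IsIntegral ℤ (algebraMap ℚ ℂ r) := by
      rw [hr] at hx
      exact hx
    exact (isIntegral_algebraMap_iff (algebraMap ℚ ℂ).injective).mp h2
  obtain ⟨z, hz⟩ := IsIntegrallyClosed.isIntegral_iff.mp h1
  refine ⟨z, ?_⟩
  rw [hr, ← hz]
  simp

/-- the finite set of algebraic integers of degree `≤ D` whose conjugates are bounded by `B` -/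
def dens_Y (D : ℕ) (B : ℝ) : Set ℂ :=
  ⋃ (f : ℤ[X]) (_ : f.natDegree ≤ D ∧
      ∀ i, f.coeff i ∈ Set.Icc (-⌈max B 1 ^ D * D.choose (D / 2)⌉) ⌈max B 1 ^ D * D.choose (D / 2)⌉),
    ((f.map (Int.castRingHom ℂ)).roots.toFinset : Set ℂ)

theorem dens_Y_finite (D : ℕ) (B : ℝ) : (dens_Y D B).Finite := by
  classical
  exact Polynomial.bUnion_roots_finite (Int.castRingHom ℂ) D (Set.finite_Icc _ _)

theorem dens_mem_Y (a : ℕ → ℂ) (good : ℕ → Prop) (hint : ∀ p, good p → IsIntegral ℤ (a p))
    (Sys : Finset ({p : ℕ // good p} → ℂ)) (hSys : (Sys : Set _) = dens_sys a good) (B : ℝ)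
    (p : {p : ℕ // good p}) (hB : ∀ t ∈ Sys, ‖t p‖ ≤ B) : a p ∈ dens_Y Sys.card B := by
  classical
  set P : ℂ[X] := ∏ t ∈ Sys, (X - C (t p)) with hP
  have hmonic : P.Monic := monic_prod_X_sub_C _ _
  have hdeg : P.natDegree = Sys.card := by
    rw [hP, natDegree_prod_of_monic _ _ (fun t _ => monic_X_sub_C (t p))]
    simp
  have hroots : P.roots = Sys.val.map (fun t => t p) := by
    have h1 : Sys.val.map (fun t : {p : ℕ // good p} → ℂ => (X - C (t p) : ℂ[X]))
        = (Sys.val.map (fun t => t p)).map (fun a : ℂ => X - C a) := by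
      rw [Multiset.map_map]
      rfl
    rw [hP, Finset.prod_eq_multiset_prod, h1, roots_multiset_prod_X_sub_C]
  have hsplit : Splits P := Splits.prod fun t _ => Splits.X_sub_C (t p)
  -- `a p` is a root
  have hmemSys : (fun q : {p : ℕ // good p} => a q) ∈ Sys := by
    rw [← Finset.mem_coe, hSys]
    exact ⟨RingHom.id ℂ, rfl⟩
  have hroot : P.IsRoot (a p) := by
    rw [IsRoot.def, hP, eval_prod]
    refine Finset.prod_eq_zero hmemSys ?_
    simp
  -- invariance under automorphisms
  have hinv : ∀ τ : ℂ ≃+* ℂ, P.map (τ : ℂ →+* ℂ) = P := by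
    intro τ
    have hmaps : ∀ t ∈ Sys, (fun q => τ (t q)) ∈ Sys := by
      intro t ht
      rw [← Finset.mem_coe, hSys] at ht ⊢
      obtain ⟨σ, rfl⟩ := ht
      exact ⟨(τ : ℂ →+* ℂ).comp σ, rfl⟩
    have hinj : Set.InjOn (fun (t : {p : ℕ // good p} → ℂ) => fun q => τ (t q)) (Sys : Set _) := by
      intro t _ t' _ h
      funext q
      exact τ.injective (congrFun h q)
    have himg : Sys.image (fun (t : {p : ℕ // good p} → ℂ) => fun q => τ (t q)) = Sys := by
      apply Finset.eq_of_subset_of_card_le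
      · intro t ht
        obtain ⟨t', ht', rfl⟩ := Finset.mem_image.mp ht
        exact hmaps t' ht'
      · rw [Finset.card_image_of_injOn hinj]
    rw [hP, Polynomial.map_prod]
    conv_rhs => rw [← himg]
    rw [Finset.prod_image hinj]
    refine Finset.prod_congr rfl fun t _ => ?_
    simp
  -- integrality of the coefficients
  have hintt : ∀ t ∈ Sys, IsIntegral ℤ (t p) := by
    intro t ht
    rw [← Finset.mem_coe, hSys] at ht
    obtain ⟨σ, rfl⟩ := ht
    exact (hint p p.2).map (σ.toIntAlgHom)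
  have hcoeffint : ∀ i, IsIntegral ℤ (P.coeff i) := by
    intro i
    have h1 : P ∈ Polynomial.lifts (algebraMap (integralClosure ℤ ℂ) ℂ) := by
      rw [hP]
      refine Subsemiring.prod_mem _ fun t ht => ?_
      rw [Polynomial.mem_lifts]
      refine ⟨X - C ⟨t p, hintt t ht⟩, ?_⟩
      simp
    rw [Polynomial.lifts_iff_coeff_lifts] at h1
    obtain ⟨y, hy⟩ := h1 i
    rw [← hy]
    exact y.2
  have hcoeffZ : ∀ i, ∃ z : ℤ, P.coeff i = (z : ℂ) := by
    intro i
    have hfix : ∀ τ : ℂ ≃+* ℂ, τ (P.coeff i) = P.coeff i := by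
      intro τ
      have := congrArg (fun Q : ℂ[X] => Q.coeff i) (hinv τ)
      simpa using this
    obtain ⟨r, hr⟩ := Fermat.Agent.S23.descent_exists_rat_of_fixed _ hfix
    exact dens_int_of_rat_of_isIntegral (hcoeffint i) r hr
  -- lift to `ℤ[X]`
  have hlift : P ∈ Polynomial.lifts (Int.castRingHom ℂ) := by
    rw [Polynomial.lifts_iff_coeff_lifts]
    intro i
    obtain ⟨z, hz⟩ := hcoeffZ i
    exact ⟨z, by rw [hz]; rfl⟩
  obtain ⟨q, hqP, hqdeg⟩ := Polynomial.exists_degree_eq_of_mem_lifts hlift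
  have hqnat : q.natDegree = Sys.card := by
    rw [← hdeg]
    exact natDegree_eq_natDegree hqdeg
  have hbound : ∀ i, ‖P.coeff i‖ ≤ max B 1 ^ Sys.card * Sys.card.choose (Sys.card / 2) := by
    intro i
    have := coeff_bdd_of_roots_le (B := B) (d := Sys.card) (RingHom.id ℂ) hmonic
      (by rw [Polynomial.map_id]; exact hsplit) hdeg.le (by
        intro z hz
        rw [Polynomial.map_id, hroots, Multiset.mem_map] at hz
        obtain ⟨t, ht, rfl⟩ := hz
        exact hB t ht) i
    rwa [Polynomial.map_id] at this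
  simp only [dens_Y, Set.mem_iUnion]
  refine ⟨q, ⟨hqnat.le, fun i => ?_⟩, ?_⟩
  · have h1 : ‖((q.coeff i : ℤ) : ℂ)‖ ≤ max B 1 ^ Sys.card * Sys.card.choose (Sys.card / 2) := by
      have := hbound i
      rw [← hqP, coeff_map] at this
      exact this
    have h2 : |((q.coeff i : ℤ) : ℝ)| ≤ max B 1 ^ Sys.card * Sys.card.choose (Sys.card / 2) := by
      have h3 : ‖((q.coeff i : ℤ) : ℂ)‖ = |((q.coeff i : ℤ) : ℝ)| := by
        rw [← Complex.ofReal_intCast, Complex.norm_real, Real.norm_eq_abs]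
      rw [← h3]
      exact h1
    rw [abs_le] at h2
    rw [Set.mem_Icc]
    constructor
    · have : ((-⌈max B 1 ^ Sys.card * Sys.card.choose (Sys.card / 2)⌉ : ℤ) : ℝ)
          ≤ ((q.coeff i : ℤ) : ℝ) := by
        push_cast
        have := Int.le_ceil (max B 1 ^ Sys.card * (Sys.card.choose (Sys.card / 2) : ℝ))
        linarith [h2.1]
      exact_mod_cast this
    · have : ((q.coeff i : ℤ) : ℝ)
          ≤ ((⌈max B 1 ^ Sys.card * Sys.card.choose (Sys.card / 2)⌉ : ℤ) : ℝ) := by
        have := Int.le_ceil (max B 1 ^ Sys.card * (Sys.card.choose (Sys.card / 2) : ℝ))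
        linarith [h2.2]
      exact_mod_cast this
  · rw [Finset.mem_coe, Multiset.mem_toFinset, hqP, mem_roots hmonic.ne_zero]
    exact hroot


/-! ### (E) the density bound -/

/-- the conjugate of a Hecke eigenform is a Hecke eigenform (for the conjugate character) -/
theorem dens_isHeckeEigen_conj (N : ℕ) [NeZero N] (ε : DirichletCharacter ℂ N)
    (f g : CuspForm (Gamma1 N) 1) (hf : IsHeckeEigen N ε f) (σ : ℂ →+* ℂ)
    (hg : ∀ n : ℕ, ModularFormClass.qCoeff g n = σ (ModularFormClass.qCoeff f n)) :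
    IsHeckeEigen N (ε.ringHomComp σ) g := by
  refine ⟨by rw [hg, hf.1, map_one], fun p hp hpN n => ?_⟩
  have h := congrArg σ (hf.2 p hp hpN n)
  rw [map_add, map_mul, map_mul, apply_ite σ, map_zero] at h
  simp only [hg, MulChar.ringHomComp_apply]
  exact h

/-- **DENS** from SIG and INT. -/
theorem stmtDensity_of (hSig : StmtSigma) (hInt : StmtInt) : StmtDensity := by
  intro N _ ε f hf δ hδ
  classical
  set a : ℕ → ℂ := fun n => ModularFormClass.qCoeff f n with ha
  set good : ℕ → Prop := fun p => p.Prime ∧ ¬ p ∣ N with hgood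
  have hΓ := one_mem_strictPeriods_Gamma1 N
  -- (A), (B): the coefficients lie in a finite dimensional `ℚ`-space
  haveI : FiniteDimensional ℂ (CuspForm (Gamma1 N) 1) := dens_finiteDimensional hΓ
  set V₀ : Submodule ℂ (PowerSeries ℂ) :=
    LinearMap.range (dens_qLin hΓ : CuspForm (Gamma1 N) 1 →ₗ[ℂ] PowerSeries ℂ) with hV₀
  haveI : FiniteDimensional ℂ V₀ := LinearMap.finiteDimensional_range _
  have hconj : ∀ σ : ℂ ≃+* ℂ,
      PowerSeries.map (σ : ℂ →+* ℂ) (dens_qLin hΓ f) ∈ V₀ := by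
    intro σ
    obtain ⟨g, hg⟩ := hSig N ε f hf (σ : ℂ →+* ℂ)
    refine ⟨g, ?_⟩
    ext n
    rw [PowerSeries.coeff_map, dens_coeff_qLin, dens_coeff_qLin, hg]
  obtain ⟨C, hC⟩ := dens_exists_finset_span (dens_qLin hΓ f) V₀ hconj
  -- (C): the algebra generated by the good `a_p` is finite dimensional
  have hK₀ : FiniteDimensional ℚ (Algebra.adjoin ℚ {x : ℂ | ∃ p, good p ∧ x = a p}) :=
    dens_adjoin_finite a (fun u => ε u) (map_one ε) (fun u v => map_mul ε u v) good
      (fun p hp n => hf.2 p hp.1 hp.2 n) hf.1 C (fun n => hC n)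
  -- (D): the systems
  have hSysfin := dens_sys_finite a good hK₀
  set Sys : Finset ({p : ℕ // good p} → ℂ) := hSysfin.toFinset with hSys
  have hSyscoe : (Sys : Set ({p : ℕ // good p} → ℂ)) = dens_sys a good :=
    hSysfin.coe_toFinset
  have hSysne : Sys.Nonempty :=
    ⟨fun q => a q, by rw [← Finset.mem_coe, hSyscoe]; exact ⟨RingHom.id ℂ, rfl⟩⟩
  have hD0 : (0 : ℝ) < (Sys.card : ℝ) := by exact_mod_cast hSysne.card_pos
  -- Rankin for every system
  have hT : ∀ t ∈ Sys, ∃ (σ : ℂ →+* ℂ) (C' : ℝ),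
      (t = fun p : {p : ℕ // good p} => σ (a p)) ∧
      ∀ s : ℝ, 1 < s → s ≤ 2 → ∀ P : Finset ℕ, (∀ p ∈ P, good p) →
        ∑ p ∈ P, ‖σ (a p)‖ ^ 2 * (p : ℝ) ^ (-s) ≤ Real.log (1 / (s - 1)) + C' := by
    intro t ht
    rw [← Finset.mem_coe, hSyscoe] at ht
    obtain ⟨σ, rfl⟩ := ht
    obtain ⟨g, hg⟩ := hSig N ε f hf σ
    have hgE := dens_isHeckeEigen_conj N ε f g hf σ hg
    obtain ⟨C', hC'⟩ := qCoeff_prime_sum_le N (ε.ringHomComp σ) g hgE.1 hgE.2
    refine ⟨σ, C', rfl, fun s hs hs2 P hP => ?_⟩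
    have := hC' s hs hs2 P hP
    simpa only [hg] using this
  choose! σ C' hσt hσR using hT
  set C₁ : ℝ := ∑ t ∈ Sys, |C' t| with hC₁
  have hC₁0 : 0 ≤ C₁ := Finset.sum_nonneg fun t _ => abs_nonneg _
  have hC'le : ∀ t ∈ Sys, C' t ≤ C₁ := fun t ht =>
    (le_abs_self _).trans (Finset.single_le_sum (f := fun t => |C' t|)
      (fun t _ => abs_nonneg _) ht)
  -- the threshold
  set c : ℝ := (Sys.card : ℝ) / δ with hc
  have hc0 : 0 < c := div_pos hD0 hδ
  set B : ℝ := Real.sqrt c with hB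
  have hB0 : 0 ≤ B := Real.sqrt_nonneg c
  have hBsq : B ^ 2 = c := Real.sq_sqrt hc0.le
  refine ⟨(dens_Y_finite Sys.card B).toFinset, δ * C₁, fun s hs hs2 P hP => ?_⟩
  have hL : 0 ≤ Real.log (1 / (s - 1)) := by
    apply Real.log_nonneg
    rw [one_div, one_le_inv₀ (by linarith)]
    linarith
  set L : ℝ := Real.log (1 / (s - 1)) with hLdef
  have hPgood : ∀ p ∈ P, good p := fun p hp => ⟨(hP p hp).1, (hP p hp).2.1⟩
  -- every `p ∈ P` has a big conjugate
  have hbig : ∀ p ∈ P, 1 ≤ ∑ t ∈ Sys, ‖σ t (a p)‖ ^ 2 / c := by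
    intro p hp
    have hgp : good p := hPgood p hp
    have hnotY : a p ∉ dens_Y Sys.card B := by
      have := (hP p hp).2.2
      rwa [Set.Finite.mem_toFinset] at this
    have hex : ∃ t ∈ Sys, B < ‖t ⟨p, hgp⟩‖ := by
      by_contra hcon
      simp only [not_exists, not_and, not_lt] at hcon
      refine hnotY (dens_mem_Y a good (fun q hq => ?_) Sys hSyscoe B ⟨p, hgp⟩ hcon)
      obtain ⟨y, hy⟩ := hInt N ε f hf q hq.1 hq.2
      have : IsIntegral ℤ (y : ℂ) := y.2
      rwa [hy] at this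
    obtain ⟨t, ht, htB⟩ := hex
    have h1 : t ⟨p, hgp⟩ = σ t (a p) := by
      have := congrFun (hσt t ht) ⟨p, hgp⟩
      exact this
    rw [h1] at htB
    have h2 : c ≤ ‖σ t (a p)‖ ^ 2 := by
      rw [← hBsq]
      exact pow_le_pow_left₀ hB0 htB.le 2
    have h3 : 1 ≤ ‖σ t (a p)‖ ^ 2 / c := by
      rw [le_div_iff₀ hc0, one_mul]
      exact h2
    exact h3.trans (Finset.single_le_sum (f := fun t => ‖σ t (a p)‖ ^ 2 / c)
      (fun t _ => div_nonneg (sq_nonneg _) hc0.le) ht)
  have hpow0 : ∀ p : ℕ, 0 ≤ (p : ℝ) ^ (-s) := fun p => Real.rpow_nonneg (Nat.cast_nonneg p) _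
  calc ∑ p ∈ P, (p : ℝ) ^ (-s)
      ≤ ∑ p ∈ P, (∑ t ∈ Sys, ‖σ t (a p)‖ ^ 2 / c) * (p : ℝ) ^ (-s) := by
        refine Finset.sum_le_sum fun p hp => ?_
        exact le_mul_of_one_le_left (hpow0 p) (hbig p hp)
    _ = ∑ t ∈ Sys, (1 / c) * ∑ p ∈ P, ‖σ t (a p)‖ ^ 2 * (p : ℝ) ^ (-s) := by
        simp only [Finset.sum_mul, Finset.mul_sum]
        rw [Finset.sum_comm]
        refine Finset.sum_congr rfl fun t _ => Finset.sum_congr rfl fun p _ => ?_
        ring
    _ ≤ ∑ t ∈ Sys, (1 / c) * (L + C₁) := by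
        refine Finset.sum_le_sum fun t ht => ?_
        refine mul_le_mul_of_nonneg_left ?_ (by positivity)
        exact (hσR t ht s hs hs2 P hPgood).trans (by linarith [hC'le t ht])
    _ = δ * L + δ * C₁ := by
        rw [Finset.sum_const, nsmul_eq_mul, hc]
        field_simp

end Fermat.Agent.S48
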