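import Mathlib

/-!
# S48 (END assembly): `2 × 2` matrices

* `mat2_sq`, `mat2_pow_succ_succ` : Cayley–Hamilton.
* `mat2_trace_pow_congr` : the trace of `M ^ m` depends only on the trace and determinant of `M`.
* `mat2_eq_one_of_pow_eq_one` : finite order, trace `2`, determinant `1` ⇒ `M = 1` (char. zero).
* `mat2_exists_roots_of_pow_eq_one` : trace and determinant of a matrix of finite order are the sum
  and the product of two roots of unity.
-/

set_option autoImplicit false

namespace Fermat.Agent.S48

open Matrix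

section CommRing
variable {R : Type*} [CommRing R]

/-- Cayley–Hamilton for `2 × 2` matrices -/
theorem mat2_sq (M : Matrix (Fin 2) (Fin 2) R) :
    M ^ 2 = M.trace • M - M.det • (1 : Matrix (Fin 2) (Fin 2) R) := by
  ext i j
  fin_cases i <;> fin_cases j <;>
    simp [pow_two, Matrix.mul_apply, Fin.sum_univ_two, Matrix.trace_fin_two,
      Matrix.det_fin_two] <;> ring

theorem mat2_pow_succ_succ (M : Matrix (Fin 2) (Fin 2) R) (m : ℕ) :
    M ^ (m + 2) = M.trace • M ^ (m + 1) - M.det • M ^ m := by
  rw [pow_add, mat2_sq, mul_sub, mul_smul_comm, mul_smul_comm, mul_one, ← pow_succ]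

/-- the trace of a power of a `2 × 2` matrix depends only on trace and determinant -/
theorem mat2_trace_pow_congr {M M' : Matrix (Fin 2) (Fin 2) R} (ht : M.trace = M'.trace)
    (hd : M.det = M'.det) (m : ℕ) : (M ^ m).trace = (M' ^ m).trace := by
  have key : ∀ m : ℕ, (M ^ m).trace = (M' ^ m).trace ∧ (M ^ (m + 1)).trace = (M' ^ (m + 1)).trace := by
    intro m
    induction m with
    | zero => exact ⟨by simp, by simpa using ht⟩
    | succ m ih =>
      refine ⟨ih.2, ?_⟩
      rw [mat2_pow_succ_succ, mat2_pow_succ_succ, Matrix.trace_sub, Matrix.trace_sub,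
        Matrix.trace_smul, Matrix.trace_smul, Matrix.trace_smul, Matrix.trace_smul, ih.1, ih.2,
        ht, hd]
  exact (key m).1

/-- a unipotent `2 × 2` matrix of finite order in characteristic zero is the identity -/
theorem mat2_eq_one_of_pow_eq_one [IsDomain R] [CharZero R] {M : Matrix (Fin 2) (Fin 2) R}
    (ht : M.trace = 2) (hd : M.det = 1) {n : ℕ} (hn : 0 < n) (hM : M ^ n = 1) : M = 1 := by
  have hsq : M ^ 2 = (2 : R) • M - (1 : Matrix (Fin 2) (Fin 2) R) := by
    rw [mat2_sq, ht, hd, one_smul]
  have key : ∀ k : ℕ, M ^ k = (k : R) • M - ((k : R) - 1) • (1 : Matrix (Fin 2) (Fin 2) R) := by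
    intro k
    induction k with
    | zero => simp
    | succ k ih =>
      rw [pow_succ, ih, sub_mul, smul_mul_assoc, smul_mul_assoc, one_mul, ← pow_two, hsq]
      push_cast
      module
  have h1 := key n
  rw [hM] at h1
  have h2 : (n : R) • (M - 1) = 0 := by
    have h4 : (n : R) • M = (1 : Matrix (Fin 2) (Fin 2) R) +
        ((n : R) - 1) • (1 : Matrix (Fin 2) (Fin 2) R) := eq_add_of_sub_eq h1.symm
    rw [smul_sub, h4]
    module
  have hn0 : (n : R) ≠ 0 := Nat.cast_ne_zero.mpr hn.ne'
  have h3 : M - 1 = 0 := by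
    ext i j
    have := congrFun (congrFun h2 i) j
    simp only [Matrix.smul_apply, Matrix.zero_apply, smul_eq_mul] at this
    rcases mul_eq_zero.mp this with h | h
    · exact absurd h hn0
    · simpa using h
  exact sub_eq_zero.mp h3

end CommRing

section Field
variable {K : Type*} [Field K]

theorem mat2_det_smul_one_sub (M : Matrix (Fin 2) (Fin 2) K) (x : K) :
    (x • (1 : Matrix (Fin 2) (Fin 2) K) - M).det = x ^ 2 - M.trace * x + M.det := by
  simp [Matrix.det_fin_two, Matrix.trace_fin_two]
  ring

/-- a root of the characteristic polynomial of a matrix of finite order is a root of unity -/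
theorem mat2_root_pow_eq_one {M : Matrix (Fin 2) (Fin 2) K} {n : ℕ} (hM : M ^ n = 1) {x : K}
    (hx : x ^ 2 - M.trace * x + M.det = 0) : x ^ n = 1 := by
  have hdet : (x • (1 : Matrix (Fin 2) (Fin 2) K) - M).det = 0 := by
    rw [mat2_det_smul_one_sub, hx]
  obtain ⟨v, hv0, hv⟩ := Matrix.exists_mulVec_eq_zero_iff.mpr hdet
  have hMv : M.mulVec v = x • v := by
    rw [Matrix.sub_mulVec, Matrix.smul_mulVec, Matrix.one_mulVec] at hv
    exact (sub_eq_zero.mp hv).symm
  have hpow : ∀ k : ℕ, (M ^ k).mulVec v = x ^ k • v := by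
    intro k
    induction k with
    | zero => simp
    | succ k ih =>
      rw [pow_succ, ← Matrix.mulVec_mulVec, hMv, Matrix.mulVec_smul, ih, smul_smul, pow_succ,
        mul_comm]
  have h1 := hpow n
  rw [hM, Matrix.one_mulVec] at h1
  have h2 : (x ^ n - 1) • v = 0 := by
    rw [sub_smul, one_smul, ← h1, sub_self]
  rcases smul_eq_zero.mp h2 with h | h
  · exact sub_eq_zero.mp h
  · exact absurd h hv0

/-- trace and determinant of a `2 × 2` matrix of finite order over an algebraically closed field
are the sum and the product of two roots of unity -/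
theorem mat2_exists_roots_of_pow_eq_one [IsAlgClosed K] {M : Matrix (Fin 2) (Fin 2) K} {n : ℕ}
    (hM : M ^ n = 1) :
    ∃ x y : K, x ^ n = 1 ∧ y ^ n = 1 ∧ M.trace = x + y ∧ M.det = x * y := by
  obtain ⟨x, hx⟩ : ∃ x : K, x ^ 2 - M.trace * x + M.det = 0 := by
    have hdeg : (Polynomial.X ^ 2 - Polynomial.C M.trace * Polynomial.X +
        Polynomial.C M.det : Polynomial K).degree ≠ 0 := by
      have : (Polynomial.X ^ 2 - Polynomial.C M.trace * Polynomial.X +
        Polynomial.C M.det : Polynomial K).degree = 2 := by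
        compute_degree!
      rw [this]
      norm_num
    obtain ⟨x, hx⟩ := IsAlgClosed.exists_root _ hdeg
    refine ⟨x, ?_⟩
    simpa [Polynomial.IsRoot] using hx
  refine ⟨x, M.trace - x, mat2_root_pow_eq_one hM hx, mat2_root_pow_eq_one hM ?_, by ring, ?_⟩
  · linear_combination hx
  · linear_combination hx

end Field

end Fermat.Agent.S48
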