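import Fermat.Agent.S48.Plan
import Fermat.Agent.S48.PrimeSum
import Fermat.Agent.S48.Bound
import Fermat.Agent.S48.GalFactor
import Fermat.Agent.S48.EndDefs
import Fermat.Agent.S48.TraceBound

/-!
# S48, piece IRR (step 8): the representation attached to `f` is irreducible

`stmtIrred : StmtIrred`.  If `ρ : G_ℚ → GL₂(ℂ)` (of finite level, `tr ρ(Frob_p) = a_p` for
`p ∤ N`) is not irreducible, it has a common eigenvector, so `tr ρ = χ₁ + χ₂` with two characters
of the finite group `G = Gal(F/ℚ)` and `∑_g ‖tr ρ(g)‖² = 2 #G + 2 Re ∑_g χ₁ χ̄₂ ≥ 2 #G`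
(`irred_sum_normSq_trace_ge`).  On the other hand Chebotarev's density theorem applied to the
level sets of `‖tr ρ‖²` and Rankin's bound `∑_p ‖a_p‖² p^{-s} ≤ log (1/(s-1)) + C'`
(`qCoeff_prime_sum_le`) give `∑_g ‖tr ρ(g)‖² ≤ #G` (`irred_mean_le_one`).
-/

set_option autoImplicit false
set_option linter.style.haveILetI false

open CongruenceSubgroup

namespace Fermat.Agent.S48

/-- a two dimensional matrix representation without a common eigenvector is irreducible -/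
theorem irred_isIrreducible_of_no_eigen {k : Type} [Field k] {G : Type} [Group G]
    (ρ : G →* GL (Fin 2) k)
    (h : ¬ ∃ v : Fin 2 → k, v ≠ 0 ∧ ∀ g : G, ∃ c : k,
      (ρ g : Matrix (Fin 2) (Fin 2) k).mulVec v = c • v) :
    (Deformation.matrixRepresentation ρ).IsIrreducible := by
  refine { exists_pair_ne := ⟨⊥, ⊤, ?_⟩, eq_bot_or_eq_top := ?_ }
  · intro hbt
    have h1 : (⊥ : Submodule k (Fin 2 → k)) = ⊤ :=
      congrArg Subrepresentation.toSubmodule hbt
    exact bot_ne_top h1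
  · intro σ
    by_contra hcon
    rw [not_or] at hcon
    obtain ⟨hbot, htop⟩ := hcon
    have hbot' : σ.toSubmodule ≠ ⊥ := fun h0 =>
      hbot (Subrepresentation.toSubmodule_injective h0)
    have htop' : σ.toSubmodule ≠ ⊤ := fun h0 =>
      htop (Subrepresentation.toSubmodule_injective h0)
    have h1 : 0 < Module.finrank k σ.toSubmodule := Module.finrank_pos_iff.mpr
      ((Submodule.nontrivial_iff_ne_bot).mpr hbot')
    have h2 : Module.finrank k σ.toSubmodule < 2 := by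
      have := Submodule.finrank_lt htop'
      rw [Module.finrank_fintype_fun_eq_card, Fintype.card_fin] at this
      exact this
    have h3 : Module.finrank k σ.toSubmodule = 1 := by omega
    obtain ⟨v, hv, hvspan⟩ := finrank_eq_one_iff'.mp h3
    apply h
    refine ⟨(v : Fin 2 → k), fun h0 => hv (Subtype.ext h0), fun g => ?_⟩
    have hx := σ.apply_mem_toSubmodule g v.2
    obtain ⟨c, hc⟩ := hvspan ⟨_, hx⟩
    refine ⟨c, ?_⟩
    have h5 : c • (v : Fin 2 → k) = Deformation.matrixRepresentation ρ g (v : Fin 2 → k) :=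
      congrArg Subtype.val hc
    rw [h5, Deformation.matrixRepresentation_apply, Matrix.mulVecLin_apply]

/-- the sum of the values of a multiplicative function `G → ℂ` has nonnegative real part -/
theorem irred_re_sum_nonneg {G : Type} [Group G] [Fintype G] (ψ : G → ℂ)
    (hmul : ∀ g h : G, ψ (g * h) = ψ g * ψ h) :
    0 ≤ (∑ g : G, ψ g).re := by
  by_cases htriv : ∀ g : G, ψ g = 1
  · simp only [htriv, Finset.sum_const, Finset.card_univ, nsmul_eq_mul, mul_one]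
    simp
  · rw [not_forall] at htriv
    obtain ⟨h, hh⟩ := htriv
    have hsum : ψ h * ∑ g : G, ψ g = ∑ g : G, ψ g := by
      rw [Finset.mul_sum]
      simp only [← hmul]
      exact Fintype.sum_bijective (fun g => h * g) (Group.mulLeft_bijective h) _ _
        (fun g => rfl)
    have h0 : (ψ h - 1) * ∑ g : G, ψ g = 0 := by
      rw [sub_mul, hsum, one_mul, sub_self]
    rcases mul_eq_zero.mp h0 with h2 | h2
    · exact absurd (sub_eq_zero.mp h2) hh
    · rw [h2]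
      simp

/-- **Lemma A.**  A representation of a finite group on `ℂ²` with a common eigenvector has mean
square trace at least `2`. -/
theorem irred_sum_normSq_trace_ge {G : Type} [Group G] [Fintype G] (ρ : G →* GL (Fin 2) ℂ)
    (v : Fin 2 → ℂ) (hv : v ≠ 0)
    (hev : ∀ g : G, ∃ c : ℂ, (ρ g : Matrix (Fin 2) (Fin 2) ℂ).mulVec v = c • v) :
    2 * (Fintype.card G : ℝ) ≤
      ∑ g : G, ‖Matrix.trace (ρ g : Matrix (Fin 2) (Fin 2) ℂ)‖ ^ 2 := by
  classical
  choose c hc using hev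
  have hinj : ∀ a b : ℂ, a • v = b • v → a = b := fun a b h => smul_left_injective ℂ hv h
  have hc1 : c 1 = 1 := by
    apply hinj
    rw [← hc 1, map_one, Units.val_one, Matrix.one_mulVec, one_smul]
  have hcmul : ∀ g h : G, c (g * h) = c g * c h := by
    intro g h
    apply hinj
    rw [← hc (g * h), map_mul, Units.val_mul, ← Matrix.mulVec_mulVec, hc h, Matrix.mulVec_smul,
      hc g, smul_smul, mul_comm]
  have hcne : ∀ g : G, c g ≠ 0 := by
    intro g h0
    have := hcmul g g⁻¹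
    rw [mul_inv_cancel, hc1, h0, zero_mul] at this
    exact one_ne_zero this
  have hdetne : ∀ g : G, Matrix.det (ρ g : Matrix (Fin 2) (Fin 2) ℂ) ≠ 0 := fun g =>
    ((Matrix.isUnit_iff_isUnit_det _).mp (ρ g).isUnit).ne_zero
  set d : G → ℂ := fun g => Matrix.det (ρ g : Matrix (Fin 2) (Fin 2) ℂ) / c g with hd
  have hd1 : d 1 = 1 := by
    simp only [hd]
    rw [map_one, Units.val_one, Matrix.det_one, hc1, div_one]
  have hdmul : ∀ g h : G, d (g * h) = d g * d h := by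
    intro g h
    simp only [hd]
    rw [map_mul, Units.val_mul, Matrix.det_mul, hcmul, mul_div_mul_comm]
  have hcd : ∀ g : G, c g * d g = Matrix.det (ρ g : Matrix (Fin 2) (Fin 2) ℂ) := by
    intro g
    simp only [hd]
    rw [mul_div_cancel₀ _ (hcne g)]
  have htr : ∀ g : G, Matrix.trace (ρ g : Matrix (Fin 2) (Fin 2) ℂ) = c g + d g := by
    intro g
    have h1 := traceBound_eigen_charpoly (ρ g : Matrix (Fin 2) (Fin 2) ℂ) v hv (c g) (hc g)
    rw [← hcd g] at h1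
    have h2 : c g * (c g + d g - Matrix.trace (ρ g : Matrix (Fin 2) (Fin 2) ℂ)) = 0 := by
      linear_combination h1
    rcases mul_eq_zero.mp h2 with h | h
    · exact absurd h (hcne g)
    · exact (sub_eq_zero.mp h).symm
  -- absolute values
  have hpow : ∀ (ψ : G → ℂ), (∀ g h : G, ψ (g * h) = ψ g * ψ h) → ψ 1 = 1 →
      ∀ g : G, ‖ψ g‖ = 1 := by
    intro ψ hmul h1 g
    have hpw : ∀ n : ℕ, ψ (g ^ n) = ψ g ^ n := by
      intro n
      induction n with
      | zero => rw [pow_zero, pow_zero, h1]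
      | succ n ih => rw [pow_succ, hmul, ih, pow_succ]
    have h2 : ψ g ^ Fintype.card G = 1 := by
      rw [← hpw, pow_card_eq_one, h1]
    exact Complex.norm_eq_one_of_pow_eq_one h2 Fintype.card_ne_zero
  have hcn := hpow c hcmul hc1
  have hdn := hpow d hdmul hd1
  -- the cross term
  set ψ : G → ℂ := fun g => c g * (starRingEnd ℂ) (d g) with hψ
  have hψmul : ∀ g h : G, ψ (g * h) = ψ g * ψ h := by
    intro g h
    simp only [hψ]
    rw [hcmul, hdmul, map_mul]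
    ring
  have hre := irred_re_sum_nonneg ψ hψmul
  have hterm : ∀ g : G, ‖Matrix.trace (ρ g : Matrix (Fin 2) (Fin 2) ℂ)‖ ^ 2 =
      2 + 2 * (ψ g).re := by
    intro g
    rw [htr, ← Complex.normSq_eq_norm_sq, Complex.normSq_add, Complex.normSq_eq_norm_sq,
      Complex.normSq_eq_norm_sq, hcn, hdn]
    simp only [hψ]
    ring
  simp only [hterm]
  rw [Finset.sum_add_distrib, ← Finset.mul_sum, Finset.sum_const, Finset.card_univ,
    nsmul_eq_mul]
  have : (∑ g : G, (ψ g).re) = (∑ g : G, ψ g).re := (Complex.re_sum _ _).symm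
  rw [this]
  linarith


/-- **Lemma B.**  Chebotarev's density theorem against a Rankin bound: a nonnegative class
function `Φ` on `Gal(F/ℚ)` whose values at the Frobenius elements are `a p`, with
`∑_{p ∈ P} a p · p^{-s} ≤ log (1/(s-1)) + C'`, has mean at most `1`. -/
theorem irred_mean_le_one (hCD : StmtChebDensity) (hFrob : StmtFrobExists)
    (F : IntermediateField ℚ (AlgebraicClosure ℚ)) [FiniteDimensional ℚ F] [IsGalois ℚ F]
    [Fintype (F ≃ₐ[ℚ] F)]
    (S : Finset ℕ) (Φ : (F ≃ₐ[ℚ] F) → ℝ) (hΦ0 : ∀ g, 0 ≤ Φ g)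
    (hΦconj : ∀ g σ : F ≃ₐ[ℚ] F, Φ (g * σ * g⁻¹) = Φ σ)
    (a : ℕ → ℝ)
    (ha : ∀ p : ℕ, p.Prime → p ∉ S →
      ∀ A : ValuationSubring (AlgebraicClosure ℚ), A.LiesOverPrime p →
        ∀ τ : GalQ, A.IsFrobeniusAt τ p → Φ (resF F τ) = a p)
    (C' : ℝ)
    (hR : ∀ s : ℝ, 1 < s → s ≤ 2 → ∀ P : Finset ℕ, (∀ p ∈ P, p.Prime ∧ p ∉ S) →
      ∑ p ∈ P, a p * (p : ℝ) ^ (-s) ≤ Real.log (1 / (s - 1)) + C') :
    ∑ g : F ≃ₐ[ℚ] F, Φ g ≤ (Fintype.card (F ≃ₐ[ℚ] F) : ℝ) := by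
  classical
  by_contra hcon
  rw [not_le] at hcon
  have hn0 : (0 : ℝ) < (Fintype.card (F ≃ₐ[ℚ] F) : ℝ) := by
    exact_mod_cast Fintype.card_pos
  set n : ℝ := (Fintype.card (F ≃ₐ[ℚ] F) : ℝ) with hn
  set T : Finset ℝ := Finset.univ.image Φ with hT
  have hT0 : ∀ t ∈ T, 0 ≤ t := by
    intro t ht
    rw [hT, Finset.mem_image] at ht
    obtain ⟨g, -, rfl⟩ := ht
    exact hΦ0 g
  set sT : ℝ := ∑ t ∈ T, t with hsT
  have hsT0 : 0 ≤ sT := Finset.sum_nonneg hT0
  set m : ℝ := (∑ g : F ≃ₐ[ℚ] F, Φ g) / n with hm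
  have hm1 : 1 < m := by
    rw [hm, lt_div_iff₀ hn0, one_mul]
    exact hcon
  set δ : ℝ := (m - 1) / (2 * (sT + 1)) with hδ
  have hδ0 : 0 < δ := div_pos (by linarith) (by linarith)
  have hδT : δ * sT ≤ (m - 1) / 2 := by
    rw [hδ, div_mul_eq_mul_div, div_le_iff₀ (by linarith)]
    have : 0 ≤ (m - 1) := by linarith
    nlinarith
  set C : ℝ → Set (F ≃ₐ[ℚ] F) := fun t => {g | Φ g = t} with hC
  have hconj : ∀ t : ℝ, ∀ g σ : F ≃ₐ[ℚ] F, σ ∈ C t → g * σ * g⁻¹ ∈ C t := by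
    intro t g σ hσ
    have hσ' : Φ σ = t := hσ
    show Φ (g * σ * g⁻¹) = t
    rw [hΦconj, hσ']
  have hncard : ∀ t : ℝ, ((C t).ncard : ℝ)
      = ((Finset.univ.filter (fun g : F ≃ₐ[ℚ] F => Φ g = t)).card : ℝ) := by
    intro t
    congr 1
    rw [Set.ncard_eq_toFinset_card']
    congr 1
    ext g
    simp [hC]
  have hCDt : ∀ t : ℝ, ∃ s₀ : ℝ, 1 < s₀ ∧ ∀ s : ℝ, 1 < s → s < s₀ →
      ∃ P : Finset ℕ,
        (∀ p ∈ P, p.Prime ∧ p ∉ S ∧
          ∀ A : ValuationSubring (AlgebraicClosure ℚ), A.LiesOverPrime p →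
            ∀ τ : GalQ, A.IsFrobeniusAt τ p → AlgEquiv.restrictNormal τ F ∈ C t) ∧
        (((C t).ncard : ℝ) / (Nat.card (F ≃ₐ[ℚ] F) : ℝ) - δ) * Real.log (1 / (s - 1)) ≤
          ∑ p ∈ P, (p : ℝ) ^ (-s) := fun t => hCD F S (C t) (hconj t) δ hδ0
  choose s₀ hs₀ hP using hCDt
  -- a common `s₁`
  obtain ⟨s₁, hs₁, hs₁2, hs₁le⟩ : ∃ s₁ : ℝ, 1 < s₁ ∧ s₁ ≤ 2 ∧ ∀ t ∈ T, s₁ ≤ s₀ t := by
    have hgen : ∀ T' : Finset ℝ, ∃ s₁ : ℝ, 1 < s₁ ∧ s₁ ≤ 2 ∧ ∀ t ∈ T', s₁ ≤ s₀ t := by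
      intro T'
      induction T' using Finset.induction_on with
      | empty => exact ⟨2, one_lt_two, le_rfl, fun t ht => absurd ht (Finset.notMem_empty t)⟩
      | insert t₀ T' _ ih =>
        obtain ⟨s₁, h1, h2, h3⟩ := ih
        refine ⟨min s₁ (s₀ t₀), lt_min h1 (hs₀ t₀), (min_le_left _ _).trans h2, fun t ht => ?_⟩
        rcases Finset.mem_insert.mp ht with rfl | ht
        · exact min_le_right _ _
        · exact (min_le_left _ _).trans (h3 t ht)
    exact hgen T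
  have key : ∀ s : ℝ, 1 < s → s < s₁ → ((m - 1) / 2) * Real.log (1 / (s - 1)) ≤ C' := by
    intro s hs hss₁
    have hs2 : s < 2 := lt_of_lt_of_le hss₁ hs₁2
    have hL : 0 < Real.log (1 / (s - 1)) := by
      apply Real.log_pos
      rw [one_div, one_lt_inv₀ (by linarith)]
      linarith
    set L : ℝ := Real.log (1 / (s - 1)) with hLdef
    have hPt : ∀ t : ℝ, t ∈ T → ∃ P : Finset ℕ,
        (∀ p ∈ P, p.Prime ∧ p ∉ S ∧
          ∀ A : ValuationSubring (AlgebraicClosure ℚ), A.LiesOverPrime p →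
            ∀ τ : GalQ, A.IsFrobeniusAt τ p → AlgEquiv.restrictNormal τ F ∈ C t) ∧
        (((C t).ncard : ℝ) / (Nat.card (F ≃ₐ[ℚ] F) : ℝ) - δ) * L ≤
          ∑ p ∈ P, (p : ℝ) ^ (-s) :=
      fun t ht => hP t s hs (lt_of_lt_of_le hss₁ (hs₁le t ht))
    choose! P hP1 hP2 using hPt
    -- values of `a` on `P t`
    have haP : ∀ t ∈ T, ∀ p ∈ P t, a p = t := by
      intro t ht p hp
      obtain ⟨hpp, hpS, hall⟩ := hP1 t ht p hp
      obtain ⟨A, τ, hA, hτ⟩ := hFrob p hpp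
      have h1 := hall A hA τ hτ
      have h2 := ha p hpp hpS A hA τ hτ
      rw [resF_apply] at h2
      rw [← h2]
      exact h1
    have hdisj : (T : Set ℝ).PairwiseDisjoint P := by
      intro t ht t' ht' htt'
      rw [Function.onFun, Finset.disjoint_left]
      intro p hp hp'
      exact htt' ((haP t ht p hp).symm.trans (haP t' ht' p hp'))
    have hsum1 : ∑ p ∈ T.biUnion P, a p * (p : ℝ) ^ (-s)
        = ∑ t ∈ T, t * ∑ p ∈ P t, (p : ℝ) ^ (-s) := by
      rw [Finset.sum_biUnion hdisj]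
      refine Finset.sum_congr rfl fun t ht => ?_
      rw [Finset.mul_sum]
      exact Finset.sum_congr rfl fun p hp => by rw [haP t ht p hp]
    have hsum2 : ∑ t ∈ T, t * ((((C t).ncard : ℝ) / n - δ) * L)
        ≤ ∑ t ∈ T, t * ∑ p ∈ P t, (p : ℝ) ^ (-s) := by
      refine Finset.sum_le_sum fun t ht => ?_
      have := hP2 t ht
      rw [Nat.card_eq_fintype_card] at this
      exact mul_le_mul_of_nonneg_left this (hT0 t ht)
    have hfib : ∑ t ∈ T, t * ((C t).ncard : ℝ) = ∑ g : F ≃ₐ[ℚ] F, Φ g := by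
      have h1 : ∑ g : F ≃ₐ[ℚ] F, Φ g
          = ∑ t ∈ T, ∑ g ∈ Finset.univ.filter (fun g : F ≃ₐ[ℚ] F => Φ g = t), Φ g :=
        (Finset.sum_fiberwise_of_maps_to
          (fun g _ => Finset.mem_image_of_mem Φ (Finset.mem_univ g)) Φ).symm
      rw [h1]
      refine Finset.sum_congr rfl fun t _ => ?_
      rw [hncard, Finset.sum_congr rfl (fun g hg => (Finset.mem_filter.mp hg).2),
        Finset.sum_const, nsmul_eq_mul, mul_comm]
    have hsum3 : ∑ t ∈ T, t * ((((C t).ncard : ℝ) / n - δ) * L) = (m - δ * sT) * L := by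
      have : ∀ t ∈ T, t * ((((C t).ncard : ℝ) / n - δ) * L)
          = (L / n) * (t * ((C t).ncard : ℝ)) - (δ * L) * t := by
        intro t _
        field_simp
      rw [Finset.sum_congr rfl this, Finset.sum_sub_distrib, ← Finset.mul_sum, ← Finset.mul_sum,
        hfib, ← hsT, hm]
      field_simp
    have hR' := hR s hs hs2.le (T.biUnion P) (by
      intro p hp
      rw [Finset.mem_biUnion] at hp
      obtain ⟨t, ht, hpt⟩ := hp
      exact ⟨(hP1 t ht p hpt).1, (hP1 t ht p hpt).2.1⟩)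
    rw [hsum1] at hR'
    have h5 : (m - δ * sT) * L ≤ L + C' := by
      rw [← hsum3]
      exact hsum2.trans hR'
    nlinarith
  have := nonpos_of_mul_log_le hs₁ key
  linarith

/-- (IRR) -/
def StmtIrred : Prop :=
  StmtChebDensity → StmtFrobExists →
  ∀ (N : ℕ) [NeZero N] (ε : DirichletCharacter ℂ N) (f : CuspForm (Gamma1 N) 1),
    IsHeckeEigen N ε f → ∀ ρ : GalQ →* GL (Fin 2) ℂ, FiniteLevel ρ →
      (∀ p : ℕ, p.Prime → ¬ p ∣ N →
        ∀ A : ValuationSubring (AlgebraicClosure ℚ), A.LiesOverPrime p →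
          ∀ τ : GalQ, A.IsFrobeniusAt τ p →
            Matrix.trace (ρ τ : Matrix (Fin 2) (Fin 2) ℂ) = ModularFormClass.qCoeff f p) →
      (Deformation.matrixRepresentation ρ).IsIrreducible

/-- **(IRR)** the representation attached to `f` is irreducible. -/
theorem stmtIrred : StmtIrred := by
  intro hCD hFrob N _ ε f hf ρ hfin htr
  classical
  by_contra hirr
  have hev : ∃ v : Fin 2 → ℂ, v ≠ 0 ∧ ∀ σ : GalQ, ∃ c : ℂ,
      (ρ σ : Matrix (Fin 2) (Fin 2) ℂ).mulVec v = c • v := by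
    by_contra h
    exact hirr (irred_isIrreducible_of_no_eigen ρ h)
  obtain ⟨v, hv, hev⟩ := hev
  obtain ⟨F, hFfin, hFgal, hFker⟩ := hfin
  haveI := hFfin
  haveI := hFgal
  haveI : Finite (F ≃ₐ[ℚ] F) := finite_galF F
  letI : Fintype (F ≃ₐ[ℚ] F) := Fintype.ofFinite _
  obtain ⟨ρF, hρF⟩ := exists_factor F ρ hFker
  have hevF : ∀ g : F ≃ₐ[ℚ] F, ∃ c : ℂ,
      (ρF g : Matrix (Fin 2) (Fin 2) ℂ).mulVec v = c • v := by
    intro g
    obtain ⟨σ, rfl⟩ := resF_surjective F g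
    rw [hρF]
    exact hev σ
  have hA := irred_sum_normSq_trace_ge ρF v hv hevF
  obtain ⟨C', hC'⟩ := qCoeff_prime_sum_le N ε f hf.1 hf.2
  have hN : N ≠ 0 := NeZero.ne N
  have hB := irred_mean_le_one hCD hFrob F N.primeFactors
    (fun g => ‖Matrix.trace (ρF g : Matrix (Fin 2) (Fin 2) ℂ)‖ ^ 2)
    (fun g => sq_nonneg _)
    (fun g σ => by
      have h1 : (ρF (g * σ * g⁻¹) : Matrix (Fin 2) (Fin 2) ℂ) =
          (ρF g : Matrix (Fin 2) (Fin 2) ℂ) * (ρF σ : Matrix (Fin 2) (Fin 2) ℂ) *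
            ((ρF g)⁻¹ : GL (Fin 2) ℂ) := by
        rw [map_mul, map_mul, map_inv]
        rfl
      have h2 : (((ρF g)⁻¹ : GL (Fin 2) ℂ) : Matrix (Fin 2) (Fin 2) ℂ) *
          (ρF g : Matrix (Fin 2) (Fin 2) ℂ) = 1 := by
        rw [← Units.val_mul, inv_mul_cancel, Units.val_one]
      show ‖Matrix.trace (ρF (g * σ * g⁻¹) : Matrix (Fin 2) (Fin 2) ℂ)‖ ^ 2 = _
      rw [h1, Matrix.trace_mul_comm, ← mul_assoc, h2, one_mul])
    (fun p => ‖ModularFormClass.qCoeff f p‖ ^ 2)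
    (fun p hp hpS A hA' τ hτ => by
      have hpN : ¬ p ∣ N := fun hd => hpS (Nat.mem_primeFactors.mpr ⟨hp, hd, hN⟩)
      show ‖Matrix.trace (ρF (resF F τ) : Matrix (Fin 2) (Fin 2) ℂ)‖ ^ 2 = _
      rw [hρF, htr p hp hpN A hA' τ hτ])
    C'
    (fun s hs hs2 P hP => hC' s hs hs2 P fun p hp =>
      ⟨(hP p hp).1, fun hd => (hP p hp).2 (Nat.mem_primeFactors.mpr ⟨(hP p hp).1, hd, hN⟩)⟩)
  have hn0 : (0 : ℝ) < (Fintype.card (F ≃ₐ[ℚ] F) : ℝ) := by
    exact_mod_cast Fintype.card_pos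
  linarith

end Fermat.Agent.S48
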