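/-
S48, piece LIFT, part A (helper65): lifting an idempotent inside `S[x]`.

If `x` is killed by `X·P₀·(X−1)·P₁` with `X·P₀` and `(X−1)·P₁` coprime, then there is an idempotent
`e`, a polynomial in `x`, such that `ψ e = ψ x` for every algebra map `ψ` with `ψ x` idempotent.
-/
import Mathlib

set_option autoImplicit false

open Polynomial

namespace Fermat.Agent.S48

/-- idempotent lifting in `S[x]` -/
theorem liftIdem_exists {S E : Type*} [CommRing S] [Ring E] [Algebra S E] (x : E)
    (P₀ P₁ : S[X]) (hcop : IsCoprime (X * P₀) ((X - 1) * P₁))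
    (hx : aeval x (X * P₀ * ((X - 1) * P₁)) = 0) :
    ∃ P : S[X], aeval x P * aeval x P = aeval x P ∧
      ∀ (E' : Type*) [Ring E'] [Algebra S E'] (ψ : E →ₐ[S] E'), ψ x * ψ x = ψ x →
        ψ (aeval x P) = ψ x := by
  obtain ⟨A, B, hAB⟩ := hcop
  have h1 : aeval x (A * (X * P₀)) + aeval x (B * ((X - 1) * P₁)) = 1 := by
    rw [← map_add, hAB, map_one]
  have h0 : aeval x (A * (X * P₀)) * aeval x (B * ((X - 1) * P₁)) = 0 := by
    rw [← map_mul]
    have : A * (X * P₀) * (B * ((X - 1) * P₁)) = A * B * (X * P₀ * ((X - 1) * P₁)) := by ring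
    rw [this, map_mul, hx, mul_zero]
  refine ⟨A * (X * P₀), ?_, ?_⟩
  · have h2 : aeval x (B * ((X - 1) * P₁)) = 1 - aeval x (A * (X * P₀)) :=
      eq_sub_of_add_eq' h1
    rw [h2, mul_sub, mul_one, sub_eq_zero] at h0
    exact h0.symm
  · intro E' _ _ ψ hψ
    set y := ψ x with hy
    have e1 : ψ (aeval x (A * (X * P₀))) = y * aeval y (A * P₀) := by
      rw [← Polynomial.aeval_algHom_apply, ← hy]
      have : A * (X * P₀) = X * (A * P₀) := by ring
      rw [this, map_mul, aeval_X]
    have e2 : ψ (aeval x (B * ((X - 1) * P₁))) = (y - 1) * aeval y (B * P₁) := by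
      rw [← Polynomial.aeval_algHom_apply, ← hy]
      have : B * ((X - 1) * P₁) = (X - 1) * (B * P₁) := by ring
      rw [this, map_mul, map_sub, aeval_X, map_one]
    have e3 : ψ (aeval x (A * (X * P₀))) + ψ (aeval x (B * ((X - 1) * P₁))) = 1 := by
      rw [← map_add, h1, map_one]
    -- `y * (1 - e') = 0` and `(1 - y) * e' = 0`
    have hy1 : y * (y - 1) = 0 := by rw [mul_sub, mul_one, hψ, sub_self]
    have hy2 : (1 - y) * y = 0 := by rw [sub_mul, one_mul, hψ, sub_self]
    have k1 : y * ψ (aeval x (B * ((X - 1) * P₁))) = 0 := by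
      rw [e2, ← mul_assoc, hy1, zero_mul]
    have k2 : (1 - y) * ψ (aeval x (A * (X * P₀))) = 0 := by
      rw [e1, ← mul_assoc, hy2, zero_mul]
    have k3 : y * ψ (aeval x (A * (X * P₀))) = y := by
      have := congrArg (fun z => y * z) e3
      simp only [mul_add, mul_one, k1, add_zero] at this
      exact this
    rw [sub_mul, one_mul, sub_eq_zero] at k2
    rw [k2, k3]

end Fermat.Agent.S48
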