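/-
S48, piece LIFT, part D (helper65): the image of an idempotent matrix over a local ring is a
finite free module, and its rank is the rank of the reduced matrix over the residue field.
-/
import Mathlib

set_option autoImplicit false
set_option linter.style.haveILetI false
set_option linter.unusedSectionVars false

namespace Fermat.Agent.S48

section

variable {R : Type} [CommRing R] {I : Type} [Fintype I] [DecidableEq I]

/-- the image of an idempotent endomorphism of a finite free module is projective -/
theorem liftRank_projective {f : (I → R) →ₗ[R] (I → R)} (hf : IsIdempotentElem f) :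
    Module.Projective R (LinearMap.range f) := by
  refine Module.Projective.of_split (LinearMap.range f).subtype
    (f.codRestrict (LinearMap.range f) (fun x => LinearMap.mem_range_self f x)) ?_
  refine LinearMap.ext fun z => Subtype.ext ?_
  obtain ⟨x, y, rfl⟩ := z
  exact congrArg (fun g : (I → R) →ₗ[R] (I → R) => g y) hf.eq

/-- the image of an idempotent endomorphism of a finite free module over a local ring is free -/
theorem liftRank_free [IsLocalRing R] {f : (I → R) →ₗ[R] (I → R)} (hf : IsIdempotentElem f) :
    Module.Free R (LinearMap.range f) := by
  haveI := liftRank_projective hf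
  haveI : Module.Finite R (LinearMap.range f) := inferInstance
  haveI : Module.FinitePresentation R (LinearMap.range f) :=
    Module.finitePresentation_of_projective R _
  exact Module.free_of_flat_of_isLocalRing

/-- idempotent matrices give idempotent linear maps -/
theorem liftRank_idem {S : Type*} [CommRing S] {e : Matrix I I S} (he : e * e = e) :
    IsIdempotentElem (Matrix.toLin' e) := by
  show Matrix.toLin' e * Matrix.toLin' e = Matrix.toLin' e
  rw [Module.End.mul_eq_comp, ← Matrix.toLin'_mul, he]

/-- reductions of a basis of the image of `e` span the image of the reduced matrix -/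
theorem liftRank_le [IsLocalRing R] {k : Type} [Field k] (red : R →+* k)
    (hred : Function.Surjective red) (e : Matrix I I R) (he : e * e = e) :
    Module.finrank k (LinearMap.range (Matrix.toLin' (e.map red))) ≤
      Module.finrank R (LinearMap.range (Matrix.toLin' e)) := by
  classical
  haveI := liftRank_free (liftRank_idem he)
  set L := LinearMap.range (Matrix.toLin' e) with hL
  let b := Module.Free.chooseBasis R L
  let bbar : Module.Free.ChooseBasisIndex R L → (I → k) := fun j => fun i => red ((b j : I → R) i)
  have hspan : LinearMap.range (Matrix.toLin' (e.map red)) ≤ Submodule.span k (Set.range bbar) := by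
    rintro w ⟨ubar, rfl⟩
    choose u hu using fun i => hred (ubar i)
    have hmem : Matrix.toLin' e u ∈ L := LinearMap.mem_range_self _ u
    obtain ⟨a, ha⟩ : ∃ a : Module.Free.ChooseBasisIndex R L → R,
        e.mulVec u = ∑ j, a j • (b j : I → R) := by
      refine ⟨fun j => b.repr ⟨Matrix.toLin' e u, hmem⟩ j, ?_⟩
      have hrepr := b.sum_repr ⟨Matrix.toLin' e u, hmem⟩
      have := congrArg (fun z : L => (z : I → R)) hrepr
      simp only [Submodule.coe_sum, Submodule.coe_smul] at this
      rw [this]
      rfl
    have h1 : Matrix.toLin' (e.map red) ubar = ∑ j, red (a j) • bbar j := by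
      have hu' : ubar = red ∘ u := funext fun i => (hu i).symm
      rw [hu', Matrix.toLin'_apply]
      ext i
      rw [← RingHom.map_mulVec red e u i, ha]
      simp only [Finset.sum_apply, Pi.smul_apply, smul_eq_mul, map_sum, map_mul, bbar]
    rw [h1]
    exact Submodule.sum_mem _ fun j _ =>
      Submodule.smul_mem _ _ (Submodule.subset_span ⟨j, rfl⟩)
  calc Module.finrank k (LinearMap.range (Matrix.toLin' (e.map red)))
      ≤ Module.finrank k (Submodule.span k (Set.range bbar)) := Submodule.finrank_mono hspan
    _ ≤ Fintype.card (Module.Free.ChooseBasisIndex R L) := finrank_range_le_card bbar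
    _ = Module.finrank R L := (Module.finrank_eq_card_chooseBasisIndex R L).symm

/-- the rank of the image of an idempotent matrix over a local ring is the rank of the image of
its reduction -/
theorem liftRank_eq [IsLocalRing R] {k : Type} [Field k] (red : R →+* k)
    (hred : Function.Surjective red) (e : Matrix I I R) (he : e * e = e) :
    Module.finrank R (LinearMap.range (Matrix.toLin' e)) =
      Module.finrank k (LinearMap.range (Matrix.toLin' (e.map red))) := by
  classical
  have he' : (1 - e) * (1 - e) = 1 - e := by
    rw [mul_sub, mul_one, sub_mul, one_mul, he, sub_self, sub_zero]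
  have hE := liftRank_idem he
  have hE' := liftRank_idem he'
  have hebar : e.map red * e.map red = e.map red := by
    rw [← Matrix.map_mul, he]
  have hEbar := liftRank_idem hebar
  have h1 := liftRank_le red hred e he
  have h2 := liftRank_le red hred (1 - e) he'
  haveI := liftRank_free hE
  haveI := liftRank_free hE'
  -- over `R`
  have hR : Module.finrank R (LinearMap.range (Matrix.toLin' e)) +
      Module.finrank R (LinearMap.range (Matrix.toLin' (1 - e))) = Fintype.card I := by
    have hc : IsCompl (LinearMap.range (Matrix.toLin' e))
        (LinearMap.range (Matrix.toLin' (1 - e))) := by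
      have := LinearMap.IsIdempotentElem.isCompl hE
      rw [LinearMap.IsIdempotentElem.ker_eq_range_one_sub hE] at this
      have e2 : Matrix.toLin' (1 - e) = 1 - Matrix.toLin' e := by
        rw [map_sub, Matrix.toLin'_one]
        rfl
      rw [e2]
      exact this
    have := (Submodule.prodEquivOfIsCompl _ _ hc).finrank_eq
    rw [Module.finrank_prod, Module.finrank_fintype_fun_eq_card] at this
    exact this
  -- over `k`
  have hk : Module.finrank k (LinearMap.range (Matrix.toLin' (e.map red))) +
      Module.finrank k (LinearMap.range (Matrix.toLin' ((1 - e).map red))) = Fintype.card I := by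
    have := LinearMap.finrank_range_add_finrank_ker (Matrix.toLin' (e.map red))
    rw [LinearMap.IsIdempotentElem.ker_eq_range_one_sub hEbar,
      Module.finrank_fintype_fun_eq_card] at this
    have e2 : Matrix.toLin' ((1 - e).map red) = 1 - Matrix.toLin' (e.map red) := by
      have : (1 - e).map red = 1 - e.map red := by
        rw [Matrix.map_sub (f := red) (hf := map_sub red), Matrix.map_one red (map_zero red) (map_one red)]
      rw [this, map_sub, Matrix.toLin'_one]
      rfl
    rw [e2]
    exact this
  omega

end

end Fermat.Agent.S48
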