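/-
S48, piece LIFT, part B (helper65): monic polynomials over the ring of all algebraic integers
split into linear factors; products of linear factors with unit differences are coprime.
-/
import Mathlib

set_option autoImplicit false

open Polynomial

namespace Fermat.Agent.S48

/-- every monic polynomial over `ℤ̄ = integralClosure ℤ ℂ` is a product of linear factors -/
theorem zbar_splits (Q : (integralClosure ℤ ℂ)[X]) (hQ : Q.Monic) :
    ∃ s : Multiset (integralClosure ℤ ℂ), Q = (s.map fun a => X - C a).prod := by
  classical
  set f : integralClosure ℤ ℂ →+* ℂ := algebraMap (integralClosure ℤ ℂ) ℂ with hf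
  have hinj : Function.Injective f := Subtype.val_injective
  have hsp : (Q.map f).Splits := IsAlgClosed.splits _
  have hmon : (Q.map f).Monic := hQ.map f
  have hroot : ∀ a ∈ (Q.map f).roots, a ∈ integralClosure ℤ ℂ := by
    intro a ha
    have h0 : (Q.map f).IsRoot a := (Polynomial.mem_roots hmon.ne_zero).1 ha
    have h1 : IsIntegral (integralClosure ℤ ℂ) a := by
      refine ⟨Q, hQ, ?_⟩
      rw [← Polynomial.eval_map]
      exact h0
    exact isIntegral_trans (R := ℤ) (A := integralClosure ℤ ℂ) a h1
  refine ⟨(Q.map f).roots.pmap (fun a ha => (⟨a, ha⟩ : integralClosure ℤ ℂ)) hroot, ?_⟩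
  apply Polynomial.map_injective f hinj
  rw [Polynomial.map_multiset_prod, Multiset.map_map, Multiset.map_pmap]
  have h2 : Multiset.pmap (fun a (_ : a ∈ integralClosure ℤ ℂ) =>
      (Polynomial.map f ∘ fun a => X - C a) (⟨a, ‹_›⟩ : integralClosure ℤ ℂ)) (Q.map f).roots hroot
      = (Q.map f).roots.map fun a => X - C a := by
    rw [Multiset.pmap_eq_map_attach]
    conv_rhs => rw [← Multiset.attach_map_val (Q.map f).roots, Multiset.map_map]
    refine Multiset.map_congr rfl fun a _ => ?_
    simp only [Function.comp_apply, Polynomial.map_sub, Polynomial.map_X, Polynomial.map_C]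
    rfl
  rw [h2]
  exact (hsp.eq_prod_roots_of_monic hmon)

/-- coprimality to a product -/
theorem isCoprime_multiset_prod_right' {A : Type*} [CommRing A] (x : A) (s : Multiset A)
    (h : ∀ y ∈ s, IsCoprime x y) : IsCoprime x s.prod := by
  induction s using Multiset.induction_on with
  | empty => simpa using isCoprime_one_right
  | cons a s ih =>
    rw [Multiset.prod_cons]
    exact IsCoprime.mul_right (h a (Multiset.mem_cons_self a s))
      (ih fun y hy => h y (Multiset.mem_cons_of_mem hy))

/-- products of linear factors with pairwise unit differences of roots are coprime -/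
theorem isCoprime_linear_prods {A : Type*} [CommRing A] (T₀ T₁ : Multiset A)
    (h : ∀ a ∈ T₀, ∀ b ∈ T₁, IsUnit (a - b)) :
    IsCoprime (T₀.map fun a => (X - C a : A[X])).prod (T₁.map fun a => (X - C a : A[X])).prod := by
  refine isCoprime_multiset_prod_right' _ _ fun y hy => ?_
  obtain ⟨b, hb, rfl⟩ := Multiset.mem_map.1 hy
  refine IsCoprime.symm (isCoprime_multiset_prod_right' _ _ fun z hz => ?_)
  obtain ⟨a, ha, rfl⟩ := Multiset.mem_map.1 hz
  exact (Polynomial.isCoprime_X_sub_C_of_isUnit_sub (h a ha b hb)).symm

end Fermat.Agent.S48
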