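/-
S48, piece LIFT, part D-final (helper65): from an idempotent lift of `ebar` commuting with the
shifts to a lifted representation with the right traces and determinants.
-/
import Fermat.Agent.S48.LiftIdem
import Fermat.Agent.S48.LiftRank
import Fermat.Agent.S48.LiftReg
import Fermat.Agent.S48.LiftSplit

set_option autoImplicit false
set_option linter.style.haveILetI false
set_option linter.unusedSectionVars false

open Polynomial

namespace Fermat.Agent.S48

section Abs

variable {R k : Type} [CommRing R] [Field k]
variable {G : Type} [Group G] [Fintype G] [DecidableEq G] {d : ℕ}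

/-- entrywise reduction of vectors -/
def redV (red : R →+* k) {I : Type} (v : I → R) : I → k := fun i => red (v i)

theorem redV_sum_smul (red : R →+* k) {I J : Type} [Fintype J] (a : J → R) (v : J → I → R) :
    redV red (∑ j, a j • v j) = ∑ j, red (a j) • redV red (v j) := by
  funext i
  simp [redV, Finset.sum_apply, map_sum, map_mul]

theorem redV_shift (red : R →+* k) (h : G) (v : G × Fin d → R) :
    redV red (shift R d h v) = shift k d h (redV red v) := rfl

theorem redV_mulVec (red : R →+* k) {I : Type} [Fintype I] (e : Matrix I I R) (u : I → R) :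
    redV red (e.mulVec u) = (e.map red).mulVec (redV red u) := by
  funext i
  exact RingHom.map_mulVec red e u i

theorem lift_of_idem [IsLocalRing R] (red : R →+* k) (hred : Function.Surjective red)
    (r : G →* Matrix (Fin d) (Fin d) k) (c : k) (hc : c * (Fintype.card G : k) = 1)
    (e : Matrix (G × Fin d) (G × Fin d) R) (he : e * e = e)
    (hred_e : e.map red = convMat fun g => c • r g)
    (hcomm : ∀ h : G, shift R d h ∘ₗ Matrix.toLin' e = Matrix.toLin' e ∘ₗ shift R d h) :
    ∃ ρ : G →* Matrix (Fin d) (Fin d) R,
      ∀ g, red (ρ g).trace = (r g).trace ∧ red (ρ g).det = (r g).det := by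
  classical
  set L := LinearMap.range (Matrix.toLin' e) with hL
  haveI : Module.Free R L := liftRank_free (liftRank_idem he)
  have hrank : Module.finrank R L = d := by
    rw [hL, liftRank_eq red hred e he, hred_e, ebar_finrank r c hc]
  let b : Module.Basis (Fin d) R L := Module.finBasisOfFinrankEq R L hrank
  -- invariance
  have hinv : ∀ h : G, ∀ v ∈ L, shift R d h v ∈ L := by
    rintro h v ⟨u, rfl⟩
    exact ⟨shift R d h u, (congrArg (fun F => F u) (hcomm h)).symm⟩
  -- action on L
  let T : G →* Module.End R L :=
    { toFun := fun h => (shift R d h).restrict (hinv h)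
      map_one' := by
        refine LinearMap.ext fun v => Subtype.ext ?_
        exact congrArg (fun F : (G × Fin d → R) →ₗ[R] (G × Fin d → R) =>
          F (v : G × Fin d → R)) (shift_one (G := G) (S := R) (d := d))
      map_mul' := fun h h' => by
        refine LinearMap.ext fun v => Subtype.ext ?_
        exact congrArg (fun F : (G × Fin d → R) →ₗ[R] (G × Fin d → R) =>
          F (v : G × Fin d → R)) (shift_mul (S := R) (d := d) h h') }
  have hT : ∀ (h : G) (v : L), ((T h v : L) : G × Fin d → R) = shift R d h (v : G × Fin d → R) :=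
    fun h v => rfl
  let ρ : G →* Matrix (Fin d) (Fin d) R :=
    ((LinearMap.toMatrixAlgEquiv b : Module.End R L ≃ₐ[R] Matrix (Fin d) (Fin d) R) :
      Module.End R L →* Matrix (Fin d) (Fin d) R).comp T
  have hρ : ∀ (h : G) (i j : Fin d), ρ h i j = b.repr (T h (b j)) i := fun h i j =>
    LinearMap.toMatrixAlgEquiv_apply b (T h) i j
  -- the key expansion
  have hexp : ∀ (h : G) (j : Fin d),
      shift R d h (b j : G × Fin d → R) = ∑ i, ρ h i j • (b i : G × Fin d → R) := by
    intro h j
    have h1 := b.sum_repr (T h (b j))
    have h2 := congrArg (fun z : L => (z : G × Fin d → R)) h1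
    simp only [Submodule.coe_sum, Submodule.coe_smul] at h2
    rw [← hT h (b j), ← h2]
    refine Finset.sum_congr rfl fun i _ => ?_
    rw [hρ]
  -- the reduced basis vectors
  set cv : Fin d → (Fin d → k) := fun j => pibar r c (redV red (b j : G × Fin d → R)) with hcv
  set C : Matrix (Fin d) (Fin d) k := Matrix.of fun i j => cv j i with hC
  have hkey : ∀ (h : G) (j : Fin d), (r h).mulVec (cv j) = ∑ i, red (ρ h i j) • cv i := by
    intro h j
    rw [hcv]
    simp only
    rw [← pibar_shift, ← redV_shift, hexp, redV_sum_smul, map_sum]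
    refine Finset.sum_congr rfl fun i _ => ?_
    rw [map_smul]
  have hconj : ∀ h : G, r h * C = C * (ρ h).map red := by
    intro h
    ext i' j
    have := congrFun (hkey h j) i'
    simp only [Matrix.mulVec, dotProduct, Finset.sum_apply, Pi.smul_apply, smul_eq_mul] at this
    simp only [Matrix.mul_apply, hC, Matrix.of_apply, Matrix.map_apply]
    rw [this]
    refine Finset.sum_congr rfl fun i _ => ?_
    rw [mul_comm]
  -- `C` is invertible
  have hCunit : IsUnit C := by
    rw [← Matrix.mulVec_surjective_iff_isUnit]
    intro w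
    -- `sbar w` lies in the image of `ebar`
    have h1 : (e.map red).mulVec (sbar r w) = sbar r w := by
      rw [hred_e, ← Matrix.toLin'_apply, ← sbar_pibar, pibar_sbar r c hc]
    choose u hu using fun a => hred (sbar r w a)
    have hu' : redV red u = sbar r w := funext hu
    have hmem : Matrix.toLin' e u ∈ L := LinearMap.mem_range_self _ u
    have h2 := b.sum_repr ⟨Matrix.toLin' e u, hmem⟩
    have h3 := congrArg (fun z : L => (z : G × Fin d → R)) h2
    simp only [Submodule.coe_sum, Submodule.coe_smul] at h3
    have h4 : sbar r w = ∑ j, red (b.repr ⟨Matrix.toLin' e u, hmem⟩ j) •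
        redV red (b j : G × Fin d → R) := by
      rw [← redV_sum_smul, h3, Matrix.toLin'_apply, redV_mulVec, hu', h1]
    refine ⟨fun j => red (b.repr ⟨Matrix.toLin' e u, hmem⟩ j), ?_⟩
    have h5 : w = ∑ j, red (b.repr ⟨Matrix.toLin' e u, hmem⟩ j) • cv j := by
      conv_lhs => rw [← pibar_sbar r c hc w, h4, map_sum]
      refine Finset.sum_congr rfl fun j _ => ?_
      rw [map_smul]
    conv_rhs => rw [h5]
    funext i
    simp only [Matrix.mulVec, dotProduct, hC, Matrix.of_apply, Finset.sum_apply, Pi.smul_apply,
      smul_eq_mul]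
    refine Finset.sum_congr rfl fun j _ => ?_
    rw [mul_comm]
  refine ⟨ρ, fun g => ⟨?_, ?_⟩⟩
  · obtain ⟨Cu, hCu⟩ := hCunit
    have h1 : r g = (Cu : Matrix (Fin d) (Fin d) k) * (ρ g).map red *
        ((Cu⁻¹ : (Matrix (Fin d) (Fin d) k)ˣ) : Matrix (Fin d) (Fin d) k) := by
      rw [hCu, ← hconj g, ← hCu, mul_assoc, Units.mul_inv, mul_one]
    rw [h1, Matrix.trace_units_conj, AddMonoidHom.map_trace]
  · have h1 := congrArg Matrix.det (hconj g)
    rw [Matrix.det_mul, Matrix.det_mul, mul_comm] at h1
    have h2 : C.det ≠ 0 := ((Matrix.isUnit_iff_isUnit_det C).1 hCunit).ne_zero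
    rw [RingHom.map_det, RingHom.mapMatrix_apply]
    exact (mul_left_cancel₀ h2 h1).symm

end Abs

end Fermat.Agent.S48
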