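/-
S48, piece LIFT, part D2 (helper65): construction of the idempotent lift by splitting the
characteristic polynomial, and the resulting abstract lifting theorem.
-/
import Fermat.Agent.S48.LiftAbs

set_option autoImplicit false
set_option linter.style.haveILetI false
set_option linter.unusedSectionVars false

open Polynomial

namespace Fermat.Agent.S48

section Abs2

variable {R k : Type} [CommRing R] [Field k]
variable {G : Type} [Group G] [Fintype G] [DecidableEq G] {d : ℕ}

theorem lift_abstract {Z : Type} [CommRing Z] [IsLocalRing R] (φ : Z →+* R) (red : R →+* k)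
    (hZ : Function.Surjective (red.comp φ))
    (hunit : ∀ x : R, red x ≠ 0 → IsUnit x)
    (hsplit : ∀ Q : Z[X], Q.Monic → ∃ s : Multiset Z, Q = (s.map fun a => X - C a).prod)
    (r : G →* Matrix (Fin d) (Fin d) k) (c : k) (hc : c * (Fintype.card G : k) = 1) :
    ∃ ρ : G →* Matrix (Fin d) (Fin d) R,
      ∀ g, red (ρ g).trace = (r g).trace ∧ red (ρ g).det = (r g).det := by
  classical
  have hred : Function.Surjective red := fun y => by
    obtain ⟨z, hz⟩ := hZ y
    exact ⟨φ z, hz⟩
  choose lift hlift using hZ
  set m : G → Matrix (Fin d) (Fin d) Z := fun g => (c • r g).map lift with hm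
  set mR : G → Matrix (Fin d) (Fin d) R := fun g => (m g).map φ with hmR
  have hmR_red : ∀ g i j, red (mR g i j) = (c • r g) i j := by
    intro g i j
    exact hlift _
  set xZ : Matrix (G × Fin d) (G × Fin d) Z := convMat m with hxZ
  set xR : Matrix (G × Fin d) (G × Fin d) R := convMat mR with hxRdef
  have hxR : xR = xZ.map φ := by
    ext a b
    rfl
  have hxk : xR.map red = convMat fun g => c • r g := by
    ext a b
    exact hmR_red _ _ _
  obtain ⟨s, hs⟩ := hsplit xZ.charpoly (Matrix.charpoly_monic xZ)
  set p : Z → Prop := fun a => red (φ a) = 0 with hp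
  set T₀ : Multiset R := 0 ::ₘ (s.filter p).map φ with hT₀
  set T₁ : Multiset R := 1 ::ₘ (s.filter (fun a => ¬ p a)).map φ with hT₁
  set P₀ : R[X] := (((s.filter p).map φ).map fun a => (X - C a : R[X])).prod with hP₀
  set P₁ : R[X] := (((s.filter fun a => ¬ p a).map φ).map fun a => (X - C a : R[X])).prod with hP₁
  have hP : xR.charpoly = P₀ * P₁ := by
    rw [hxR, Matrix.charpoly_map, hs, Polynomial.map_multiset_prod, hP₀, hP₁, ← Multiset.prod_add,
      ← Multiset.map_add, ← Multiset.map_add, Multiset.filter_add_not, Multiset.map_map,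
      Multiset.map_map]
    congr 1
    refine Multiset.map_congr rfl fun a _ => ?_
    simp
  have hcop : IsCoprime (X * P₀) ((X - 1) * P₁) := by
    have h1 : IsCoprime (T₀.map fun a => (X - C a : R[X])).prod
        (T₁.map fun a => (X - C a : R[X])).prod := by
      refine isCoprime_linear_prods T₀ T₁ ?_
      intro a ha b hb
      apply hunit
      have ha0 : red a = 0 := by
        rw [hT₀, Multiset.mem_cons] at ha
        rcases ha with rfl | ha
        · exact map_zero red
        · obtain ⟨z, hz, rfl⟩ := Multiset.mem_map.1 ha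
          exact (Multiset.mem_filter.1 hz).2
      have hb0 : red b ≠ 0 := by
        rw [hT₁, Multiset.mem_cons] at hb
        rcases hb with rfl | hb
        · rw [map_one]
          exact one_ne_zero
        · obtain ⟨z, hz, rfl⟩ := Multiset.mem_map.1 hb
          exact (Multiset.mem_filter.1 hz).2
      rw [map_sub, ha0, zero_sub, neg_ne_zero]
      exact hb0
    rw [hT₀, hT₁, Multiset.map_cons, Multiset.map_cons, Multiset.prod_cons, Multiset.prod_cons,
      C_0, sub_zero, C_1] at h1
    exact h1
  have hx : aeval xR (X * P₀ * ((X - 1) * P₁)) = 0 := by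
    have h1 : X * P₀ * ((X - 1) * P₁) = X * (X - 1) * (P₀ * P₁) := by ring
    rw [h1, map_mul, ← hP, Matrix.aeval_self_charpoly, mul_zero]
  obtain ⟨P, hPidem, hPψ⟩ := liftIdem_exists.{0, 0, 0} xR P₀ P₁ hcop hx
  letI : Algebra R k := red.toAlgebra
  let ψ : Matrix (G × Fin d) (G × Fin d) R →ₐ[R] Matrix (G × Fin d) (G × Fin d) k :=
    (Algebra.ofId R k).mapMatrix
  have hψ : ∀ M, ψ M = M.map red := fun M => rfl
  have he_red : (aeval xR P).map red = convMat fun g => c • r g := by
    have h1 : ψ xR * ψ xR = ψ xR := by
      rw [hψ, hxk]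
      exact ebar_idem r c hc
    have h2 := hPψ _ ψ h1
    rw [hψ, hψ, hxk] at h2
    exact h2
  exact lift_of_idem red hred r c hc (aeval xR P) hPidem he_red
    (fun h => shift_comm_aeval mR h P)

end Abs2

end Fermat.Agent.S48
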