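/-
S48, piece LIFT (helper65): lifting a 2-dimensional representation of a finite group of order
prime to the residue characteristic from `ℤ̄/𝔪` to `ℂ`, with integral traces and determinants
reducing to the given ones.

Route: idempotent lifting in the group algebra (uniformly; no case distinction).  With
`R = ℤ̄_𝔪` (a local ring with residue field `ℤ̄/𝔪`, embedded in `ℂ`) the averaging idempotent
`ebar` of `ρbar` inside `M_{G × 2}(ℤ̄/𝔪)` is lifted to an idempotent `e` of `M_{G × 2}(R)`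
commuting with the regular action of `G`; the image of `e` is a free `R`-module of rank 2 with a
`G`-action whose reduction is conjugate to `ρbar`.
-/
import Fermat.Agent.S48.LiftAbs2

set_option autoImplicit false
set_option linter.style.haveILetI false
set_option linter.unusedSectionVars false

open Polynomial

namespace Fermat.Agent.S48

/-- trace and determinant of a complex matrix of finite order are algebraic integers -/
theorem finiteOrder_isIntegral {n : ℕ} (hn : 0 < n) (A : Matrix (Fin 2) (Fin 2) ℂ)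
    (hA : A ^ n = 1) : IsIntegral ℤ A.trace ∧ IsIntegral ℤ A.det := by
  constructor
  · rw [Matrix.trace_eq_sum_roots_charpoly]
    refine IsIntegral.multiset_sum fun μ hμ => ?_
    have h1 : A.charpoly.IsRoot μ :=
      (Polynomial.mem_roots (Matrix.charpoly_monic A).ne_zero).1 hμ
    have h2 : μ ∈ spectrum ℂ A := Matrix.mem_spectrum_iff_isRoot_charpoly.2 h1
    have h3 := spectrum.pow_mem_pow A n h2
    rw [hA, spectrum.one_eq, Set.mem_singleton_iff] at h3
    refine IsIntegral.of_pow hn ?_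
    rw [h3]
    exact isIntegral_one
  · refine IsIntegral.of_pow hn ?_
    rw [← Matrix.det_pow, hA, Matrix.det_one]
    exact isIntegral_one

/-- **LIFT**: a representation `ρbar : G → GL₂(ℤ̄/𝔪)` of a finite group of order prime to the
residue characteristic lifts to `ρ : G → GL₂(ℂ)` with integral traces and determinants reducing
to those of `ρbar`. -/
theorem lift_exists (𝔪 : Ideal (integralClosure ℤ ℂ)) [𝔪.IsMaximal] (G : Type) [Group G]
    [Finite G] (hG : ((Nat.card G : ℕ) : integralClosure ℤ ℂ) ∉ 𝔪)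
    (ρbar : G →* GL (Fin 2) (integralClosure ℤ ℂ ⧸ 𝔪)) :
    ∃ ρ : G →* GL (Fin 2) ℂ, ∀ g : G, ∃ t d : integralClosure ℤ ℂ,
      (t : ℂ) = Matrix.trace (ρ g : Matrix (Fin 2) (Fin 2) ℂ) ∧
      Ideal.Quotient.mk 𝔪 t = Matrix.trace (ρbar g).val ∧
      (d : ℂ) = Matrix.det (ρ g : Matrix (Fin 2) (Fin 2) ℂ) ∧
      Ideal.Quotient.mk 𝔪 d = Matrix.det (ρbar g).val := by
  classical
  letI : Fintype G := Fintype.ofFinite G
  letI : Field (integralClosure ℤ ℂ ⧸ 𝔪) := Ideal.Quotient.field 𝔪
  -- maps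
  let φ : integralClosure ℤ ℂ →+* Localization.AtPrime 𝔪 :=
    algebraMap (integralClosure ℤ ℂ) (Localization.AtPrime 𝔪)
  have hgk : ∀ y : 𝔪.primeCompl, IsUnit (Ideal.Quotient.mk 𝔪 (y : integralClosure ℤ ℂ)) := by
    intro y
    rw [isUnit_iff_ne_zero, Ne, Ideal.Quotient.eq_zero_iff_mem]
    exact y.2
  let red : Localization.AtPrime 𝔪 →+* (integralClosure ℤ ℂ ⧸ 𝔪) := IsLocalization.lift hgk
  have hredφ : ∀ z : integralClosure ℤ ℂ, red (φ z) = Ideal.Quotient.mk 𝔪 z :=
    fun z => IsLocalization.lift_eq hgk z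
  have hZ : Function.Surjective (red.comp φ) := by
    intro y
    obtain ⟨z, rfl⟩ := Ideal.Quotient.mk_surjective y
    exact ⟨z, hredφ z⟩
  have hred : Function.Surjective red := fun y => by
    obtain ⟨z, hz⟩ := hZ y
    exact ⟨φ z, hz⟩
  have hunit : ∀ x : Localization.AtPrime 𝔪, red x ≠ 0 → IsUnit x := by
    intro x hx
    have h1 : RingHom.ker red = IsLocalRing.maximalIdeal (Localization.AtPrime 𝔪) :=
      IsLocalRing.eq_maximalIdeal (RingHom.ker_isMaximal_of_surjective red hred)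
    rw [← IsLocalRing.notMem_maximalIdeal, ← h1, RingHom.mem_ker]
    exact hx
  -- the inverse of `#G`
  have hcard : ((Fintype.card G : ℕ) : integralClosure ℤ ℂ ⧸ 𝔪) ≠ 0 := by
    have h1 : ((Fintype.card G : ℕ) : integralClosure ℤ ℂ ⧸ 𝔪) =
        Ideal.Quotient.mk 𝔪 ((Fintype.card G : ℕ) : integralClosure ℤ ℂ) :=
      (map_natCast _ _).symm
    rw [h1, Ne, Ideal.Quotient.eq_zero_iff_mem, ← Nat.card_eq_fintype_card]
    exact hG
  let r : G →* Matrix (Fin 2) (Fin 2) (integralClosure ℤ ℂ ⧸ 𝔪) := (Units.coeHom _).comp ρbar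
  obtain ⟨ρR, hρR⟩ := lift_abstract φ red hZ hunit zbar_splits r
    ((Fintype.card G : integralClosure ℤ ℂ ⧸ 𝔪))⁻¹ (inv_mul_cancel₀ hcard)
  -- to `ℂ`
  have hgC : ∀ y : 𝔪.primeCompl,
      IsUnit (algebraMap (integralClosure ℤ ℂ) ℂ (y : integralClosure ℤ ℂ)) := by
    intro y
    rw [isUnit_iff_ne_zero]
    intro h0
    have h1 : (y : integralClosure ℤ ℂ) = 0 := Subtype.ext h0
    exact y.2 (h1 ▸ 𝔪.zero_mem)
  let ι : Localization.AtPrime 𝔪 →+* ℂ := IsLocalization.lift hgC
  have hιφ : ∀ z : integralClosure ℤ ℂ, ι (φ z) = (z : ℂ) := fun z => IsLocalization.lift_eq hgC z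
  have hιinj : Function.Injective ι := by
    rw [IsLocalization.lift_injective_iff]
    intro x y
    constructor
    · intro h
      have := congrArg ι h
      rw [hιφ, hιφ] at this
      exact this
    · intro h
      have h1 : x = y := Subtype.ext h
      rw [h1]
  let ρC : G →* Matrix (Fin 2) (Fin 2) ℂ :=
    (RingHom.mapMatrix ι :
      Matrix (Fin 2) (Fin 2) (Localization.AtPrime 𝔪) →+* Matrix (Fin 2) (Fin 2) ℂ).toMonoidHom.comp
      ρR
  have hρC : ∀ g, ρC g = (ρR g).map ι := fun g => rfl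
  refine ⟨ρC.toHomUnits, fun g => ?_⟩
  have hpow : (ρC g) ^ Fintype.card G = 1 := by
    rw [← map_pow, pow_card_eq_one, map_one]
  obtain ⟨htr, hdet⟩ := finiteOrder_isIntegral Fintype.card_pos (ρC g) hpow
  have htr' : ι (ρR g).trace = (ρC g).trace := AddMonoidHom.map_trace ι (ρR g)
  have hdet' : ι (ρR g).det = (ρC g).det := RingHom.map_det ι (ρR g)
  refine ⟨⟨(ρC g).trace, htr⟩, ⟨(ρC g).det, hdet⟩, ?_, ?_, ?_, ?_⟩
  · rw [MonoidHom.coe_toHomUnits]
  · have h1 : φ ⟨(ρC g).trace, htr⟩ = (ρR g).trace := hιinj (by rw [hιφ, htr'])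
    rw [← hredφ, h1]
    exact (hρR g).1
  · rw [MonoidHom.coe_toHomUnits]
  · have h1 : φ ⟨(ρC g).det, hdet⟩ = (ρR g).det := hιinj (by rw [hιφ, hdet'])
    rw [← hredφ, h1]
    exact (hρR g).2

end Fermat.Agent.S48
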