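/-
S48, piece LIFT (helper65): `stmtLift : StmtLift` (the statement of `Plan.lean`).
-/
import Fermat.Agent.S48.Plan
import Fermat.Agent.S48.Lift0

set_option autoImplicit false
set_option linter.style.haveILetI false

namespace Fermat.Agent.S48

/-- (LIFT) lifting to characteristic zero -/
theorem stmtLift : StmtLift := by
  intro 𝔪 h𝔪 G _ _ hG ρbar
  haveI := h𝔪
  exact lift_exists 𝔪 G hG ρbar

end Fermat.Agent.S48
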