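import Mathlib
import Fermat.Agent.ES.EisChar
import Fermat.Prelude.Def_FLTPrelim_Modularity

/-!
# S48 / EIS3: Eisenstein series with nebentypus on `Γ₁(N)`

For `k ≥ 3` and a Dirichlet character `χ` modulo `N ≠ 1` with `χ(-1) = (-1)^k` the series
`G_χ(z) = ∑_{(c,d) ∈ ℤ²} χ(c) (c z + d)^{-k}` is a modular form of weight `k` on `Γ₁(N)` with
nebentypus `χ` on `Γ₀(N)`, and
`G_χ = 2 (-2πi)^k / (k-1)! · ∑_{n ≥ 1} (∑_{c ∣ n} χ(c) (n/c)^{k-1}) qⁿ`.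
-/

set_option autoImplicit false
set_option linter.unusedSectionVars false

open EisensteinSeries UpperHalfPlane ModularForm CongruenceSubgroup Matrix Filter Topology
open Fermat.Agent.ES
open scoped MatrixGroups Manifold Real

noncomputable section

namespace Fermat.Agent.S48

/-! ## A twisted Lambert series rearrangement -/

/-- `∑_d ∑_c a_d c^k r^{dc} = ∑_e (∑_{d ∣ e} a_d (e/d)^k) r^e` for bounded `a`. -/
theorem eisOdd_summable_twist (k : ℕ) {r : ℂ} (hr : ‖r‖ < 1) (a : ℕ → ℂ)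
    (ha : ∀ n, ‖a n‖ ≤ 1) :
    Summable fun c : ℕ+ × ℕ+ => a c.1 * ((c.2 : ℂ) ^ k * r ^ (c.1 * c.2 : ℕ)) := by
  have h := summable_prod_mul_pow (𝕜 := ℝ) k (r := ‖r‖) (by simpa using hr)
  refine Summable.of_norm_bounded h fun c => ?_
  rw [norm_mul, norm_mul, norm_pow, norm_pow, Complex.norm_natCast]
  calc ‖a c.1‖ * ((c.2 : ℝ) ^ k * ‖r‖ ^ (c.1 * c.2 : ℕ))
      ≤ 1 * ((c.2 : ℝ) ^ k * ‖r‖ ^ (c.1 * c.2 : ℕ)) := by
        apply mul_le_mul_of_nonneg_right (ha _)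
        positivity
    _ = _ := by rw [one_mul]

theorem eisOdd_tsum_twist (k : ℕ) {r : ℂ} (hr : ‖r‖ < 1) (a : ℕ → ℂ)
    (ha : ∀ n, ‖a n‖ ≤ 1) :
    ∑' d : ℕ+, ∑' c : ℕ+, a d * ((c : ℂ) ^ k * r ^ (d * c : ℕ)) =
      ∑' e : ℕ+, (∑ d ∈ (e : ℕ).divisors, a d * ((e / d : ℕ) : ℂ) ^ k) * r ^ (e : ℕ) := by
  have hs := eisOdd_summable_twist k hr a ha
  rw [← hs.tsum_prod (f := fun c : ℕ+ × ℕ+ => a c.1 * ((c.2 : ℂ) ^ k * r ^ (c.1 * c.2 : ℕ)))]
  rw [← sigmaAntidiagonalEquivProd.tsum_eq]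
  have hs' : Summable fun x : (Σ n : ℕ+, Nat.divisorsAntidiagonal n) =>
      (fun c : ℕ+ × ℕ+ => a c.1 * ((c.2 : ℂ) ^ k * r ^ (c.1 * c.2 : ℕ)))
        (sigmaAntidiagonalEquivProd x) :=
    sigmaAntidiagonalEquivProd.summable_iff.mpr hs
  rw [hs'.tsum_sigma]
  refine tsum_congr fun n => ?_
  rw [tsum_fintype, Finset.univ_eq_attach]
  have h1 : ∀ x : Nat.divisorsAntidiagonal n,
      (fun c : ℕ+ × ℕ+ => a c.1 * ((c.2 : ℂ) ^ k * r ^ (c.1 * c.2 : ℕ)))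
        (sigmaAntidiagonalEquivProd ⟨n, x⟩) =
      (fun y : ℕ × ℕ => a y.1 * ((y.2 : ℂ) ^ k * r ^ (y.1 * y.2))) x.1 := by
    intro x
    simp [sigmaAntidiagonalEquivProd, divisorsAntidiagonalFactors]
  simp_rw [h1]
  rw [(n : ℕ).divisorsAntidiagonal.sum_attach
    (fun y : ℕ × ℕ => a y.1 * ((y.2 : ℂ) ^ k * r ^ (y.1 * y.2)))]
  rw [Nat.sum_divisorsAntidiagonal (fun x y => a x * ((y : ℂ) ^ k * r ^ (x * y)))]
  rw [Finset.sum_mul]
  refine Finset.sum_congr rfl fun i hi => ?_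
  rw [Nat.mul_div_cancel' (Nat.dvd_of_mem_divisors hi)]
  ring

/-! ## The series and its `q`-expansion -/

variable {N : ℕ} (χ : DirichletCharacter ℂ N)

/-- the coefficient `κ(c, d) = χ(c)` -/
def eisOddKap (v : Fin 2 → ℤ) : ℂ := χ ((v 0 : ℤ) : ZMod N)

theorem norm_eisOddKap_le (v : Fin 2 → ℤ) : ‖eisOddKap χ v‖ ≤ 1 := χ.norm_le_one _

/-- `G_χ(z) = ∑_{(c,d)} χ(c) (c z + d)^{-k}` -/
def eisOddFun (k : ℤ) : ℍ → ℂ := eisC (eisOddKap χ) k

theorem eisOdd_chi_zero (hN : N ≠ 1) : χ ((0 : ℤ) : ZMod N) = 0 := by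
  rw [Int.cast_zero]
  apply MulChar.map_nonunit
  intro h0
  apply hN
  rw [isUnit_zero_iff] at h0
  exact ZMod.subsingleton_iff.mp (subsingleton_of_zero_eq_one h0)

open Complex Nat in
/-- the `q`-expansion of `G_χ`, as an identity of functions -/
theorem eisOddFun_tsum {k : ℕ} (hk : 3 ≤ k) (hχ : χ (-1) = (-1 : ℂ) ^ k) (hN : N ≠ 1) (z : ℍ) :
    eisOddFun χ k z = 2 * ((-2 * π * Complex.I) ^ k / (k - 1)!) *
      ∑' e : ℕ+, (∑ d ∈ (e : ℕ).divisors, χ (d : ZMod N) * ((e / d : ℕ) : ℂ) ^ (k - 1)) *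
        cexp (2 * π * Complex.I * z) ^ (e : ℕ) := by
  have hk' : (3 : ℤ) ≤ k := by exact_mod_cast hk
  have hsumv := eisC_summable (κ := eisOddKap χ) (C := 1) (norm_eisOddKap_le χ) hk' z
  have hsum : Summable fun x : ℤ × ℤ =>
      χ ((x.1 : ℤ) : ZMod N) * eisSummand k ![x.1, x.2] z := by
    refine (finTwoArrowEquiv ℤ).summable_iff.mp (hsumv.congr fun v => ?_)
    simp [eisOddKap, show ![v 0, v 1] = v from List.ofFn_inj.mp rfl]
  have hG : eisOddFun χ k z = ∑' x : ℤ × ℤ,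
      χ ((x.1 : ℤ) : ZMod N) * eisSummand k ![x.1, x.2] z := by
    unfold eisOddFun eisC
    rw [← (finTwoArrowEquiv ℤ).symm.tsum_eq]
    refine tsum_congr fun x => ?_
    simp [eisOddKap]
  rw [hG, Summable.tsum_prod hsum]
  -- evenness in `c`
  have heven : Function.Even fun c : ℤ =>
      ∑' d : ℤ, χ ((c : ℤ) : ZMod N) * eisSummand k ![c, d] z := by
    intro c
    simp only
    rw [← tsum_comp_neg (fun d : ℤ => χ (((-c : ℤ) : ℤ) : ZMod N) * eisSummand k ![-c, d] z)]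
    refine tsum_congr fun d => ?_
    have h1 : χ (((-c : ℤ) : ℤ) : ZMod N) = (-1 : ℂ) ^ k * χ ((c : ℤ) : ZMod N) := by
      rw [Int.cast_neg, ← neg_one_mul, map_mul, hχ]
    have h2 : eisSummand k ![-c, -d] z = (-1 : ℂ) ^ k * eisSummand k ![c, d] z := by
      simp only [eisSummand, Matrix.cons_val_zero, Matrix.cons_val_one, Int.cast_neg]
      have : (-(c : ℂ) * (z : ℂ) + -(d : ℂ)) = -1 * ((c : ℂ) * z + d) := by ring
      rw [this, mul_zpow]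
      congr 1
      rw [_root_.zpow_neg, zpow_natCast]
      rcases Nat.even_or_odd k with he | ho
      · rw [he.neg_one_pow, inv_one]
      · rw [ho.neg_one_pow]; norm_num
    rw [h1, h2]
    have h3 : ((-1 : ℂ) ^ k) * ((-1 : ℂ) ^ k) = 1 := by
      rw [← mul_pow]; norm_num
    calc (-1 : ℂ) ^ k * χ ((c : ℤ) : ZMod N) * ((-1 : ℂ) ^ k * eisSummand k ![c, d] z)
        = ((-1 : ℂ) ^ k * (-1 : ℂ) ^ k) * (χ ((c : ℤ) : ZMod N) * eisSummand k ![c, d] z) := by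
          ring
      _ = _ := by rw [h3, one_mul]
  rw [tsum_int_eq_zero_add_two_mul_tsum_pnat heven hsum.prod]
  -- the term `c = 0` vanishes
  have h0 : (∑' d : ℤ, χ ((0 : ℤ) : ZMod N) * eisSummand k ![0, d] z) = 0 := by
    rw [eisOdd_chi_zero χ hN]
    simp
  rw [h0, zero_add, nsmul_eq_mul, Nat.cast_ofNat, mul_assoc]
  congr 1
  -- the inner sums
  have H (b : ℕ+) := qExpansion_identity_pnat (k := k - 1) (by omega)
    ⟨b * z, by simpa using z.2⟩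
  simp_rw [show k - 1 + 1 = k by omega, one_div] at H
  have hin : ∀ b : ℕ+, ∑' d : ℤ, χ (((b : ℕ) : ℤ) : ZMod N) * eisSummand k ![((b : ℕ) : ℤ), d] z
      = ((-2 * π * Complex.I) ^ k / (k - 1)!) *
        ∑' n : ℕ+, χ ((b : ℕ) : ZMod N) *
          (((n : ℕ) : ℂ) ^ (k - 1) * cexp (2 * π * Complex.I * z) ^ ((b : ℕ) * (n : ℕ))) := by
    intro b
    have hb : ((((b : ℕ) : ℤ) : ZMod N)) = ((b : ℕ) : ZMod N) := by push_cast; rfl
    have h1 : ∑' d : ℤ, eisSummand k ![((b : ℕ) : ℤ), d] z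
        = ∑' d : ℤ, ((((b : ℕ) : ℂ) * (z : ℂ) + d) ^ k)⁻¹ := by
      refine tsum_congr fun d => ?_
      simp [eisSummand]
    have h2 : ∑' n : ℕ+, ((n : ℕ) : ℂ) ^ (k - 1) *
          cexp (2 * π * Complex.I * (((b : ℕ) : ℂ) * (z : ℂ))) ^ (n : ℕ)
        = ∑' n : ℕ+, ((n : ℕ) : ℂ) ^ (k - 1) *
          cexp (2 * π * Complex.I * z) ^ ((b : ℕ) * (n : ℕ)) := by
      refine tsum_congr fun n => ?_
      congr 1
      rw [← Complex.exp_nat_mul, ← Complex.exp_nat_mul]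
      congr 1
      push_cast
      ring
    rw [tsum_mul_left, tsum_mul_left, hb, h1, H b, h2]
    ring
  simp_rw [hin]
  rw [tsum_mul_left]
  congr 1
  have := eisOdd_tsum_twist (k - 1) (norm_exp_two_pi_I_lt_one z) (fun n => χ (n : ZMod N))
    (fun n => χ.norm_le_one _)
  simpa using this

/-! ## Automorphy, holomorphy, cusps -/

/-- `κ(v A)` only depends on `v` modulo `N` -/
theorem eisOddKap_vecMul_congr {v w : Fin 2 → ℤ}
    (h : ∀ i, ((v i : ℤ) : ZMod N) = ((w i : ℤ) : ZMod N)) (A : Matrix (Fin 2) (Fin 2) ℤ) :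
    eisOddKap χ (v ᵥ* A) = eisOddKap χ (w ᵥ* A) := by
  unfold eisOddKap
  congr 1
  simp only [Matrix.vecMul, dotProduct, Fin.sum_univ_two]
  push_cast
  rw [h 0, h 1]

/-- the coefficient under `Γ₀(N)` -/
theorem eisOddKap_vecMul_inv (A : SL(2, ℤ)) (hA : A ∈ Gamma0 N) (v : Fin 2 → ℤ) :
    eisOddKap χ (v ᵥ* ((A⁻¹ : SL(2, ℤ)) : Matrix (Fin 2) (Fin 2) ℤ))
      = χ ((A 1 1 : ℤ) : ZMod N) * eisOddKap χ v := by
  have hA' : ((A 1 0 : ℤ) : ZMod N) = 0 := Gamma0_mem.mp hA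
  unfold eisOddKap
  rw [← map_mul]
  congr 1
  rw [Matrix.SpecialLinearGroup.coe_inv, Matrix.adjugate_fin_two]
  simp only [Matrix.vecMul, dotProduct, Fin.sum_univ_two, Matrix.of_apply, Matrix.cons_val_zero,
    Matrix.cons_val_one]
  push_cast
  rw [hA']
  ring

/-- nebentypus: `G_χ ∣[k] γ = χ(d) G_χ` for `γ ∈ Γ₀(N)` -/
theorem eisOddFun_slash (k : ℤ) (A : SL(2, ℤ)) (hA : A ∈ Gamma0 N) :
    eisOddFun χ k ∣[k] A = χ ((A 1 1 : ℤ) : ZMod N) • eisOddFun χ k := by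
  unfold eisOddFun
  rw [eisC_slash, ← eisC_const_mul]
  congr 1
  funext v
  exact eisOddKap_vecMul_inv χ A hA v

theorem eisOddFun_mdiff {k : ℤ} (hk : 3 ≤ k) : MDiff (eisOddFun χ k) :=
  eisC_mdiff (C := 1) (norm_eisOddKap_le χ) hk

/-- every translate is bounded at `i∞` -/
theorem eisOddFun_slash_isBoundedAtImInfty [NeZero N] {k : ℤ} (hk : 3 ≤ k) (δ : SL(2, ℤ)) :
    IsBoundedAtImInfty (eisOddFun χ k ∣[k] δ) := by
  unfold eisOddFun
  rw [eisC_slash]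
  refine eisC_isBoundedAtImInfty (C := 1) (fun v => norm_eisOddKap_le χ _) hk
    (Nat.pos_of_ne_zero (NeZero.ne N)) ?_
  intro z
  have h := eis_slash_T_zpow_apply
    (eisC (fun v => eisOddKap χ (v ᵥ* ((δ⁻¹ : SL(2, ℤ)) : Matrix (Fin 2) (Fin 2) ℤ))) k) k
    (N : ℤ) z
  rw [show (((N : ℤ) : ℝ)) = (N : ℝ) by simp] at h
  rw [← h, eisC_slash]
  congr 2
  funext v
  refine eisOddKap_vecMul_congr χ (fun i => ?_) _
  rw [← _root_.zpow_neg, ModularGroup.coe_T_zpow]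
  fin_cases i <;>
    simp [Matrix.vecMul, dotProduct, Fin.sum_univ_two]

/-! ## The modular form on `Γ₁(N)` -/

theorem eisOdd_T_mem_Gamma1 (N : ℕ) : ModularGroup.T ∈ Gamma1 N := by
  rw [Gamma1_mem]
  simp [ModularGroup.T]

theorem eisOdd_one_mem_strictPeriods (N : ℕ) :
    (1 : ℝ) ∈ ((Gamma1 N : Subgroup SL(2, ℤ)) : Subgroup (GL (Fin 2) ℝ)).strictPeriods := by
  rw [Subgroup.strictPeriods_eq_zmultiples_one_of_T_mem (eisOdd_T_mem_Gamma1 N)]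
  exact AddSubgroup.mem_zmultiples 1

/-- `G_χ` as a modular form on `Γ₁(N)` -/
def eisOddForm [NeZero N] {k : ℤ} (hk : 3 ≤ k) : ModularForm (Gamma1 N) k where
  toFun := eisOddFun χ k
  slash_action_eq' := by
    rintro _ ⟨γ, hγ, rfl⟩
    change eisOddFun χ k ∣[k] γ = _
    rw [eisOddFun_slash χ k γ (Gamma1_in_Gamma0 N hγ)]
    have h1 : ((γ 1 1 : ℤ) : ZMod N) = 1 := ((Gamma1_mem N γ).mp hγ).2.1
    rw [h1, map_one, one_smul]
  holo' := eisOddFun_mdiff χ hk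
  bdd_at_cusps' := by
    intro c hc
    rw [Subgroup.IsArithmetic.isCusp_iff_isCusp_SL2Z] at hc
    rw [OnePoint.isBoundedAt_iff_forall_SL2Z hc]
    intro δ _
    exact eisOddFun_slash_isBoundedAtImInfty χ hk δ

@[simp] theorem eisOddForm_apply [NeZero N] {k : ℤ} (hk : 3 ≤ k) (z : ℍ) :
    eisOddForm χ hk z = eisOddFun χ k z := rfl

/-- the normalising constant `2 (-2πi)^k / (k-1)!` -/
def eisOddConst (k : ℕ) : ℂ := 2 * ((-2 * π * Complex.I) ^ k / (k - 1).factorial)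

theorem eisOddConst_ne_zero (k : ℕ) : eisOddConst k ≠ 0 := by
  unfold eisOddConst
  have h1 : (-2 * (π : ℂ) * Complex.I) ≠ 0 := by
    simp [Real.pi_ne_zero, Complex.I_ne_zero]
  have h2 : (((k - 1).factorial : ℕ) : ℂ) ≠ 0 := by
    exact_mod_cast (Nat.factorial_pos _).ne'
  exact mul_ne_zero two_ne_zero (div_ne_zero (pow_ne_zero _ h1) h2)

/-- the coefficients `∑_{d ∣ n} χ(d) (n/d)^{k-1}` -/
def eisOddCoeff (k : ℕ) (n : ℕ) : ℂ :=
  if n = 0 then 0 else ∑ d ∈ n.divisors, χ (d : ZMod N) * ((n / d : ℕ) : ℂ) ^ (k - 1)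

/-- the normalised form `H_χ = G_χ / (2 (-2πi)^k/(k-1)!)` -/
def eisOddNorm [NeZero N] {k : ℕ} (hk : 3 ≤ k) : ModularForm (Gamma1 N) k :=
  (eisOddConst k)⁻¹ • eisOddForm χ (k := (k : ℤ)) (by exact_mod_cast hk)

theorem eisOddNorm_apply [NeZero N] {k : ℕ} (hk : 3 ≤ k) (z : ℍ) :
    eisOddNorm χ hk z = (eisOddConst k)⁻¹ * eisOddFun χ k z := rfl

open Complex in
/-- the `q`-expansion of `H_χ` -/
theorem eisOddNorm_hasSum [NeZero N] {k : ℕ} (hk : 3 ≤ k) (hχ : χ (-1) = (-1 : ℂ) ^ k)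
    (hN : N ≠ 1) (τ : ℍ) :
    HasSum (fun n : ℕ => eisOddCoeff χ k n • Function.Periodic.qParam 1 τ ^ n)
      (eisOddNorm χ hk τ) := by
  have hq : Function.Periodic.qParam 1 (τ : ℂ) = cexp (2 * π * Complex.I * τ) := by
    simp [Function.Periodic.qParam]
  rw [eisOddNorm_apply, eisOddFun_tsum χ hk hχ hN τ, ← eisOddConst, ← mul_assoc,
    inv_mul_cancel₀ (eisOddConst_ne_zero k), one_mul, hq]
  -- summability
  have hr := norm_exp_two_pi_I_lt_one τ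
  have hsum : Summable fun e : ℕ+ =>
      (∑ d ∈ (e : ℕ).divisors, χ (d : ZMod N) * ((e / d : ℕ) : ℂ) ^ (k - 1)) *
        cexp (2 * π * Complex.I * τ) ^ (e : ℕ) := by
    have hs := eisOdd_summable_twist (k - 1) hr (fun n => χ (n : ZMod N))
      (fun n => χ.norm_le_one _)
    have hs' := sigmaAntidiagonalEquivProd.summable_iff.mpr hs
    have h3 := hs'.sigma
    refine h3.congr fun n => ?_
    rw [tsum_fintype, Finset.univ_eq_attach]
    have h1 : ∀ x : Nat.divisorsAntidiagonal n,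
        ((fun c : ℕ+ × ℕ+ => (fun n => χ (n : ZMod N)) c.1 *
          ((c.2 : ℂ) ^ (k - 1) * cexp (2 * π * Complex.I * τ) ^ (c.1 * c.2 : ℕ))) ∘
            sigmaAntidiagonalEquivProd) ⟨n, x⟩ =
        (fun y : ℕ × ℕ => χ (y.1 : ZMod N) *
          ((y.2 : ℂ) ^ (k - 1) * cexp (2 * π * Complex.I * τ) ^ (y.1 * y.2))) x.1 := by
      intro x
      simp [sigmaAntidiagonalEquivProd, divisorsAntidiagonalFactors]
    simp_rw [h1]
    rw [(n : ℕ).divisorsAntidiagonal.sum_attach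
      (fun y : ℕ × ℕ => χ (y.1 : ZMod N) *
        ((y.2 : ℂ) ^ (k - 1) * cexp (2 * π * Complex.I * τ) ^ (y.1 * y.2)))]
    rw [Nat.sum_divisorsAntidiagonal
      (fun x y => χ (x : ZMod N) * ((y : ℂ) ^ (k - 1) * cexp (2 * π * Complex.I * τ) ^ (x * y)))]
    rw [Finset.sum_mul]
    refine Finset.sum_congr rfl fun i hi => ?_
    rw [Nat.mul_div_cancel' (Nat.dvd_of_mem_divisors hi)]
    ring
  -- from `ℕ+` to `ℕ`
  have hF : HasSum (fun e : ℕ+ => eisOddCoeff χ k (e : ℕ) • cexp (2 * π * Complex.I * τ) ^ (e : ℕ))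
      (∑' e : ℕ+, (∑ d ∈ (e : ℕ).divisors, χ (d : ZMod N) * ((e / d : ℕ) : ℂ) ^ (k - 1)) *
        cexp (2 * π * Complex.I * τ) ^ (e : ℕ)) := by
    have h3 := hsum.hasSum
    refine h3.congr_fun ?_
    intro e
    simp [eisOddCoeff, e.ne_zero]
  refine (Function.Injective.hasSum_iff PNat.coe_injective ?_).mp hF
  intro x hx
  have hx0 : x = 0 := by
    by_contra h
    exact hx ⟨⟨x, Nat.pos_of_ne_zero h⟩, rfl⟩
  simp [hx0, eisOddCoeff]

/-- the `q`-coefficients of `H_χ` -/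
theorem eisOddNorm_qCoeff [NeZero N] {k : ℕ} (hk : 3 ≤ k) (hχ : χ (-1) = (-1 : ℂ) ^ k)
    (hN : N ≠ 1) (n : ℕ) :
    ModularFormClass.qCoeff (eisOddNorm χ hk) n = eisOddCoeff χ k n := by
  have := ModularFormClass.qExpansion_coeff_unique (f := eisOddNorm χ hk)
    (c := eisOddCoeff χ k) one_pos (eisOdd_one_mem_strictPeriods N)
    (fun τ => eisOddNorm_hasSum χ hk hχ hN τ) n
  exact this.symm

/-- the nebentypus of `G_χ`, pointwise -/
theorem eisOddFun_smul (k : ℤ) (γ : SL(2, ℤ)) (hγ : γ ∈ Gamma0 N) (z : ℍ) :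
    eisOddFun χ k (γ • z) = χ ((γ 1 1 : ℤ) : ZMod N) *
      ((γ 1 0 : ℂ) * (z : ℂ) + (γ 1 1 : ℂ)) ^ k * eisOddFun χ k z := by
  have h1 := congrFun (eisOddFun_slash χ k γ hγ) z
  rw [SL_slash_apply, Pi.smul_apply, smul_eq_mul] at h1
  have hd : denom γ z = (γ 1 0 : ℂ) * (z : ℂ) + (γ 1 1 : ℂ) := by
    rw [ModularGroup.denom_apply]
  rw [hd] at h1
  have hne : ((γ 1 0 : ℂ) * (z : ℂ) + (γ 1 1 : ℂ)) ^ k ≠ 0 := by
    rw [← hd]
    exact zpow_ne_zero k (denom_ne_zero γ z)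
  rw [_root_.zpow_neg] at h1
  field_simp at h1
  rw [h1]
  ring

/-- the nebentypus of `H_χ` -/
theorem eisOddNorm_smul [NeZero N] {k : ℕ} (hk : 3 ≤ k) (γ : SL(2, ℤ)) (hγ : γ ∈ Gamma0 N)
    (z : ℍ) :
    eisOddNorm χ hk (γ • z) = χ ((γ 1 1 : ℤ) : ZMod N) *
      ((γ 1 0 : ℂ) * (z : ℂ) + (γ 1 1 : ℂ)) ^ k * eisOddNorm χ hk z := by
  rw [eisOddNorm_apply, eisOddNorm_apply, eisOddFun_smul χ k γ hγ z, zpow_natCast]
  ring

/-- **EIS3.**  For `k ≥ 3` and a Dirichlet character `χ` modulo `N ≠ 1` with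
`χ(-1) = (-1)^k` there is a modular form `H` of weight `k` on `Γ₁(N)` with nebentypus `χ` on
`Γ₀(N)`, vanishing constant term and `n`-th coefficient `∑_{d ∣ n} χ(d) (n/d)^{k-1}`. -/
theorem exists_eisOdd (N : ℕ) [NeZero N] (hN : N ≠ 1) {k : ℕ} (hk : 3 ≤ k)
    (χ : DirichletCharacter ℂ N) (hχ : χ (-1) = (-1 : ℂ) ^ k) :
    ∃ H : ModularForm (Gamma1 N) k,
      (∀ γ : SL(2, ℤ), γ ∈ Gamma0 N → ∀ z : ℍ,
        H (γ • z) = χ ((γ 1 1 : ℤ) : ZMod N) *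
          ((γ 1 0 : ℂ) * (z : ℂ) + (γ 1 1 : ℂ)) ^ k * H z) ∧
      ModularFormClass.qCoeff H 0 = 0 ∧
      ∀ n : ℕ, n ≠ 0 → ModularFormClass.qCoeff H n =
        ∑ d ∈ n.divisors, χ (d : ZMod N) * ((n / d : ℕ) : ℂ) ^ (k - 1) := by
  refine ⟨eisOddNorm χ hk, fun γ hγ z => eisOddNorm_smul χ hk γ hγ z, ?_, fun n hn => ?_⟩
  · rw [eisOddNorm_qCoeff χ hk hχ hN]
    simp [eisOddCoeff]
  · rw [eisOddNorm_qCoeff χ hk hχ hN]
    simp [eisOddCoeff, hn]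

/-- the case of odd weight and odd character (`N ≠ 1` is automatic) -/
theorem exists_eisOdd_of_odd (N : ℕ) [NeZero N] {k : ℕ} (hk : 3 ≤ k) (hodd : Odd k)
    (χ : DirichletCharacter ℂ N) (hχ : χ (-1) = -1) :
    ∃ H : ModularForm (Gamma1 N) k,
      (∀ γ : SL(2, ℤ), γ ∈ Gamma0 N → ∀ z : ℍ,
        H (γ • z) = χ ((γ 1 1 : ℤ) : ZMod N) *
          ((γ 1 0 : ℂ) * (z : ℂ) + (γ 1 1 : ℂ)) ^ k * H z) ∧
      ModularFormClass.qCoeff H 0 = 0 ∧
      ∀ n : ℕ, n ≠ 0 → ModularFormClass.qCoeff H n =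
        ∑ d ∈ n.divisors, χ (d : ZMod N) * ((n / d : ℕ) : ℂ) ^ (k - 1) := by
  have hN : N ≠ 1 := by
    rintro rfl
    have h1 : (-1 : ZMod 1) = 1 := Subsingleton.elim _ _
    rw [h1, map_one] at hχ
    norm_num at hχ
  exact exists_eisOdd N hN hk χ (by rw [hχ, hodd.neg_one_pow])

end Fermat.Agent.S48
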