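import Fermat.Agent.S48.SigmaStmt
import Fermat.Agent.S48.EisOdd
import Fermat.Agent.S23.Main

/-!
# S48 / SIG: the conjugates of a weight one cusp form with nebentypus

`stmtSigmaGen : StmtSigmaGen` and `stmtSigma_of_neben : StmtNeben → StmtSigma`.

Route: `g` of weight one with nebentypus `χ`, `H = H_{χ⁻¹}` the Eisenstein series of weight three
with nebentypus `χ⁻¹` (`S48/EisOdd.lean`).  Then `g H ∈ S₄(Γ₀(N))` and `g^m ∈ S_m(Γ₀(N))`
(`m = φ(N)`), whose conjugates are cusp forms by S23 (`main_stmtSigma`).  The quotient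
`g' = (g H)^σ / H^σ` satisfies `g'^m = (g^m)^σ`, hence is holomorphic (removable singularities,
`S23/Removable.lean`) and vanishes at all cusps.
-/

set_option autoImplicit false

open CongruenceSubgroup UpperHalfPlane ModularForm Filter Topology
open Fermat.Agent.S23
open scoped MatrixGroups Manifold

noncomputable section

namespace Fermat.Agent.S48

/-! ## Generalities on forms on `Γ₁(N)` -/

/-- modular forms on `Γ₁(N)` are holomorphic, `1`-periodic and bounded at `i∞` -/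
theorem sigma_isHPB {N : ℕ} {k : ℤ} {F : Type*} [FunLike F ℍ ℂ]
    [ModularFormClass F (Gamma1 N) k] (f : F) : IsHPB (⇑f : ℍ → ℂ) := by
  have h1 := eisOdd_one_mem_strictPeriods N
  have : Fact (IsCusp OnePoint.infty
      ((Gamma1 N : Subgroup SL(2, ℤ)) : Subgroup (GL (Fin 2) ℝ))) :=
    ⟨Subgroup.isCusp_of_mem_strictPeriods one_pos h1⟩
  exact ⟨ModularFormClass.holo f, SlashInvariantFormClass.periodic_comp_ofComplex f h1,
    ModularFormClass.bdd_at_infty f⟩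

/-- every translate of a cusp form on `Γ₁(N)` vanishes at `i∞` -/
theorem sigma_slash_isZeroAtImInfty {N : ℕ} [NeZero N] {k : ℤ} (f : CuspForm (Gamma1 N) k)
    (γ : SL(2, ℤ)) : IsZeroAtImInfty ((⇑f : ℍ → ℂ) ∣[k] γ) := by
  have hc : IsCusp (Matrix.SpecialLinearGroup.mapGL ℝ γ • (OnePoint.infty : OnePoint ℝ)) 𝒮ℒ :=
    isCusp_SL2Z_iff'.mpr ⟨γ, rfl⟩
  have hc' : IsCusp (Matrix.SpecialLinearGroup.mapGL ℝ γ • (OnePoint.infty : OnePoint ℝ))
      ((Gamma1 N : Subgroup SL(2, ℤ)) : Subgroup (GL (Fin 2) ℝ)) := by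
    rw [Subgroup.IsArithmetic.isCusp_iff_isCusp_SL2Z]
    exact hc
  have h := CuspFormClass.zero_at_cusps f hc'
  rw [OnePoint.isZeroAt_iff_forall_SL2Z hc] at h
  exact h γ rfl

/-- every translate of a modular form on `Γ₁(N)` is bounded at `i∞` -/
theorem sigma_slash_isBoundedAtImInfty {N : ℕ} [NeZero N] {k : ℤ} (f : ModularForm (Gamma1 N) k)
    (γ : SL(2, ℤ)) : IsBoundedAtImInfty ((⇑f : ℍ → ℂ) ∣[k] γ) := by
  have hc : IsCusp (Matrix.SpecialLinearGroup.mapGL ℝ γ • (OnePoint.infty : OnePoint ℝ)) 𝒮ℒ :=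
    isCusp_SL2Z_iff'.mpr ⟨γ, rfl⟩
  have hc' : IsCusp (Matrix.SpecialLinearGroup.mapGL ℝ γ • (OnePoint.infty : OnePoint ℝ))
      ((Gamma1 N : Subgroup SL(2, ℤ)) : Subgroup (GL (Fin 2) ℝ)) := by
    rw [Subgroup.IsArithmetic.isCusp_iff_isCusp_SL2Z]
    exact hc
  have h := ModularFormClass.bdd_at_cusps f hc'
  rw [OnePoint.isBoundedAt_iff_forall_SL2Z hc] at h
  exact h γ rfl

/-- every translate of a cusp form on `Γ₀(N)` vanishes at `i∞` -/
theorem sigma_slash_isZeroAtImInfty_G0 {N : ℕ} [NeZero N] {k : ℤ} (f : CuspForm (G0 N) k)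
    (γ : SL(2, ℤ)) : IsZeroAtImInfty ((⇑f : ℍ → ℂ) ∣[k] γ) := by
  have hc : IsCusp (Matrix.SpecialLinearGroup.mapGL ℝ γ • (OnePoint.infty : OnePoint ℝ)) 𝒮ℒ :=
    isCusp_SL2Z_iff'.mpr ⟨γ, rfl⟩
  have hc' : IsCusp (Matrix.SpecialLinearGroup.mapGL ℝ γ • (OnePoint.infty : OnePoint ℝ))
      (G0 N) := by
    rw [show G0 N = ((Gamma0 N : Subgroup SL(2, ℤ)) : Subgroup (GL (Fin 2) ℝ)) from rfl,
      Subgroup.IsArithmetic.isCusp_iff_isCusp_SL2Z]
    exact hc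
  have h := CuspFormClass.zero_at_cusps f hc'
  rw [OnePoint.isZeroAt_iff_forall_SL2Z hc] at h
  exact h γ rfl

/-- the lower right entry of an element of `Γ₀(N)` is a unit modulo `N` -/
theorem sigma_isUnit_of_mem_Gamma0 {N : ℕ} {γ : SL(2, ℤ)} (hγ : γ ∈ Gamma0 N) :
    IsUnit (((γ 1 1 : ℤ) : ZMod N)) := by
  have hdet : (γ 0 0 * γ 1 1 - γ 0 1 * γ 1 0 : ℤ) = 1 := by
    have := γ.det_coe
    rw [Matrix.det_fin_two] at this
    exact this
  have hc : ((γ 1 0 : ℤ) : ZMod N) = 0 := (Gamma0_mem).mp hγ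
  have h1 : ((γ 0 0 : ℤ) : ZMod N) * ((γ 1 1 : ℤ) : ZMod N) = 1 := by
    have := congrArg (fun x : ℤ => (x : ZMod N)) hdet
    simp only [Int.cast_sub, Int.cast_mul, Int.cast_one, hc, mul_zero, sub_zero] at this
    exact this
  exact IsUnit.of_mul_eq_one _ (by rw [mul_comm]; exact h1)

/-- the lower right entry of an element of `Γ₁(N)` is `1` modulo `N` -/
theorem sigma_eq_one_of_mem_Gamma1 {N : ℕ} {γ : SL(2, ℤ)} (hγ : γ ∈ Gamma1 N) :
    ((γ 1 1 : ℤ) : ZMod N) = 1 := ((Gamma1_mem N γ).mp hγ).2.1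

/-- pointwise form of the invariance of a cusp form on `Γ₀(N)` -/
theorem sigma_G0_smul {N : ℕ} {k : ℤ} (f : CuspForm (G0 N) k) {γ : SL(2, ℤ)}
    (hγ : γ ∈ Gamma0 N) (z : ℍ) :
    f (γ • z) = ((γ 1 0 : ℂ) * (z : ℂ) + (γ 1 1 : ℂ)) ^ k * f z := by
  have h := SlashInvariantForm.slash_action_eqn_SL'' (Γ := Gamma0 N) (k := k) f hγ z
  rw [h, ModularGroup.denom_apply]

/-- pointwise form of the invariance of a cusp form on `Γ₁(N)` -/
theorem sigma_G1_smul {N : ℕ} {k : ℤ} (f : CuspForm (Gamma1 N) k) {γ : SL(2, ℤ)}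
    (hγ : γ ∈ Gamma1 N) (z : ℍ) :
    f (γ • z) = ((γ 1 0 : ℂ) * (z : ℂ) + (γ 1 1 : ℂ)) ^ k * f z := by
  have h := SlashInvariantForm.slash_action_eqn_SL'' (Γ := Gamma1 N) (k := k) f hγ z
  rw [h, ModularGroup.denom_apply]

/-- from the pointwise transformation law to slash invariance -/
theorem sigma_slash_eq_of_smul {k : ℤ} {F : ℍ → ℂ} {γ : SL(2, ℤ)}
    (h : ∀ z : ℍ, F (γ • z) = ((γ 1 0 : ℂ) * (z : ℂ) + (γ 1 1 : ℂ)) ^ k * F z) :
    F ∣[k] γ = F := by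
  funext z
  rw [SL_slash_apply, h z, ModularGroup.denom_apply]
  have hne : ((γ 1 0 : ℂ) * (z : ℂ) + (γ 1 1 : ℂ)) ≠ 0 := by
    rw [← ModularGroup.denom_apply]
    exact denom_ne_zero γ z
  rw [_root_.zpow_neg]
  field_simp

/-- a holomorphic function with the transformation law of weight `k` on `Γ₀(N)`, all of whose
translates vanish at `i∞`, is a cusp form on `Γ₀(N)` -/
theorem sigma_exists_cuspForm_G0 {N : ℕ} (k : ℤ) (F : ℍ → ℂ) (hF : MDiff F)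
    (hinv : ∀ γ : SL(2, ℤ), γ ∈ Gamma0 N → ∀ z : ℍ,
      F (γ • z) = ((γ 1 0 : ℂ) * (z : ℂ) + (γ 1 1 : ℂ)) ^ k * F z)
    (hz : ∀ γ : SL(2, ℤ), IsZeroAtImInfty (F ∣[k] γ)) :
    ∃ f : CuspForm (G0 N) k, (⇑f : ℍ → ℂ) = F := by
  refine ⟨{ toFun := F
            slash_action_eq' := ?_
            holo' := hF
            zero_at_cusps' := ?_ }, rfl⟩
  · intro γ hγ
    obtain ⟨γ₀, hγ₀, rfl⟩ := Subgroup.mem_map.mp hγ
    exact sigma_slash_eq_of_smul (hinv γ₀ hγ₀)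
  · intro c hc
    have hc' : IsCusp c 𝒮ℒ := hc.mono (Subgroup.map_le_range _ _)
    rw [OnePoint.isZeroAt_iff_forall_SL2Z hc']
    intro γ _
    exact hz γ

/-- a holomorphic function with the transformation law of weight `k` on `Γ₁(N)`, all of whose
translates vanish at `i∞`, is a cusp form on `Γ₁(N)` -/
theorem sigma_exists_cuspForm_G1 {N : ℕ} (k : ℤ) (F : ℍ → ℂ) (hF : MDiff F)
    (hinv : ∀ γ : SL(2, ℤ), γ ∈ Gamma1 N → ∀ z : ℍ,
      F (γ • z) = ((γ 1 0 : ℂ) * (z : ℂ) + (γ 1 1 : ℂ)) ^ k * F z)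
    (hz : ∀ γ : SL(2, ℤ), IsZeroAtImInfty (F ∣[k] γ)) :
    ∃ f : CuspForm (Gamma1 N) k, (⇑f : ℍ → ℂ) = F := by
  refine ⟨{ toFun := F
            slash_action_eq' := ?_
            holo' := hF
            zero_at_cusps' := ?_ }, rfl⟩
  · intro γ hγ
    obtain ⟨γ₀, hγ₀, rfl⟩ := Subgroup.mem_map.mp hγ
    exact sigma_slash_eq_of_smul (hinv γ₀ hγ₀)
  · intro c hc
    have hc' : IsCusp c 𝒮ℒ := hc.mono (Subgroup.map_le_range _ _)
    rw [OnePoint.isZeroAt_iff_forall_SL2Z hc']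
    intro γ _
    exact hz γ

/-- if a power of `F` tends to zero at `i∞`, so does `F` -/
theorem sigma_isZeroAtImInfty_of_pow {m : ℕ} {F : ℍ → ℂ}
    (h : IsZeroAtImInfty (fun z => F z ^ m)) : IsZeroAtImInfty F := by
  rw [IsZeroAtImInfty, ZeroAtFilter, Metric.tendsto_nhds] at h ⊢
  intro ε hε
  filter_upwards [h (ε ^ m) (pow_pos hε m)] with z hz
  rw [dist_zero_right] at hz ⊢
  rw [norm_pow] at hz
  exact lt_of_pow_lt_pow_left₀ m hε.le hz

/-- the slash of a power -/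
theorem sigma_pow_slash (m : ℕ) (F : ℍ → ℂ) (γ : SL(2, ℤ)) (z : ℍ) :
    ((fun w => F w ^ m) ∣[(m : ℤ)] γ) z = ((F ∣[(1 : ℤ)] γ) z) ^ m := by
  rw [SL_slash_apply, SL_slash_apply, mul_pow, ← zpow_natCast (denom γ z ^ (-1 : ℤ)) m,
    ← zpow_mul]
  congr 2
  ring

/-! ## The core: division by the Eisenstein series -/

/-- **Core of SIG.**  Let `G'` be a cusp form of weight four on `Γ₀(N)`, `H' ≠ 0` a modular form
of weight three on `Γ₁(N)` with nebentypus `ψ'`, `P` a cusp form of weight `m ≥ 1` on `Γ₀(N)` with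
`G'^m = P H'^m`.  Then `G' / H'` is a cusp form of weight one on `Γ₁(N)` with nebentypus `ψ`,
for every `ψ` with `ψ ψ' = 1` on units. -/
theorem sigma_core {N : ℕ} [NeZero N] {m : ℕ} (hm : 1 ≤ m) (ψ ψ' : DirichletCharacter ℂ N)
    (hψ : ∀ a : ZMod N, IsUnit a → ψ a * ψ' a = 1)
    (G' : CuspForm (G0 N) 4) (P : CuspForm (G0 N) m) (H' : ModularForm (Gamma1 N) 3)
    (hH' : ∀ γ : SL(2, ℤ), γ ∈ Gamma0 N → ∀ z : ℍ,
      H' (γ • z) = ψ' ((γ 1 1 : ℤ) : ZMod N) *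
        ((γ 1 0 : ℂ) * (z : ℂ) + (γ 1 1 : ℂ)) ^ 3 * H' z)
    (hH0 : (⇑H' : ℍ → ℂ) ≠ 0)
    (hrel : ∀ z, G' z ^ m = P z * H' z ^ m) :
    ∃ g' : CuspForm (Gamma1 N) 1, HasNeben N ψ g' ∧ ∀ z, g' z * H' z = G' z := by
  classical
  -- the holomorphic quotient
  set a : ℕ → ℍ → ℂ := fun j => if j = m then fun z => - P z else 0 with ha
  have hmd : ∀ j, j < m → MDiff (a (j + 1)) := by
    intro j _
    by_cases hj : j + 1 = m
    · simp only [ha, hj, if_true]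
      exact (CuspFormClass.holo P).neg
    · simp only [ha, hj, if_false]
      exact mdifferentiable_const
  have hsum : ∀ (X Y : ℂ) (z : ℍ),
      ∑ j ∈ Finset.range m, a (j + 1) z * X ^ (m - (j + 1)) * Y ^ (j + 1) = - P z * Y ^ m := by
    intro X Y z
    rw [Finset.sum_eq_single (m - 1)]
    · have h1 : m - 1 + 1 = m := by omega
      simp [ha, h1]
    · intro j _ hj
      have h1 : j + 1 ≠ m := by omega
      simp [ha, h1]
    · intro h
      exact absurd (Finset.mem_range.mpr (by omega)) h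
  obtain ⟨f, hfd, hfmul, hfeq⟩ := rem_exists_mdiff_quotient (n := m) (⇑G') (⇑H') a
    (CuspFormClass.holo G') (ModularFormClass.holo H') hmd hH0 (by
      intro z
      rw [hsum, hrel z]
      ring)
  have hfm : ∀ z, f z ^ m = P z := by
    intro z
    have h1 := hfeq z
    have h2 := hsum (f z) 1 z
    simp only [one_pow, mul_one] at h2
    rw [h2] at h1
    linear_combination h1
  -- nebentypus
  have hneb : ∀ γ : SL(2, ℤ), γ ∈ Gamma0 N → ∀ z : ℍ,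
      f (γ • z) = ψ ((γ 1 1 : ℤ) : ZMod N) * ((γ 1 0 : ℂ) * (z : ℂ) + (γ 1 1 : ℂ)) * f z := by
    intro γ hγ
    have hu := sigma_isUnit_of_mem_Gamma0 hγ
    have hc : Continuous ((f ∣[(1 : ℤ)] γ) - ψ ((γ 1 1 : ℤ) : ZMod N) • f) := by
      have h1 : MDiff (f ∣[(1 : ℤ)] γ) := hfd.slash 1 _
      exact h1.continuous.sub (hfd.continuous.const_smul _)
    have hden : ∀ z : ℍ, denom γ z = (γ 1 0 : ℂ) * (z : ℂ) + (γ 1 1 : ℂ) := fun z => by
      rw [ModularGroup.denom_apply]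
    have hmul : ∀ z : ℍ, ((f ∣[(1 : ℤ)] γ) - ψ ((γ 1 1 : ℤ) : ZMod N) • f) z * H' z = 0 := by
      intro z
      have hne : ((γ 1 0 : ℂ) * (z : ℂ) + (γ 1 1 : ℂ)) ≠ 0 := by
        rw [← hden]
        exact denom_ne_zero γ z
      have e1 := hfmul (γ • z)
      rw [hH' γ hγ z, sigma_G0_smul G' hγ z, ← hfmul z] at e1
      have e2 := hψ _ hu
      have e4 : ((γ 1 0 : ℂ) * (z : ℂ) + (γ 1 1 : ℂ)) ^ (4 : ℤ) =
          ((γ 1 0 : ℂ) * (z : ℂ) + (γ 1 1 : ℂ)) ^ 4 := by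
        norm_cast
      rw [e4] at e1
      rw [Pi.sub_apply, Pi.smul_apply, smul_eq_mul, SL_slash_apply, hden, _root_.zpow_neg,
        zpow_one]
      have e3 : ((γ 1 0 : ℂ) * (z : ℂ) + (γ 1 1 : ℂ)) ^ 4 *
          ((f (γ • z) * ((γ 1 0 : ℂ) * (z : ℂ) + (γ 1 1 : ℂ))⁻¹ -
            ψ ((γ 1 1 : ℤ) : ZMod N) * f z) * H' z) = 0 := by
        have e5 : ((γ 1 0 : ℂ) * (z : ℂ) + (γ 1 1 : ℂ)) *
            ((γ 1 0 : ℂ) * (z : ℂ) + (γ 1 1 : ℂ))⁻¹ = 1 := mul_inv_cancel₀ hne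
        linear_combination (ψ ((γ 1 1 : ℤ) : ZMod N)) * e1 +
          (- f (γ • z) * ((γ 1 0 : ℂ) * (z : ℂ) + (γ 1 1 : ℂ)) ^ 3 * H' z) * e2 +
          (f (γ • z) * ((γ 1 0 : ℂ) * (z : ℂ) + (γ 1 1 : ℂ)) ^ 3 * H' z) * e5
      exact (mul_eq_zero.mp e3).resolve_left (pow_ne_zero 4 hne)
    have h0 := rem_eq_zero_of_mul_eq_zero (ModularFormClass.holo H') hH0 hc hmul
    intro z
    have hne : ((γ 1 0 : ℂ) * (z : ℂ) + (γ 1 1 : ℂ)) ≠ 0 := by
      rw [← hden]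
      exact denom_ne_zero γ z
    have := congrFun h0 z
    rw [Pi.sub_apply, Pi.smul_apply, smul_eq_mul, SL_slash_apply, hden, _root_.zpow_neg,
      zpow_one, Pi.zero_apply] at this
    field_simp at this
    linear_combination this
  -- the cusp form
  obtain ⟨g', hg'⟩ := sigma_exists_cuspForm_G1 (N := N) 1 f hfd (by
      intro γ hγ z
      rw [hneb γ (Gamma1_in_Gamma0 N hγ) z, sigma_eq_one_of_mem_Gamma1 hγ, map_one, one_mul,
        zpow_one]) (by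
      intro γ
      apply sigma_isZeroAtImInfty_of_pow (m := m)
      have hP : (⇑P : ℍ → ℂ) = fun w => f w ^ m := funext fun w => (hfm w).symm
      have h1 : (fun z => ((f ∣[(1 : ℤ)] γ) z) ^ m) = (⇑P : ℍ → ℂ) ∣[(m : ℤ)] γ := by
        rw [hP]
        funext z
        exact (sigma_pow_slash m f γ z).symm
      rw [h1]
      exact sigma_slash_isZeroAtImInfty_G0 P γ)
  refine ⟨g', ?_, ?_⟩
  · intro γ hγ z
    have : ∀ w, g' w = f w := fun w => congrFun hg' w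
    rw [this, this]
    exact hneb γ hγ z
  · intro z
    have : g' z = f z := congrFun hg' z
    rw [this]
    exact hfmul z

/-! ## `q`-expansions in the ring `HPB` -/

/-- cusp forms on `Γ₀(N)` are holomorphic, `1`-periodic and bounded at `i∞` -/
theorem sigma_isHPB_G0 {N : ℕ} [NeZero N] {k : ℤ} (f : CuspForm (G0 N) k) :
    IsHPB (⇑f : ℍ → ℂ) :=
  (IsCF.isMF (Γ := G0 N) (κ := k) ⟨f, rfl⟩).isHPB

theorem sigma_isHPB_pow {f : ℍ → ℂ} (hf : IsHPB f) (m : ℕ) : IsHPB (f ^ m) :=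
  pow_mem (S := HPB) hf m

theorem sigma_qExpansion_mul {f g : ℍ → ℂ} (hf : IsHPB f) (hg : IsHPB g) :
    qExpansion 1 (f * g) = qExpansion 1 f * qExpansion 1 g :=
  UpperHalfPlane.qExpansion_mul hf.analyticAt hg.analyticAt

theorem sigma_qExpansion_pow {f : ℍ → ℂ} (hf : IsHPB f) (m : ℕ) :
    qExpansion 1 (f ^ m) = qExpansion 1 f ^ m := by
  induction m with
  | zero => simpa using UpperHalfPlane.qExpansion_one 1
  | succ n ih => rw [pow_succ, pow_succ, sigma_qExpansion_mul (sigma_isHPB_pow hf n) hf, ih]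

theorem sigma_eq_of_qExpansion_eq {f g : ℍ → ℂ} (hf : IsHPB f) (hg : IsHPB g)
    (h : qExpansion 1 f = qExpansion 1 g) : f = g := by
  have := qExpHom_injective (a₁ := (⟨f, hf⟩ : HPB)) (a₂ := ⟨g, hg⟩) h
  exact congrArg Subtype.val this

/-! ## The products `g H` and `g ^ m` -/

/-- a nonzero form with nebentypus `χ` has `χ(-1) = -1` -/
theorem sigma_neg_one {N : ℕ} [NeZero N] {χ : DirichletCharacter ℂ N}
    {g : CuspForm (Gamma1 N) 1} (hg : HasNeben N χ g) (h0 : (⇑g : ℍ → ℂ) ≠ 0) :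
    χ (-1) = -1 := by
  obtain ⟨z, hz⟩ : ∃ z, g z ≠ 0 := by
    by_contra h
    push Not at h
    exact h0 (funext h)
  have hmem : (-1 : SL(2, ℤ)) ∈ Gamma0 N := by
    rw [Gamma0_mem]
    simp
  have h1 := hg (-1) hmem z
  rw [ModularGroup.SL_neg_smul, one_smul] at h1
  have h2 : ((((-1 : SL(2, ℤ)) 1 1 : ℤ)) : ZMod N) = -1 := by simp
  have h3 : ((((-1 : SL(2, ℤ)) 1 1 : ℤ)) : ℂ) = -1 := by simp
  have h4 : ((((-1 : SL(2, ℤ)) 1 0 : ℤ)) : ℂ) = 0 := by simp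
  rw [h2, h3, h4] at h1
  have h5 : (χ (-1) + 1) * g z = 0 := by linear_combination h1
  have h6 := (mul_eq_zero.mp h5).resolve_right hz
  linear_combination h6

/-- `g H ∈ S₄(Γ₀(N))` -/
theorem sigma_exists_mul {N : ℕ} [NeZero N] (χ χ' : DirichletCharacter ℂ N)
    (hχ : ∀ a : ZMod N, IsUnit a → χ a * χ' a = 1)
    (g : CuspForm (Gamma1 N) 1) (hg : HasNeben N χ g) (H : ModularForm (Gamma1 N) 3)
    (hH : ∀ γ : SL(2, ℤ), γ ∈ Gamma0 N → ∀ z : ℍ,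
      H (γ • z) = χ' ((γ 1 1 : ℤ) : ZMod N) *
        ((γ 1 0 : ℂ) * (z : ℂ) + (γ 1 1 : ℂ)) ^ 3 * H z) :
    ∃ G : CuspForm (G0 N) 4, (⇑G : ℍ → ℂ) = ⇑g * ⇑H := by
  apply sigma_exists_cuspForm_G0 (N := N) 4 (⇑g * ⇑H)
    ((CuspFormClass.holo g).mul (ModularFormClass.holo H))
  · intro γ hγ z
    have e := hχ _ (sigma_isUnit_of_mem_Gamma0 hγ)
    rw [Pi.mul_apply, Pi.mul_apply, hg γ hγ z, hH γ hγ z]
    have e4 : ((γ 1 0 : ℂ) * (z : ℂ) + (γ 1 1 : ℂ)) ^ (4 : ℤ) =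
        ((γ 1 0 : ℂ) * (z : ℂ) + (γ 1 1 : ℂ)) ^ 4 := by
      norm_cast
    rw [e4]
    linear_combination (((γ 1 0 : ℂ) * (z : ℂ) + (γ 1 1 : ℂ)) ^ 4 * g z * H z) * e
  · intro γ
    have h1 : ((⇑g * ⇑H : ℍ → ℂ) ∣[(4 : ℤ)] γ) =
        ((⇑g : ℍ → ℂ) ∣[(1 : ℤ)] γ) * ((⇑H : ℍ → ℂ) ∣[(3 : ℤ)] γ) := by
      rw [← mul_slash_SL2]
      norm_num
    rw [h1]
    exact (sigma_slash_isZeroAtImInfty g γ).mul_boundedAtFilter
      (sigma_slash_isBoundedAtImInfty H γ)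

/-- `g ^ m ∈ S_m(Γ₀(N))` if `χ ^ m = 1` -/
theorem sigma_exists_pow {N : ℕ} [NeZero N] (χ : DirichletCharacter ℂ N) {m : ℕ} (hm : 1 ≤ m)
    (hχm : ∀ a : ZMod N, IsUnit a → χ a ^ m = 1)
    (g : CuspForm (Gamma1 N) 1) (hg : HasNeben N χ g) :
    ∃ P : CuspForm (G0 N) m, (⇑P : ℍ → ℂ) = (⇑g : ℍ → ℂ) ^ m := by
  apply sigma_exists_cuspForm_G0 (N := N) m ((⇑g : ℍ → ℂ) ^ m)
    ((CuspFormClass.holo g).pow m)
  · intro γ hγ z
    have e := hχm _ (sigma_isUnit_of_mem_Gamma0 hγ)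
    rw [Pi.pow_apply, Pi.pow_apply, hg γ hγ z, mul_pow, mul_pow, e, one_mul, zpow_natCast]
  · intro γ
    have h1 : (((⇑g : ℍ → ℂ) ^ m) ∣[(m : ℤ)] γ) =
        fun z => (((⇑g : ℍ → ℂ) ∣[(1 : ℤ)] γ) z) ^ m := by
      funext z
      exact sigma_pow_slash m (⇑g) γ z
    rw [h1]
    have h2 := (sigma_slash_isZeroAtImInfty g γ)
    rw [IsZeroAtImInfty, ZeroAtFilter] at h2 ⊢
    have h3 := h2.pow m
    rwa [zero_pow (by omega)] at h3

/-! ## The theorem -/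

/-- the `q`-expansion of the Eisenstein series of the conjugate character -/
theorem sigma_qExpansion_eis {N : ℕ} [NeZero N] (χ' : DirichletCharacter ℂ N) (σ : ℂ →+* ℂ)
    (H H' : ModularForm (Gamma1 N) 3)
    (hH0 : ModularFormClass.qCoeff H 0 = 0)
    (hHn : ∀ n : ℕ, n ≠ 0 → ModularFormClass.qCoeff H n =
      ∑ d ∈ n.divisors, χ' (d : ZMod N) * ((n / d : ℕ) : ℂ) ^ (3 - 1))
    (hH'0 : ModularFormClass.qCoeff H' 0 = 0)
    (hH'n : ∀ n : ℕ, n ≠ 0 → ModularFormClass.qCoeff H' n =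
      ∑ d ∈ n.divisors, (χ'.ringHomComp σ) (d : ZMod N) * ((n / d : ℕ) : ℂ) ^ (3 - 1)) :
    qExpansion 1 (⇑H' : ℍ → ℂ) = PowerSeries.map σ (qExpansion 1 (⇑H : ℍ → ℂ)) := by
  ext n
  rw [PowerSeries.coeff_map]
  change ModularFormClass.qCoeff H' n = σ (ModularFormClass.qCoeff H n)
  rcases Nat.eq_zero_or_pos n with rfl | hn
  · rw [hH0, hH'0, map_zero]
  · rw [hHn n hn.ne', hH'n n hn.ne', map_sum]
    refine Finset.sum_congr rfl fun d _ => ?_
    rw [map_mul, map_pow, MulChar.ringHomComp_apply, map_natCast σ]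

/-- **SIG, general form.**  The conjugates of a weight one cusp form on `Γ₁(N)` with nebentypus
`χ` are weight one cusp forms with nebentypus `σ ∘ χ`. -/
theorem stmtSigmaGen : StmtSigmaGen := by
  intro N _ χ g hg σ
  by_cases h0 : (⇑g : ℍ → ℂ) = 0
  · refine ⟨0, ?_, ?_⟩
    · intro γ _ z
      simp
    · intro n
      have h1 : ModularFormClass.qCoeff (⇑(0 : CuspForm (Gamma1 N) 1)) n = 0 := by
        change (qExpansion 1 (0 : ℍ → ℂ)).coeff n = 0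
        rw [UpperHalfPlane.qExpansion_zero]
        simp
      have h2 : ModularFormClass.qCoeff (⇑g) n = 0 := by
        rw [h0]
        change (qExpansion 1 (0 : ℍ → ℂ)).coeff n = 0
        rw [UpperHalfPlane.qExpansion_zero]
        simp
      rw [h1, h2, map_zero]
  · -- the characters
    have hχ1 : χ (-1) = -1 := sigma_neg_one hg h0
    have hne : ∀ a : ZMod N, IsUnit a → χ a ≠ 0 := fun a ha => (ha.map χ).ne_zero
    have hinv : ∀ a : ZMod N, IsUnit a → χ a * χ⁻¹ a = 1 := by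
      intro a ha
      rw [MulChar.inv_apply_eq_inv', mul_inv_cancel₀ (hne a ha)]
    have hψ : ∀ a : ZMod N, IsUnit a → (χ.ringHomComp σ) a * (χ⁻¹.ringHomComp σ) a = 1 := by
      intro a ha
      rw [MulChar.ringHomComp_apply, MulChar.ringHomComp_apply, ← map_mul, hinv a ha, map_one]
    have hχ'1 : χ⁻¹ (-1) = -1 := by
      rw [MulChar.inv_apply_eq_inv', hχ1]
      norm_num
    have hψ'1 : (χ⁻¹.ringHomComp σ) (-1) = -1 := by
      rw [MulChar.ringHomComp_apply, hχ'1, map_neg, map_one]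
    -- the Eisenstein series
    obtain ⟨H, hHneb, hH0, hHn⟩ :=
      exists_eisOdd_of_odd N (k := 3) le_rfl (by decide) χ⁻¹ hχ'1
    obtain ⟨H', hH'neb, hH'0, hH'n⟩ :=
      exists_eisOdd_of_odd N (k := 3) le_rfl (by decide) (χ⁻¹.ringHomComp σ) hψ'1
    have hqH : qExpansion 1 (⇑H' : ℍ → ℂ) = PowerSeries.map σ (qExpansion 1 (⇑H : ℍ → ℂ)) :=
      sigma_qExpansion_eis χ⁻¹ σ H H' hH0 hHn hH'0 hH'n
    have hqH'1 : (qExpansion 1 (⇑H' : ℍ → ℂ)).coeff 1 = 1 := by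
      change ModularFormClass.qCoeff H' 1 = 1
      rw [hH'n 1 one_ne_zero]
      simp
    have hqH'ne : qExpansion 1 (⇑H' : ℍ → ℂ) ≠ 0 := by
      intro h
      rw [h] at hqH'1
      simp at hqH'1
    have hH'ne : (⇑H' : ℍ → ℂ) ≠ 0 := by
      intro h
      apply hqH'ne
      rw [h]
      exact UpperHalfPlane.qExpansion_zero 1
    -- the auxiliary cusp forms on `Γ₀(N)`
    set m : ℕ := Nat.totient N with hm
    have hm1 : 1 ≤ m := Nat.totient_pos.mpr (Nat.pos_of_ne_zero (NeZero.ne N))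
    have hχm : ∀ a : ZMod N, IsUnit a → χ a ^ m = 1 := by
      rintro _ ⟨u, rfl⟩
      rw [← map_pow, ← Units.val_pow_eq_pow_val, ZMod.pow_totient, Units.val_one, map_one]
    obtain ⟨G, hG⟩ := sigma_exists_mul χ χ⁻¹ hinv g hg H (by
      intro γ hγ z
      have := hHneb γ hγ z
      simpa using this)
    obtain ⟨Gm, hGm⟩ := sigma_exists_pow χ hm1 hχm g hg
    obtain ⟨G', hG'⟩ := main_stmtSigma N 4 σ G
    obtain ⟨P, hP⟩ := main_stmtSigma N (m : ℤ) σ Gm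
    -- `q`-expansions
    have bg : IsHPB (⇑g : ℍ → ℂ) := sigma_isHPB g
    have bH : IsHPB (⇑H : ℍ → ℂ) := sigma_isHPB H
    have bH' : IsHPB (⇑H' : ℍ → ℂ) := sigma_isHPB H'
    have bG' : IsHPB (⇑G' : ℍ → ℂ) := sigma_isHPB_G0 G'
    have bP : IsHPB (⇑P : ℍ → ℂ) := sigma_isHPB_G0 P
    have hqG : qExpansion 1 (⇑G : ℍ → ℂ) = qExpansion 1 (⇑g : ℍ → ℂ) * qExpansion 1 (⇑H : ℍ → ℂ) := by
      rw [hG, sigma_qExpansion_mul bg bH]
    have hqGm : qExpansion 1 (⇑Gm : ℍ → ℂ) = qExpansion 1 (⇑g : ℍ → ℂ) ^ m := by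
      rw [hGm, sigma_qExpansion_pow bg]
    have hrelF : (⇑G' : ℍ → ℂ) ^ m = (⇑P : ℍ → ℂ) * (⇑H' : ℍ → ℂ) ^ m := by
      apply sigma_eq_of_qExpansion_eq (sigma_isHPB_pow bG' m) (bP.mul (sigma_isHPB_pow bH' m))
      rw [sigma_qExpansion_pow bG', sigma_qExpansion_mul bP (sigma_isHPB_pow bH' m),
        sigma_qExpansion_pow bH', hG', hP, hqH, hqG, hqGm, map_mul, map_pow, mul_pow]
    have hrel : ∀ z, G' z ^ m = P z * H' z ^ m := fun z => congrFun hrelF z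
    -- the quotient
    obtain ⟨g', hg'neb, hg'mul⟩ := sigma_core hm1 (χ.ringHomComp σ) (χ⁻¹.ringHomComp σ) hψ
      G' P H' (by
        intro γ hγ z
        have := hH'neb γ hγ z
        simpa using this) hH'ne hrel
    refine ⟨g', hg'neb, ?_⟩
    have bg' : IsHPB (⇑g' : ℍ → ℂ) := sigma_isHPB g'
    have hmulF : (⇑g' : ℍ → ℂ) * (⇑H' : ℍ → ℂ) = (⇑G' : ℍ → ℂ) := funext hg'mul
    have hq : qExpansion 1 (⇑g' : ℍ → ℂ) * qExpansion 1 (⇑H' : ℍ → ℂ) =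
        PowerSeries.map σ (qExpansion 1 (⇑g : ℍ → ℂ)) * qExpansion 1 (⇑H' : ℍ → ℂ) := by
      rw [← sigma_qExpansion_mul bg' bH', hmulF, hG', hqG, map_mul, hqH]
    have hq' : qExpansion 1 (⇑g' : ℍ → ℂ) = PowerSeries.map σ (qExpansion 1 (⇑g : ℍ → ℂ)) :=
      mul_right_cancel₀ hqH'ne hq
    intro n
    change (qExpansion 1 (⇑g' : ℍ → ℂ)).coeff n = σ ((qExpansion 1 (⇑g : ℍ → ℂ)).coeff n)
    rw [hq', PowerSeries.coeff_map]

/-- **SIG.**  The conjugates of a Hecke eigenform of weight one are cusp forms. -/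
theorem stmtSigma_of_neben (hN : StmtNeben) : StmtSigma := by
  intro N _ ε f hf σ
  obtain ⟨g', -, hq⟩ := stmtSigmaGen N ε f (hN N ε f hf) σ
  exact ⟨g', hq⟩

end Fermat.Agent.S48
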