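import Mathlib
import Fermat.Agent.S48.Bound
import Fermat.Agent.S48.Exact
import Fermat.Agent.S48.Irred
import Fermat.Agent.S48.TraceBound
import Fermat.Agent.S48.LiftStmt
import Fermat.Agent.S48.Neben
import Fermat.Agent.S48.Sigma
import Fermat.Agent.S48.Int
import Fermat.Agent.S48.Density
import Fermat.Agent.Cheb.Final
import Fermat.Agent.Common.FrobExists

/-!
# S48 (Deligne–Serre) reduced to its two remaining inputs

`s48_of_res_cd : StmtRes → StmtChebDensity → (the statement of S48)`.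

Everything else is proved and plugged in here: Rankin's estimate (R1–R3), the nebentypus (N), the
conjugates (SIG), integrality (INT), the density statement (DENS), the Burnside trace bound (GT'),
lifting to characteristic zero (LIFT), irreducibility (IRR), weak Chebotarev and the existence of
Frobenius elements.

* `StmtRes` = the residual representations (weight one Eisenstein series + lifting lemma +
  Eichler–Shimura for `Γ₁(N ℓ)`), see `Plan2.lean`;
* `StmtChebDensity` = Chebotarev's density theorem (lower density), see `CD/Plan.lean`.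
-/

set_option autoImplicit false

open CongruenceSubgroup

namespace Fermat.Agent.S48

theorem stmtWeakCheb : StmtWeakCheb :=
  fun F _ _ S σ => Fermat.Agent.Cheb.exists_frobenius_pow_eq F S σ

theorem stmtFrobExists : StmtFrobExists :=
  fun p hp => Fermat.Agent.Common.exists_isFrobeniusAt p hp

theorem stmtSigma : StmtSigma := stmtSigma_of_neben stmtNeben

theorem stmtInt : StmtInt := stmtInt_of_neben stmtNeben

theorem stmtDensity : StmtDensity := stmtDensity_of stmtSigma stmtInt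

/-- the complex representation attached to `f`, from `StmtRes` and `StmtChebDensity` -/
theorem exists_exactLift_all (hRes : StmtRes) (hCD : StmtChebDensity)
    (N : ℕ) [NeZero N] (ε : DirichletCharacter ℂ N) (f : CuspForm (Gamma1 N) 1)
    (hf : IsHeckeEigen N ε f) :
    ∃ (n : ℕ) (ρ : GalQ →* GL (Fin 2) ℂ), 0 < n ∧ IsExactLift N ε f N n ρ := by
  obtain ⟨B, hB⟩ := exists_bound stmtDensity hCD stmtTraceSpan stmtTraceDiag stmtSemi
    stmtWeakCheb stmtFrobExists N ε f hf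
  obtain ⟨ℓ₀, hℓ₀⟩ := hRes N ε f hf
  have hlift : ∀ ℓ : ℕ, ℓ.Prime → max ℓ₀ (B + 1) ≤ ℓ → ∀ 𝔪 : Ideal Zb, 𝔪.IsMaximal →
      ((ℓ : ℕ) : Zb) ∈ 𝔪 → ∃ ρ : GalQ →* GL (Fin 2) ℂ, IsApproxLift N ε f ℓ 𝔪 B.factorial ρ := by
    intro ℓ hℓ hge 𝔪 h𝔪 hℓ𝔪
    have h1 : ℓ₀ ≤ ℓ := le_trans (le_max_left _ _) hge
    have h2 : B < ℓ := by
      have := le_trans (le_max_right _ _) hge
      omega
    obtain ⟨ρ, hρ⟩ := hℓ₀ ℓ hℓ h1 𝔪 h𝔪 hℓ𝔪
    have hρ' : IsResidualRep N ε f ℓ 𝔪 ρ := hρ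
    obtain ⟨ρ', hker, htd, hcard⟩ := hB ℓ hℓ 𝔪 h𝔪 hℓ𝔪 ρ hρ'
    exact approxLift_of_residual stmtLift hℓ h𝔪 hℓ𝔪 hρ' hker htd hcard h2
  obtain ⟨L, hL⟩ := exists_exactLift stmtFrobExists (Nat.factorial_pos B) hlift
  obtain ⟨ℓ₁, hℓ₁ge, hℓ₁⟩ := Nat.exists_infinite_primes L
  obtain ⟨ℓ₂, hℓ₂ge, hℓ₂⟩ := Nat.exists_infinite_primes (max L (ℓ₁ + 1))
  have hne : ℓ₁ ≠ ℓ₂ := by
    have := le_trans (le_max_right _ _) hℓ₂ge
    omega
  obtain ⟨ρ₁, hρ₁⟩ := hL ℓ₁ hℓ₁ hℓ₁ge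
  obtain ⟨ρ₂, hρ₂⟩ := hL ℓ₂ hℓ₂ (le_trans (le_max_left _ _) hℓ₂ge)
  exact ⟨B.factorial, ρ₁, Nat.factorial_pos B,
    exactLift_glue stmtWeakCheb (Nat.factorial_pos B) hℓ₁ hℓ₂ hne hρ₁ hρ₂⟩

/-- **S48 from the residual representations and Chebotarev's density theorem.** -/
theorem s48_of_res_cd (hRes : StmtRes) (hCD : StmtChebDensity)
    (N : ℕ) [NeZero N] (ε : DirichletCharacter ℂ N) (f : CuspForm (Gamma1 N) 1)
    (hf₁ : ModularFormClass.qCoeff f 1 = 1)
    (hT : ∀ p : ℕ, p.Prime → ¬ p ∣ N → ∀ n : ℕ,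
        ModularFormClass.qCoeff f (p * n) +
            ε (p : ZMod N) * (if p ∣ n then ModularFormClass.qCoeff f (n / p) else 0) =
          ModularFormClass.qCoeff f p * ModularFormClass.qCoeff f n) :
    ∃ ρ : GalQ →* GL (Fin 2) ℂ, GaloisFactorsThroughFiniteLevel ρ ∧
      (Deformation.matrixRepresentation ρ).IsIrreducible ∧
      ∀ p : ℕ, p.Prime → ¬ p ∣ N →
        ∀ A : ValuationSubring (AlgebraicClosure ℚ), A.LiesOverPrime p →
          (∀ σ ∈ A.inertiaSubgroupIn ℚ, ρ σ = 1) ∧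
          ∀ σ : GalQ, A.IsFrobeniusAt σ p →
            ((ρ σ : GL (Fin 2) ℂ) : Matrix (Fin 2) (Fin 2) ℂ).trace = ModularFormClass.qCoeff f p ∧
            ((ρ σ : GL (Fin 2) ℂ) : Matrix (Fin 2) (Fin 2) ℂ).det = ε (p : ZMod N) := by
  have hf : IsHeckeEigen N ε f := ⟨hf₁, hT⟩
  obtain ⟨n, ρ, -, hlev, -, hρ⟩ := exists_exactLift_all hRes hCD N ε f hf
  refine ⟨ρ, ?_, ?_, hρ⟩
  · obtain ⟨F, hFfin, -, hF⟩ := hlev
    exact ⟨F, hFfin, hF⟩
  · exact stmtIrred hCD stmtFrobExists N ε f hf ρ hlev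
      fun p hp hpN A hA τ hτ => ((hρ p hp hpN A hA).2 τ hτ).1

end Fermat.Agent.S48
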