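import Mathlib
import Fermat.Agent.S48.Plan2
import Fermat.Agent.S48.Sigma

/-!
# S48 / RES glue, part 1: the product `D · h · E`

`h` a cusp form of weight one on `Γ₁(N)` with nebentypus `ε`, `E` a modular form of weight one on
`Γ₁(ℓ)` with nebentypus `ψ`: then `D · h · E` is a cusp form of weight two on `Γ₁(N ℓ)` with
nebentypus `ε ψ`, and its `q`-expansion is the product of the `q`-expansions.
-/

set_option autoImplicit false

open CongruenceSubgroup UpperHalfPlane ModularForm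
open Fermat.Agent.S23
open scoped MatrixGroups Manifold

namespace Fermat.Agent.S48

theorem resProd_mem_Gamma0_left {N ℓ : ℕ} {γ : SL(2, ℤ)} (h : γ ∈ Gamma0 (N * ℓ)) :
    γ ∈ Gamma0 N := by
  rw [Gamma0_mem] at h ⊢
  have := congrArg (ZMod.castHom (dvd_mul_right N ℓ) (ZMod N)) h
  simpa using this

theorem resProd_mem_Gamma0_right {N ℓ : ℕ} {γ : SL(2, ℤ)} (h : γ ∈ Gamma0 (N * ℓ)) :
    γ ∈ Gamma0 ℓ := by
  rw [Gamma0_mem] at h ⊢
  have := congrArg (ZMod.castHom (dvd_mul_left ℓ N) (ZMod ℓ)) h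
  simpa using this

theorem resProd_mem_Gamma1_left {N ℓ : ℕ} {γ : SL(2, ℤ)} (h : γ ∈ Gamma1 (N * ℓ)) :
    γ ∈ Gamma1 N := by
  rw [Gamma1_mem] at h ⊢
  obtain ⟨h1, h2, h3⟩ := h
  have e1 := congrArg (ZMod.castHom (dvd_mul_right N ℓ) (ZMod N)) h1
  have e2 := congrArg (ZMod.castHom (dvd_mul_right N ℓ) (ZMod N)) h2
  have e3 := congrArg (ZMod.castHom (dvd_mul_right N ℓ) (ZMod N)) h3
  exact ⟨by simpa using e1, by simpa using e2, by simpa using e3⟩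

theorem resProd_mem_Gamma1_right {N ℓ : ℕ} {γ : SL(2, ℤ)} (h : γ ∈ Gamma1 (N * ℓ)) :
    γ ∈ Gamma1 ℓ := by
  rw [Gamma1_mem] at h ⊢
  obtain ⟨h1, h2, h3⟩ := h
  have e1 := congrArg (ZMod.castHom (dvd_mul_left ℓ N) (ZMod ℓ)) h1
  have e2 := congrArg (ZMod.castHom (dvd_mul_left ℓ N) (ZMod ℓ)) h2
  have e3 := congrArg (ZMod.castHom (dvd_mul_left ℓ N) (ZMod ℓ)) h3
  exact ⟨by simpa using e1, by simpa using e2, by simpa using e3⟩

/-- the product character `ε ψ` modulo `N ℓ` -/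
noncomputable def prodChar {N ℓ : ℕ} (ε : DirichletCharacter ℂ N) (ψ : DirichletCharacter ℂ ℓ) :
    DirichletCharacter ℂ (N * ℓ) :=
  DirichletCharacter.changeLevel (dvd_mul_right N ℓ) ε *
    DirichletCharacter.changeLevel (dvd_mul_left ℓ N) ψ

theorem prodChar_intCast {N ℓ : ℕ} (ε : DirichletCharacter ℂ N) (ψ : DirichletCharacter ℂ ℓ)
    {d : ℤ} (hd : IsUnit ((d : ℤ) : ZMod (N * ℓ))) :
    prodChar ε ψ ((d : ℤ) : ZMod (N * ℓ)) = ε ((d : ℤ) : ZMod N) * ψ ((d : ℤ) : ZMod ℓ) := by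
  obtain ⟨u, hu⟩ := hd
  unfold prodChar
  rw [MulChar.mul_apply, ← hu, DirichletCharacter.changeLevel_eq_cast_of_dvd,
    DirichletCharacter.changeLevel_eq_cast_of_dvd, hu,
    ZMod.cast_intCast (dvd_mul_right N ℓ), ZMod.cast_intCast (dvd_mul_left ℓ N)]

theorem prodChar_natCast {N ℓ : ℕ} (ε : DirichletCharacter ℂ N) (ψ : DirichletCharacter ℂ ℓ)
    {p : ℕ} (hp : IsUnit ((p : ℕ) : ZMod (N * ℓ))) :
    prodChar ε ψ ((p : ℕ) : ZMod (N * ℓ)) = ε ((p : ℕ) : ZMod N) * ψ ((p : ℕ) : ZMod ℓ) := by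
  have h := prodChar_intCast ε ψ (d := (p : ℤ)) (by simpa using hp)
  simpa using h

/-- **The product `D · h · E`.** -/
theorem resProd_exists {N ℓ : ℕ} [NeZero N] [NeZero ℓ] (ε : DirichletCharacter ℂ N)
    (ψ : DirichletCharacter ℂ ℓ) (h : CuspForm (Gamma1 N) 1) (E : ModularForm (Gamma1 ℓ) 1)
    (hh : HasNebenK N ε 1 h) (hE : HasNebenK ℓ ψ 1 E) (D : ℂ) :
    ∃ g : CuspForm (Gamma1 (N * ℓ)) 2, HasNebenK (N * ℓ) (prodChar ε ψ) 2 g ∧
      ∀ n : ℕ, ModularFormClass.qCoeff g n =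
        D * ∑ x ∈ Finset.HasAntidiagonal.antidiagonal n,
          ModularFormClass.qCoeff h x.1 * ModularFormClass.qCoeff E x.2 := by
  haveI : NeZero (N * ℓ) := ⟨Nat.mul_ne_zero (NeZero.ne N) (NeZero.ne ℓ)⟩
  have hneb : ∀ γ : SL(2, ℤ), γ ∈ Gamma0 (N * ℓ) → ∀ z : ℍ,
      (D • ((⇑h : ℍ → ℂ) * ⇑E)) (γ • z) =
        prodChar ε ψ ((γ 1 1 : ℤ) : ZMod (N * ℓ)) *
          ((γ 1 0 : ℂ) * (z : ℂ) + (γ 1 1 : ℂ)) ^ 2 * (D • ((⇑h : ℍ → ℂ) * ⇑E)) z := by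
    intro γ hγ z
    rw [prodChar_intCast ε ψ (sigma_isUnit_of_mem_Gamma0 hγ)]
    simp only [Pi.smul_apply, Pi.mul_apply, smul_eq_mul]
    rw [hh γ (resProd_mem_Gamma0_left hγ) z, hE γ (resProd_mem_Gamma0_right hγ) z]
    ring
  have hMD : MDiff (D • ((⇑h : ℍ → ℂ) * ⇑E)) :=
    ((CuspFormClass.holo h).mul (ModularFormClass.holo E)).const_smul D
  obtain ⟨g, hg⟩ := sigma_exists_cuspForm_G1 (N := N * ℓ) 2 (D • ((⇑h : ℍ → ℂ) * ⇑E)) hMD
    (by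
      intro γ hγ z
      have h1 := hneb γ (Gamma1_in_Gamma0 (N * ℓ) hγ) z
      have h2 : ((γ 1 1 : ℤ) : ZMod (N * ℓ)) = 1 := ((Gamma1_mem (N * ℓ) γ).mp hγ).2.1
      rw [h1, h2, map_one, one_mul]
      norm_cast)
    (by
      intro γ
      have h1 : ((D • ((⇑h : ℍ → ℂ) * ⇑E)) ∣[(2 : ℤ)] γ) =
          D • (((⇑h : ℍ → ℂ) ∣[(1 : ℤ)] γ) * ((⇑E : ℍ → ℂ) ∣[(1 : ℤ)] γ)) := by
        rw [ModularForm.SL_smul_slash, ← mul_slash_SL2]
        norm_num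
      rw [h1]
      have h2 := (sigma_slash_isZeroAtImInfty h γ).mul_boundedAtFilter
        (sigma_slash_isBoundedAtImInfty E γ)
      exact h2.smul D)
  refine ⟨g, ?_, ?_⟩
  · intro γ hγ z
    have := hneb γ hγ z
    rw [← hg] at this
    exact this
  · intro n
    have hhH : IsHPB (⇑h : ℍ → ℂ) := sigma_isHPB h
    have hEH : IsHPB (⇑E : ℍ → ℂ) := sigma_isHPB E
    have hmul : IsHPB ((⇑h : ℍ → ℂ) * ⇑E) := IsHPB.mul hhH hEH
    unfold ModularFormClass.qCoeff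
    rw [hg, qExpansion_smul hmul.analyticAt, sigma_qExpansion_mul hhH hEH,
      PowerSeries.coeff_smul, PowerSeries.coeff_mul, smul_eq_mul]

end Fermat.Agent.S48
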