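import Mathlib
import Fermat.Agent.S48.Plan2
import Fermat.Agent.S48.ResProd
import Fermat.Agent.S48.ZbLemmas

/-!
# S48 / RES glue: `StmtRes` from its pieces

`stmtResOfPieces : StmtIntPlus → StmtE1 → StmtDSL1 → StmtES1 → StmtRes`.

`h` = the form of `StmtIntPlus` (coefficients in `D⁻¹ ℤ̄`), `ℓ > D`, `E` = the Eisenstein series of
`StmtE1`; `g := D h E` is a cusp form of weight two on `Γ₁(N ℓ)` with nebentypus `ε ψ`, with
integral `q`-expansion `≡ E(0) · D h` mod `𝔪`, hence an eigenform mod `𝔪`; `StmtDSL1` and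
`StmtES1` give the representation, and `p · ψ(p) ≡ 1` mod `𝔪` turns its determinant into `ε(p)`.
-/

set_option autoImplicit false

open CongruenceSubgroup UpperHalfPlane

namespace Fermat.Agent.S48

/-- the values of a Dirichlet character are algebraic integers -/
theorem resGlue_isIntegral_char {N : ℕ} [NeZero N] (χ : DirichletCharacter ℂ N) (a : ZMod N) :
    IsIntegral ℤ (χ a) := by
  by_cases ha : IsUnit a
  · obtain ⟨u, rfl⟩ := ha
    have h1 : (χ (u : ZMod N)) ^ (Fintype.card (ZMod N)ˣ) = 1 := by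
      rw [← map_pow, ← Units.val_pow_eq_pow_val, pow_card_eq_one, Units.val_one, map_one]
    exact IsIntegral.of_pow Fintype.card_pos (h1 ▸ isIntegral_one)
  · rw [χ.map_nonunit ha]
    exact isIntegral_zero

/-- the values of a Dirichlet character, as algebraic integers -/
noncomputable def charZb {N : ℕ} [NeZero N] (χ : DirichletCharacter ℂ N) (a : ℕ) : Zb :=
  ⟨χ (a : ZMod N), resGlue_isIntegral_char χ _⟩

theorem coe_charZb {N : ℕ} [NeZero N] (χ : DirichletCharacter ℂ N) (a : ℕ) :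
    ((charZb χ a : Zb) : ℂ) = χ (a : ZMod N) := rfl

theorem resGlue_natCast_not_mem {𝔪 : Ideal Zb} (h𝔪 : 𝔪 ≠ ⊤) {ℓ : ℕ} (hℓ : ℓ.Prime)
    (hℓ𝔪 : ((ℓ : ℕ) : Zb) ∈ 𝔪) {D : ℕ} (hD : D ≠ 0) (hDℓ : D < ℓ) : ((D : ℕ) : Zb) ∉ 𝔪 := by
  intro h
  have h' : (((D : ℤ) : ℤ) : Zb) ∈ 𝔪 := by
    have : (((D : ℤ) : ℤ) : Zb) = ((D : ℕ) : Zb) := by push_cast; rfl
    rw [this]; exact h
  have hdvd : (ℓ : ℤ) ∣ (D : ℤ) := zb_int_dvd_of_mem h𝔪 hℓ hℓ𝔪 h'
  have hdvd' : ℓ ∣ D := Int.natCast_dvd_natCast.mp hdvd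
  have := Nat.le_of_dvd (Nat.pos_of_ne_zero hD) hdvd'
  omega

theorem resGlue_not_dvd_sq {p N ℓ : ℕ} (hp : p.Prime) (h : ¬ p ∣ N * ℓ) : ¬ p ∣ N * ℓ * ℓ := by
  intro h'
  rcases (Nat.Prime.dvd_mul hp).mp h' with h1 | h1
  · exact h h1
  · exact h (Dvd.dvd.mul_left h1 N)

/-- the congruence `c ≡ E(0) · u` for the coefficients of a product with `E ≡ E(0)` -/
theorem resGlue_conv_congr (𝔪 : Ideal Zb) (u cE : ℕ → Zb) (hcE : ∀ n : ℕ, n ≠ 0 → cE n ∈ 𝔪)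
    (n : ℕ) :
    (∑ x ∈ Finset.HasAntidiagonal.antidiagonal n, u x.1 * cE x.2) - u n * cE 0 ∈ 𝔪 := by
  classical
  have hmem : (n, 0) ∈ Finset.HasAntidiagonal.antidiagonal n := by
    rw [Finset.HasAntidiagonal.mem_antidiagonal]
    simp
  rw [← Finset.add_sum_erase _ _ hmem]
  simp only [add_sub_cancel_left]
  refine Ideal.sum_mem _ fun x hx => ?_
  rw [Finset.mem_erase, Finset.HasAntidiagonal.mem_antidiagonal] at hx
  have hx2 : x.2 ≠ 0 := by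
    intro h0
    apply hx.1
    have : x.1 = n := by have := hx.2; omega
    exact Prod.ext this h0
  exact Ideal.mul_mem_left _ _ (hcE x.2 hx2)

/-- **RES glue.** -/
theorem stmtResOfPieces : StmtResOfPieces := by
  intro hIP hE1 hDSL hES N _ ε f hf
  classical
  obtain ⟨h, D, hD, hh, hhneb, hhc, hhp⟩ := hIP N ε f hf
  refine ⟨max 5 (D + 1), fun ℓ hℓ hℓge 𝔪 h𝔪 hℓ𝔪 => ?_⟩
  haveI : NeZero ℓ := ⟨hℓ.ne_zero⟩
  haveI hNℓ : NeZero (N * ℓ) := ⟨Nat.mul_ne_zero (NeZero.ne N) hℓ.ne_zero⟩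
  haveI := h𝔪
  have h5 : 5 ≤ ℓ := le_trans (le_max_left _ _) hℓge
  have hDℓ : D < ℓ := by
    have := le_trans (le_max_right _ _) hℓge
    omega
  obtain ⟨ψ, E, cE, hψ, hEneb, hcE, hcE0, hcEn⟩ := hE1 ℓ hℓ h5 𝔪 h𝔪 hℓ𝔪
  obtain ⟨g, hgneb, hgq⟩ := resProd_exists ε ψ h E hhneb hEneb (D : ℂ)
  -- integral coefficients of `D h`
  choose u hu using hhc
  -- the eigenvalues
  have hap : ∀ p : ℕ, ∃ a : Zb, p.Prime → ¬ p ∣ N → (a : ℂ) = ModularFormClass.qCoeff f p := by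
    intro p
    by_cases hp : p.Prime ∧ ¬ p ∣ N
    · obtain ⟨a, ha⟩ := (hhp p hp.1 hp.2).2
      exact ⟨a, fun _ _ => ha⟩
    · exact ⟨0, fun h1 h2 => absurd ⟨h1, h2⟩ hp⟩
  choose a ha using hap
  -- coefficients of `g`
  set c : ℕ → Zb := fun n => ∑ x ∈ Finset.HasAntidiagonal.antidiagonal n, u x.1 * cE x.2 with hc
  have hcg : ∀ n : ℕ, (c n : ℂ) = ModularFormClass.qCoeff g n := by
    intro n
    rw [hgq n, hc, Finset.mul_sum]
    push_cast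
    refine Finset.sum_congr rfl fun x _ => ?_
    rw [hu, hcE]
    ring
  have hcong : ∀ n : ℕ, Ideal.Quotient.mk 𝔪 (c n) =
      Ideal.Quotient.mk 𝔪 (u n) * Ideal.Quotient.mk 𝔪 (cE 0) := by
    intro n
    rw [← map_mul]
    exact Ideal.Quotient.eq.mpr (resGlue_conv_congr 𝔪 u cE hcEn n)
  have hDmem : ((D : ℕ) : Zb) ∉ 𝔪 := resGlue_natCast_not_mem h𝔪.ne_top hℓ hℓ𝔪 hD hDℓ
  have hu0 : u 0 = 0 := by
    apply Subtype.ext
    rw [hu 0]
    have : ModularFormClass.qCoeff h 0 = 0 := by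
      unfold ModularFormClass.qCoeff
      have h1 := eisOdd_one_mem_strictPeriods N
      exact CuspFormClass.qExpansion_coeff_zero h one_pos h1
    rw [this, mul_zero]
    rfl
  have hu1 : u 1 = ((D : ℕ) : Zb) := by
    apply Subtype.ext
    rw [hu 1, hh.1, mul_one]
    push_cast
    rfl
  have hc1 : c 1 ∉ 𝔪 := by
    intro hmem
    have h1 := hcong 1
    rw [Ideal.Quotient.eq_zero_iff_mem.mpr hmem, hu1] at h1
    have h2 : ((D : ℕ) : Zb) * cE 0 ∈ 𝔪 := by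
      rw [← Ideal.Quotient.eq_zero_iff_mem, map_mul]
      exact h1.symm
    rcases (h𝔪.isPrime.mem_or_mem h2) with h3 | h3
    · exact hDmem h3
    · exact hcE0 h3
  -- the Hecke relation for `u`
  have hrel : ∀ p : ℕ, p.Prime → ¬ p ∣ N → ∀ n : ℕ,
      u (p * n) + charZb ε p * (if p ∣ n then u (n / p) else 0) = a p * u n := by
    intro p hp hpN n
    apply Subtype.ext
    have h1 := hh.2 p hp hpN n
    have h2 : ((if p ∣ n then u (n / p) else 0 : Zb) : ℂ) =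
        (D : ℂ) * (if p ∣ n then ModularFormClass.qCoeff h (n / p) else 0) := by
      split_ifs
      · exact hu _
      · simp
    push_cast
    rw [h2, hu, hu, ha p hp hpN, coe_charZb, ← (hhp p hp hpN).1]
    linear_combination (D : ℂ) * h1
  -- the characters
  set e : ℕ → Zb := fun p => charZb ε p * charZb ψ p with he
  have hpψ : ∀ p : ℕ, p.Prime → ¬ p ∣ N * ℓ →
      Ideal.Quotient.mk 𝔪 ((p : ℕ) : Zb) * Ideal.Quotient.mk 𝔪 (charZb ψ p) = 1 := by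
    intro p hp hpNℓ
    have hpℓ : ¬ ℓ ∣ p := by
      intro hdvd
      have : ℓ = p := (Nat.prime_dvd_prime_iff_eq hℓ hp).mp hdvd
      exact hpNℓ (this ▸ dvd_mul_left ℓ N)
    obtain ⟨w, hw, hw1⟩ := hψ p hpℓ
    have hww : w = charZb ψ p := Subtype.ext (by rw [hw, coe_charZb])
    rw [hww] at hw1
    rw [← map_mul, ← map_one (Ideal.Quotient.mk 𝔪)]
    exact Ideal.Quotient.eq.mpr hw1
  have hunit : ∀ p : ℕ, p.Prime → ¬ p ∣ N * ℓ → IsUnit ((p : ℕ) : ZMod (N * ℓ)) :=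
    fun p hp hpNℓ => (ZMod.isUnit_prime_iff_not_dvd hp).mpr hpNℓ
  have heθ : ∀ p : ℕ, p.Prime → ¬ p ∣ N * ℓ →
      (e p : ℂ) = prodChar ε ψ ((p : ℕ) : ZMod (N * ℓ)) := by
    intro p hp hpNℓ
    rw [prodChar_natCast ε ψ (hunit p hp hpNℓ), he]
    push_cast
    rw [coe_charZb, coe_charZb]
  -- the eigenform relation mod `𝔪`
  have hmod : ∀ p : ℕ, p.Prime → ¬ p ∣ N * ℓ * ℓ → ∀ n : ℕ,
      c (p * n) + ((p : ℕ) : Zb) * e p * (if p ∣ n then c (n / p) else 0) - a p * c n ∈ 𝔪 := by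
    intro p hp hpNℓℓ n
    have hpNℓ : ¬ p ∣ N * ℓ := fun h1 => hpNℓℓ (Dvd.dvd.mul_right h1 ℓ)
    have hpN : ¬ p ∣ N := fun h1 => hpNℓ (Dvd.dvd.mul_right h1 ℓ)
    rw [← Ideal.Quotient.eq_zero_iff_mem]
    have h1 := congrArg (Ideal.Quotient.mk 𝔪) (hrel p hp hpN n)
    have h2 := hpψ p hp hpNℓ
    have h3 : Ideal.Quotient.mk 𝔪 (if p ∣ n then c (n / p) else 0) =
        Ideal.Quotient.mk 𝔪 (if p ∣ n then u (n / p) else 0) * Ideal.Quotient.mk 𝔪 (cE 0) := by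
      split_ifs
      · exact hcong _
      · simp
    simp only [map_sub, map_add, map_mul] at h1 ⊢
    rw [hcong, hcong, h3, he]
    simp only [map_mul]
    linear_combination (Ideal.Quotient.mk 𝔪 (cE 0)) * h1 +
      (Ideal.Quotient.mk 𝔪 (charZb ε p)) *
        (Ideal.Quotient.mk 𝔪 (if p ∣ n then u (n / p) else 0)) * (Ideal.Quotient.mk 𝔪 (cE 0)) * h2
  obtain ⟨g', b, hg'0, hg'neb, heig, hbcong⟩ :=
    hDSL (N * ℓ) (prodChar ε ψ) g hgneb ℓ hℓ 𝔪 h𝔪 hℓ𝔪 c hcg ⟨1, hc1⟩ a e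
      (fun p hp hpNℓ => heθ p hp hpNℓ) hmod
  obtain ⟨ρ, hlev, hρ⟩ := hES (N * ℓ) (prodChar ε ψ) g' hg'0 hg'neb ℓ hℓ 𝔪 h𝔪 hℓ𝔪 b heig
  refine ⟨ρ, hlev, fun p hp hpNℓ A hA => ?_⟩
  have hpN : ¬ p ∣ N := fun h1 => hpNℓ (Dvd.dvd.mul_right h1 ℓ)
  obtain ⟨hin, hfr⟩ := hρ p hp (resGlue_not_dvd_sq hp hpNℓ) A hA
  refine ⟨hin, fun τ hτ => ?_⟩
  obtain ⟨t, d, ht, hd, htr, hdet⟩ := hfr τ hτ
  refine ⟨a p, charZb ε p, ha p hp hpN, coe_charZb ε p, ?_, ?_⟩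
  · rw [htr]
    exact Ideal.Quotient.eq.mpr (hbcong p hp (resGlue_not_dvd_sq hp hpNℓ) t ht)
  · rw [hdet]
    have hdd : d = ((p : ℕ) : Zb) * (charZb ε p * charZb ψ p) := by
      apply Subtype.ext
      rw [hd, prodChar_natCast ε ψ (hunit p hp hpNℓ)]
      push_cast
      rw [coe_charZb, coe_charZb]
    rw [hdd]
    simp only [map_mul]
    have h2 := hpψ p hp hpNℓ
    linear_combination (Ideal.Quotient.mk 𝔪 (charZb ε p)) * h2

end Fermat.Agent.S48
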