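import Mathlib
import Fermat.Agent.S48.Reduced
import Fermat.Agent.S48.ResGlue

/-!
# S48 (Deligne–Serre) from the five open pieces

`s48_of_pieces : StmtIntPlus → StmtE1 → StmtDSL1 → StmtES1 → StmtChebDensity → (S48)`.
-/

set_option autoImplicit false

open CongruenceSubgroup

namespace Fermat.Agent.S48

theorem stmtRes_of_pieces (hIP : StmtIntPlus) (hE1 : StmtE1) (hDSL : StmtDSL1) (hES : StmtES1) :
    StmtRes :=
  stmtResOfPieces hIP hE1 hDSL hES

/-- **S48 from its open pieces.** -/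
theorem s48_of_pieces (hIP : StmtIntPlus) (hE1 : StmtE1) (hDSL : StmtDSL1) (hES : StmtES1)
    (hCD : StmtChebDensity)
    (N : ℕ) [NeZero N] (ε : DirichletCharacter ℂ N) (f : CuspForm (Gamma1 N) 1)
    (hf₁ : ModularFormClass.qCoeff f 1 = 1)
    (hT : ∀ p : ℕ, p.Prime → ¬ p ∣ N → ∀ n : ℕ,
        ModularFormClass.qCoeff f (p * n) +
            ε (p : ZMod N) * (if p ∣ n then ModularFormClass.qCoeff f (n / p) else 0) =
          ModularFormClass.qCoeff f p * ModularFormClass.qCoeff f n) :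
    ∃ ρ : GalQ →* GL (Fin 2) ℂ, GaloisFactorsThroughFiniteLevel ρ ∧
      (Deformation.matrixRepresentation ρ).IsIrreducible ∧
      ∀ p : ℕ, p.Prime → ¬ p ∣ N →
        ∀ A : ValuationSubring (AlgebraicClosure ℚ), A.LiesOverPrime p →
          (∀ σ ∈ A.inertiaSubgroupIn ℚ, ρ σ = 1) ∧
          ∀ σ : GalQ, A.IsFrobeniusAt σ p →
            ((ρ σ : GL (Fin 2) ℂ) : Matrix (Fin 2) (Fin 2) ℂ).trace = ModularFormClass.qCoeff f p ∧
            ((ρ σ : GL (Fin 2) ℂ) : Matrix (Fin 2) (Fin 2) ℂ).det = ε (p : ZMod N) :=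
  s48_of_res_cd (stmtRes_of_pieces hIP hE1 hDSL hES) hCD N ε f hf₁ hT

end Fermat.Agent.S48
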