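import Mathlib
import Fermat.Agent.S48.Reduced2
import Fermat.Agent.S48.IntPlus
import Fermat.Agent.S48.DSL.Main

/-!
# S48 (Deligne–Serre) from its three open inputs

`s48_of_e1_es1_cd : StmtE1 → StmtES1 → StmtChebDensity → (S48)`:
* `StmtE1`  — the weight one Eisenstein series `≡ 1` mod `𝔪` (`S48/E1`),
* `StmtES1` — the Eichler–Shimura package for `Γ₁(M)` with nebentypus (`Fermat/Agent/ES1`),
* `StmtChebDensity` — Chebotarev's density theorem (`S48/CD`).
-/

set_option autoImplicit false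

open CongruenceSubgroup

namespace Fermat.Agent.S48

theorem stmtIntPlus : StmtIntPlus := stmtIntPlus_of_neben stmtNeben

theorem stmtRes_of_e1_es1 (hE1 : StmtE1) (hES : StmtES1) : StmtRes :=
  stmtResOfPieces stmtIntPlus hE1 stmtDSL1 hES

/-- **S48 from its three open inputs.** -/
theorem s48_of_e1_es1_cd (hE1 : StmtE1) (hES : StmtES1) (hCD : StmtChebDensity)
    (N : ℕ) [NeZero N] (ε : DirichletCharacter ℂ N) (f : CuspForm (Gamma1 N) 1)
    (hf₁ : ModularFormClass.qCoeff f 1 = 1)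
    (hT : ∀ p : ℕ, p.Prime → ¬ p ∣ N → ∀ n : ℕ,
        ModularFormClass.qCoeff f (p * n) +
            ε (p : ZMod N) * (if p ∣ n then ModularFormClass.qCoeff f (n / p) else 0) =
          ModularFormClass.qCoeff f p * ModularFormClass.qCoeff f n) :
    ∃ ρ : GalQ →* GL (Fin 2) ℂ, GaloisFactorsThroughFiniteLevel ρ ∧
      (Deformation.matrixRepresentation ρ).IsIrreducible ∧
      ∀ p : ℕ, p.Prime → ¬ p ∣ N →
        ∀ A : ValuationSubring (AlgebraicClosure ℚ), A.LiesOverPrime p →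
          (∀ σ ∈ A.inertiaSubgroupIn ℚ, ρ σ = 1) ∧
          ∀ σ : GalQ, A.IsFrobeniusAt σ p →
            ((ρ σ : GL (Fin 2) ℂ) : Matrix (Fin 2) (Fin 2) ℂ).trace = ModularFormClass.qCoeff f p ∧
            ((ρ σ : GL (Fin 2) ℂ) : Matrix (Fin 2) (Fin 2) ℂ).det = ε (p : ZMod N) :=
  s48_of_res_cd (stmtRes_of_e1_es1 hE1 hES) hCD N ε f hf₁ hT

end Fermat.Agent.S48
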