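import Fermat.Agent.S48.Plan

/-!
# S48 / SIG: statement

`HasNeben N χ g` : the weight one cusp form `g` on `Γ₁(N)` has nebentypus `χ` on `Γ₀(N)`.
`StmtSigmaGen`   : the conjugates `∑ σ(a_n) qⁿ` of a weight one cusp form with nebentypus `χ` are
weight one cusp forms with nebentypus `σ ∘ χ`.
-/

set_option autoImplicit false

open CongruenceSubgroup UpperHalfPlane
open scoped MatrixGroups

namespace Fermat.Agent.S48

/-- `g` has nebentypus `χ`: `g(γ z) = χ(d) (c z + d) g(z)` for `γ ∈ Γ₀(N)`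
(the same shape as `StmtNeben`). -/
def HasNeben (N : ℕ) [NeZero N] (χ : DirichletCharacter ℂ N) (g : CuspForm (Gamma1 N) 1) : Prop :=
  ∀ γ : SL(2, ℤ), γ ∈ Gamma0 N → ∀ z : ℍ,
    g (γ • z) = χ ((γ 1 1 : ℤ) : ZMod N) * ((γ 1 0 : ℂ) * (z : ℂ) + (γ 1 1 : ℂ)) * g z

/-- (SIG, general form) the conjugates of a weight one cusp form with nebentypus `χ` are weight
one cusp forms with nebentypus `σ ∘ χ`. -/
def StmtSigmaGen : Prop :=
  ∀ (N : ℕ) [NeZero N] (χ : DirichletCharacter ℂ N) (g : CuspForm (Gamma1 N) 1),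
    HasNeben N χ g → ∀ σ : ℂ →+* ℂ,
      ∃ g' : CuspForm (Gamma1 N) 1, HasNeben N (χ.ringHomComp σ) g' ∧
        ∀ n : ℕ, ModularFormClass.qCoeff g' n = σ (ModularFormClass.qCoeff g n)

end Fermat.Agent.S48
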